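/-
P-S27, block G2(b) (helper96): the degree of `F` over `K(belyiJ β)`.

`β` is a root of the monic sextic `(T² + 224 T + 256)³ - x T (T - 16)⁴` over `K⟮x⟯`,
`x = belyiJ β`, hence `[F : K⟮x⟯] ≤ 6 [F : K⟮β⟯]`.

* `belyiJ_mem_adjoin` : `belyiJ β ∈ K⟮β⟯`;
* `isIntegral_adjoin_belyiJ` : `β` is integral over `K⟮belyiJ β⟯`;
* `finiteDimensional_adjoin_belyiJ`, `finrank_adjoin_belyiJ_le` : `F` is finite over
  `K⟮belyiJ β⟯`, of degree at most `6 * [F : K⟮β⟯]`.
-/
import Mathlib
import Fermat.Agent.S27x.G2b.Defs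

set_option autoImplicit false

open Polynomial IntermediateField

namespace Fermat.Agent.S27x.G2b

variable (K : Type*) {F : Type*} [Field K] [Field F] [Algebra K F] (β : F)

theorem belyiJ_mem_adjoin : belyiJ β ∈ IntermediateField.adjoin K {β} := by
  have hβ : β ∈ IntermediateField.adjoin K {β} := mem_adjoin_simple_self K β
  have h224 : (224 : F) ∈ IntermediateField.adjoin K {β} := by simp
  have h256 : (256 : F) ∈ IntermediateField.adjoin K {β} := by simp
  have h16 : (16 : F) ∈ IntermediateField.adjoin K {β} := by simp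
  unfold belyiJ
  exact div_mem (pow_mem (add_mem (add_mem (pow_mem hβ 2) (mul_mem h224 hβ)) h256) 3)
    (mul_mem hβ (pow_mem (sub_mem hβ h16) 4))

theorem adjoin_belyiJ_le : IntermediateField.adjoin K {belyiJ β} ≤ IntermediateField.adjoin K {β} :=
  adjoin_simple_le_iff.2 (belyiJ_mem_adjoin K β)

/-- The sextic satisfied by `β` over `K⟮belyiJ β⟯`. -/
noncomputable def belyiSextic : (IntermediateField.adjoin K {belyiJ β})[X] :=
  (X ^ 2 + 224 * X + 256) ^ 3 -
    C (⟨belyiJ β, mem_adjoin_simple_self K (belyiJ β)⟩ : IntermediateField.adjoin K {belyiJ β}) *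
      (X * (X - 16) ^ 4)

theorem belyiSextic_monic : (belyiSextic K β).Monic := by
  unfold belyiSextic
  monicity!

theorem belyiSextic_natDegree : (belyiSextic K β).natDegree = 6 := by
  unfold belyiSextic
  compute_degree!

theorem aeval_belyiSextic (h0 : β ≠ 0) (h16 : β - 16 ≠ 0) : aeval β (belyiSextic K β) = 0 := by
  unfold belyiSextic
  simp only [map_sub, map_mul, map_pow, map_add, aeval_X, aeval_C, map_ofNat]
  change _ - belyiJ β * _ = 0
  unfold belyiJ
  have : β * (β - 16) ^ 4 ≠ 0 := mul_ne_zero h0 (pow_ne_zero 4 h16)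
  field_simp
  ring

theorem isIntegral_adjoin_belyiJ (h0 : β ≠ 0) (h16 : β - 16 ≠ 0) :
    IsIntegral (IntermediateField.adjoin K {belyiJ β}) β :=
  ⟨belyiSextic K β, belyiSextic_monic K β, aeval_belyiSextic K β h0 h16⟩

theorem extendScalars_adjoin_belyiJ_le :
    IntermediateField.extendScalars (adjoin_belyiJ_le K β) =
      IntermediateField.adjoin (IntermediateField.adjoin K {belyiJ β}) {β} := by
  apply le_antisymm
  · intro e he
    rw [IntermediateField.mem_extendScalars] at he
    have h1 : IntermediateField.adjoin K {β} ≤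
        (IntermediateField.adjoin (IntermediateField.adjoin K {belyiJ β}) {β}).restrictScalars K :=
      adjoin_simple_le_iff.2 (mem_adjoin_simple_self _ β)
    exact h1 he
  · rw [adjoin_simple_le_iff, IntermediateField.mem_extendScalars]
    exact mem_adjoin_simple_self K β

theorem relfinrank_adjoin_belyiJ (h0 : β ≠ 0) (h16 : β - 16 ≠ 0) :
    0 < (IntermediateField.adjoin K {belyiJ β}).relfinrank (IntermediateField.adjoin K {β}) ∧
      (IntermediateField.adjoin K {belyiJ β}).relfinrank (IntermediateField.adjoin K {β}) ≤ 6 := by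
  have hint := isIntegral_adjoin_belyiJ K β h0 h16
  rw [IntermediateField.relfinrank_eq_finrank_of_le (adjoin_belyiJ_le K β),
    extendScalars_adjoin_belyiJ_le, IntermediateField.adjoin.finrank hint]
  refine ⟨minpoly.natDegree_pos hint, ?_⟩
  rw [← belyiSextic_natDegree K β]
  exact natDegree_le_of_dvd (minpoly.dvd _ _ (aeval_belyiSextic K β h0 h16))
    (belyiSextic_monic K β).ne_zero

theorem finrank_adjoin_belyiJ_le (h0 : β ≠ 0) (h16 : β - 16 ≠ 0) :
    Module.finrank (IntermediateField.adjoin K {belyiJ β}) F ≤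
      6 * Module.finrank (IntermediateField.adjoin K {β}) F := by
  rw [← IntermediateField.relfinrank_mul_finrank_top (adjoin_belyiJ_le K β)]
  exact Nat.mul_le_mul_right _ (relfinrank_adjoin_belyiJ K β h0 h16).2

theorem finiteDimensional_adjoin_belyiJ [FiniteDimensional (IntermediateField.adjoin K {β}) F]
    (h0 : β ≠ 0) (h16 : β - 16 ≠ 0) :
    FiniteDimensional (IntermediateField.adjoin K {belyiJ β}) F := by
  apply FiniteDimensional.of_finrank_pos
  rw [← IntermediateField.relfinrank_mul_finrank_top (adjoin_belyiJ_le K β)]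
  exact Nat.mul_pos (relfinrank_adjoin_belyiJ K β h0 h16).1 Module.finrank_pos

end Fermat.Agent.S27x.G2b
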