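import Mathlib
import Fermat.Agent.S24.SymmFn

/-!
helper29 (P-S27, block G2b, part of F3/F6 of note 908).

The subalgebra `SymmFn.growthAlg ⊆ HolFun` of holomorphic functions on `ℍ` all of whose
`SL(2,ℤ)`-translates have moderate growth at `i∞` is *integrally closed* in `HolFun`:
a holomorphic function which is a root of a monic polynomial with coefficients in `growthAlg`
lies in `growthAlg` (Cauchy's root bound `|x| ≤ 1 + ∑ |aᵢ|`).

Main declarations (namespace `Fermat.Agent.S27x.G2b`):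
* `norm_le_of_monic_relation` : Cauchy's root bound;
* `MG_of_norm_le` : a function dominated by `1 + ∑ ‖gᵢ‖` with `gᵢ` of moderate growth has
  moderate growth;
* `mem_growthAlg_of_relation`, `mem_growthAlg_of_isIntegral`,
  `mem_growthAlg_of_isIntegral_of_le` : integral closedness.
-/

set_option autoImplicit false

open UpperHalfPlane Complex Filter Asymptotics
open scoped Manifold MatrixGroups Topology

namespace Fermat.Agent.S27x.G2b

open Fermat.Agent.S24 Fermat.Agent.S24.SymmFn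

local notation "Δ" => ModularForm.discriminant

/-- **Cauchy's root bound.** -/
theorem norm_le_of_monic_relation {n : ℕ} (a : Fin n → ℂ) (x : ℂ)
    (h : x ^ n + ∑ i : Fin n, a i * x ^ (i : ℕ) = 0) : ‖x‖ ≤ 1 + ∑ i : Fin n, ‖a i‖ := by
  have hS : 0 ≤ ∑ i : Fin n, ‖a i‖ := Finset.sum_nonneg fun i _ => norm_nonneg _
  by_cases hx : ‖x‖ ≤ 1
  · linarith
  rw [not_le] at hx
  have hx0 : 0 < ‖x‖ := lt_trans zero_lt_one hx
  rcases Nat.eq_zero_or_pos n with hn | hn
  · subst hn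
    simp at h
  obtain ⟨m, rfl⟩ : ∃ m, n = m + 1 := ⟨n - 1, by omega⟩
  have h1 : x ^ (m + 1) = -∑ i : Fin (m + 1), a i * x ^ (i : ℕ) := eq_neg_of_add_eq_zero_left h
  have h2 : ‖x‖ ^ (m + 1) ≤ (∑ i : Fin (m + 1), ‖a i‖) * ‖x‖ ^ m := by
    calc ‖x‖ ^ (m + 1) = ‖x ^ (m + 1)‖ := (norm_pow x (m + 1)).symm
      _ = ‖∑ i : Fin (m + 1), a i * x ^ (i : ℕ)‖ := by rw [h1, norm_neg]
      _ ≤ ∑ i : Fin (m + 1), ‖a i * x ^ (i : ℕ)‖ := norm_sum_le _ _
      _ ≤ ∑ i : Fin (m + 1), ‖a i‖ * ‖x‖ ^ m := by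
          refine Finset.sum_le_sum fun i _ => ?_
          rw [norm_mul, norm_pow]
          refine mul_le_mul_of_nonneg_left ?_ (norm_nonneg _)
          exact pow_le_pow_right₀ hx.le (Nat.lt_succ_iff.mp i.2)
      _ = (∑ i : Fin (m + 1), ‖a i‖) * ‖x‖ ^ m := by rw [Finset.sum_mul]
  have h3 : ‖x‖ ≤ ∑ i : Fin (m + 1), ‖a i‖ := by
    have hpos : 0 < ‖x‖ ^ m := pow_pos hx0 m
    rw [pow_succ'] at h2
    exact le_of_mul_le_mul_right h2 hpos
  linarith

/-- A function dominated by `1 + ∑ ‖gᵢ‖`, with all `gᵢ` of moderate growth at `i∞`, has moderate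
growth at `i∞`. -/
theorem MG_of_norm_le {n : ℕ} {f : ℍ → ℂ} {g : Fin n → ℍ → ℂ} (hg : ∀ i, MG (g i))
    (hle : ∀ z, ‖f z‖ ≤ 1 + ∑ i : Fin n, ‖g i z‖) : MG f := by
  choose M hM using hg
  set M₀ : ℕ := ∑ i : Fin n, M i with hM₀
  have hMi : ∀ i, M i ≤ M₀ := fun i =>
    Finset.single_le_sum (f := M) (fun j _ => Nat.zero_le _) (Finset.mem_univ i)
  have hb : ∀ i, IsBoundedAtImInfty (fun z : ℍ => Δ z ^ M₀ * g i z) := by
    intro i
    have h := (isBoundedAtImInfty_discriminant_pow (M₀ - M i)).mul (hM i)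
    have he : (fun z : ℍ => Δ z ^ M₀ * g i z)
        = (fun z : ℍ => Δ z ^ (M₀ - M i)) * (fun z : ℍ => Δ z ^ M i * g i z) := by
      funext z
      simp only [Pi.mul_apply]
      rw [← mul_assoc, ← pow_add, Nat.sub_add_cancel (hMi i)]
    rw [he]
    exact h
  refine ⟨M₀, ?_⟩
  have h0 := isBoundedAtImInfty_discriminant_pow M₀
  unfold IsBoundedAtImInfty BoundedAtFilter at *
  have hG : (fun z : ℍ => ‖Δ z ^ M₀‖ + ∑ i : Fin n, ‖Δ z ^ M₀ * g i z‖)
      =O[atImInfty] (1 : ℍ → ℝ) :=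
    h0.norm_left.add (by
      have := IsBigO.sum (ι := Fin n) (s := Finset.univ) (l := atImInfty)
        (A := fun i => fun z : ℍ => ‖Δ z ^ M₀ * g i z‖) (g := (1 : ℍ → ℝ))
        (fun i _ => (hb i).norm_left)
      simpa only [Finset.sum_fn] using this)
  refine IsBigO.trans (IsBigO.of_bound 1 (Eventually.of_forall fun z => ?_)) hG
  rw [one_mul, norm_mul]
  have hnn : 0 ≤ ‖Δ z ^ M₀‖ + ∑ i : Fin n, ‖Δ z ^ M₀ * g i z‖ :=
    add_nonneg (norm_nonneg _) (Finset.sum_nonneg fun i _ => norm_nonneg _)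
  rw [Real.norm_of_nonneg hnn]
  calc ‖Δ z ^ M₀‖ * ‖f z‖ ≤ ‖Δ z ^ M₀‖ * (1 + ∑ i : Fin n, ‖g i z‖) :=
        mul_le_mul_of_nonneg_left (hle z) (norm_nonneg _)
    _ = ‖Δ z ^ M₀‖ + ∑ i : Fin n, ‖Δ z ^ M₀ * g i z‖ := by
        rw [mul_add, mul_one, Finset.mul_sum]
        simp only [norm_mul]

/-- **`growthAlg` is integrally closed in `HolFun`** (explicit relation form). -/
theorem mem_growthAlg_of_relation {n : ℕ} (a : Fin n → HolFun) (ha : ∀ i, a i ∈ growthAlg)
    (h : HolFun) (hrel : h ^ n + ∑ i : Fin n, a i * h ^ (i : ℕ) = 0) : h ∈ growthAlg := by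
  intro γ
  have hrel' : (γ • h) ^ n + ∑ i : Fin n, (γ • a i) * (γ • h) ^ (i : ℕ) = 0 := by
    have := congrArg (fun f : HolFun => γ • f) hrel
    simpa only [smul_add, smul_pow', Finset.smul_sum, smul_mul', smul_zero] using this
  refine MG_of_norm_le (g := fun i => ((γ • a i : HolFun) : ℍ → ℂ)) (fun i => ?_) (fun z => ?_)
  · have := smul_mem_growthAlg (ha i) γ 1
    rwa [one_smul] at this
  · apply norm_le_of_monic_relation
    have := congrArg (fun f : HolFun => (f : ℍ → ℂ) z) hrel'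
    simpa using this

/-- **`growthAlg` is integrally closed in `HolFun`.** -/
theorem mem_growthAlg_of_isIntegral {h : HolFun} (hint : IsIntegral growthAlg h) :
    h ∈ growthAlg := by
  obtain ⟨p, hp, hroot⟩ := hint
  set n := p.natDegree with hn
  refine mem_growthAlg_of_relation (n := n) (fun i => ((p.coeff i : growthAlg) : HolFun))
    (fun i => (p.coeff i).2) h ?_
  rw [Polynomial.eval₂_eq_sum_range, Finset.sum_range_succ, ← hn] at hroot
  have hlead : p.coeff n = 1 := hp.coeff_natDegree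
  rw [hlead, map_one, one_mul, add_comm, ← Fin.sum_univ_eq_sum_range
    (fun i => (algebraMap growthAlg HolFun) (p.coeff i) * h ^ i) n] at hroot
  exact hroot

/-- A holomorphic function integral over a subalgebra of `growthAlg` lies in `growthAlg`. -/
theorem mem_growthAlg_of_isIntegral_of_le {A : Subalgebra ℂ HolFun} (hA : A ≤ growthAlg)
    {h : HolFun} (hint : IsIntegral A h) : h ∈ growthAlg := by
  apply mem_growthAlg_of_isIntegral
  obtain ⟨p, hp, hroot⟩ := hint
  refine ⟨p.map (Subalgebra.inclusion hA).toRingHom, hp.map _, ?_⟩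
  rw [Polynomial.eval₂_map]
  exact hroot

end Fermat.Agent.S27x.G2b
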