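import Mathlib
import Fermat.Agent.Gateway.GoodRed.Forms.AuxData

/-!
# P-S27, block G2(b), file F3: the level four Hauptmodul as a holomorphic function on `ℍ`

`t4 : HolFun` is the analytic avatar of the Hauptmodul `x₄` of `X₀(4)` (`q`-expansion
`x₄ = q⁻¹ + 8 + 20 q - …`).  It satisfies the modular relations
`j · t (t - 16)⁴ = (t² + 224 t + 256)³`, `j(4z) · t (t - 16) = (t² - 16 t + 16)³`, is invariant
exactly under `Γ₀(4)`, and omits the values `0` and `16`.
-/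

set_option autoImplicit false

open UpperHalfPlane ModularCurve CongruenceSubgroup
open scoped MatrixGroups

noncomputable section

namespace Fermat.Agent.S27x.G2b

open Fermat.Agent.S24 Fermat.Agent.S24.QExp Fermat.Agent.S24.Setup Fermat.Agent.S24.JLevel
open Fermat.Agent.Gateway.GoodRed.Forms Fermat.Agent.Gateway.AuxLevel

/-- The level four Hauptmodul `x₄` as a holomorphic function on the upper half plane. -/
def t4 : HolFun := (formsData4 4 (dvd_refl 4)).θ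

theorem t4_mem_perFun : t4 ∈ PerFun := (formsData4 4 (dvd_refl 4)).θ_per

/-- `t4` as a periodic function of moderate growth. -/
def t4Per : PerFun := ⟨t4, t4_mem_perFun⟩

theorem qLaurent_t4Per : qLaurent t4Per = coeffMap iota L4.x4K := by
  have h := (formsData4 4 (dvd_refl 4)).θ_q
  rw [formsData4_tq] at h
  exact h

theorem qLaurent_jdPer_eq (d : ℕ) [NeZero d] : qLaurent (jdPer d) = coeffMap iota (jK d) := by
  rw [Fermat.Agent.S24.QExp.qLaurent_jdPer, coeffMap_iota_jK]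

theorem qLaurent_sub' (a b : PerFun) : qLaurent (a - b) = qLaurent a - qLaurent b :=
  map_sub qLaurent a b

/-- `j · t (t - 16)⁴ = (t² + 224 t + 256)³` in `PerFun`. -/
theorem jdPer_one_mul_t4Per :
    jdPer 1 * (t4Per * (t4Per - 16) ^ 4) = (t4Per ^ 2 + 224 * t4Per + 256) ^ 3 := by
  apply qLaurent_injective
  have h := congrArg (coeffMap iota) L4.jq_x4K
  simp only [map_mul, map_pow, map_sub, map_add, map_ofNat] at h
  simp only [map_mul, map_pow, qLaurent_sub', map_add, map_ofNat, qLaurent_t4Per, qLaurent_jdPer_eq]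
  exact h

/-- `j(4z) · t (t - 16) = (t² - 16 t + 16)³` in `PerFun`. -/
theorem jdPer_four_mul_t4Per :
    jdPer 4 * (t4Per * (t4Per - 16)) = (t4Per ^ 2 - 16 * t4Per + 16) ^ 3 := by
  apply qLaurent_injective
  have h := congrArg (coeffMap iota) L4.jq4_x4K
  simp only [map_mul, map_pow, map_sub, map_add, map_ofNat] at h
  simp only [map_mul, map_pow, qLaurent_sub', map_add, map_ofNat, qLaurent_t4Per, qLaurent_jdPer_eq]
  exact h

/-- **The modular relation** `j · t (t - 16)⁴ = (t² + 224 t + 256)³`. -/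
theorem jHol_mul_t4 : jHol * (t4 * (t4 - 16) ^ 4) = (t4 ^ 2 + 224 * t4 + 256) ^ 3 := by
  have h := congrArg (fun f : PerFun => (f : HolFun)) jdPer_one_mul_t4Per
  rw [← Fermat.Agent.S24.JD.jd_one_eq_jHol]
  exact h

theorem jd_four_mul_t4 : jd 4 * (t4 * (t4 - 16)) = (t4 ^ 2 - 16 * t4 + 16) ^ 3 := by
  have h := congrArg (fun f : PerFun => (f : HolFun)) jdPer_four_mul_t4Per
  exact h

/-- `t4` is `Γ₀(4)`-invariant. -/
theorem smul_t4 {γ : SL(2, ℤ)} (hγ : γ ∈ Gamma0 4) : γ • t4 = t4 := by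
  have h := (formsData4 4 (dvd_refl 4)).hauptAn.inv γ hγ
  rw [FormsData.hauptAn_θ] at h
  exact h

theorem holFun_ofNat_apply (n : ℕ) [n.AtLeastTwo] (τ : ℍ) :
    ((OfNat.ofNat n : HolFun) : ℍ → ℂ) τ = OfNat.ofNat n := rfl

/-- `t4` omits the value `0`. -/
theorem t4_ne_zero (τ : ℍ) : (t4 : ℍ → ℂ) τ ≠ 0 := by
  intro h0
  have h := congrArg (fun f : HolFun => (f : ℍ → ℂ) τ) jHol_mul_t4
  simp only [HolFun.coe_mul_apply, HolFun.coe_pow_apply, HolFun.coe_sub_apply,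
    HolFun.coe_add_apply, h0] at h
  have e16 : ((16 : HolFun) : ℍ → ℂ) τ = 16 := rfl
  have e224 : ((224 : HolFun) : ℍ → ℂ) τ = 224 := rfl
  have e256 : ((256 : HolFun) : ℍ → ℂ) τ = 256 := rfl
  rw [e16, e224, e256] at h
  norm_num at h

/-- `t4` omits the value `16`. -/
theorem t4_ne_sixteen (τ : ℍ) : (t4 : ℍ → ℂ) τ ≠ 16 := by
  intro h0
  have h := congrArg (fun f : HolFun => (f : ℍ → ℂ) τ) jHol_mul_t4
  simp only [HolFun.coe_mul_apply, HolFun.coe_pow_apply, HolFun.coe_sub_apply,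
    HolFun.coe_add_apply, h0] at h
  have e16 : ((16 : HolFun) : ℍ → ℂ) τ = 16 := rfl
  have e224 : ((224 : HolFun) : ℍ → ℂ) τ = 224 := rfl
  have e256 : ((256 : HolFun) : ℍ → ℂ) τ = 256 := rfl
  rw [e16, e224, e256] at h
  norm_num at h

theorem t4_mul_sub_ne_zero : t4 * (t4 - 16) ≠ 0 := by
  intro h
  have h1 := congrArg (fun f : HolFun => (f : ℍ → ℂ) UpperHalfPlane.I) h
  simp only [HolFun.coe_mul_apply, HolFun.coe_sub_apply, HolFun.coe_zero_apply] at h1
  have e16 : ((16 : HolFun) : ℍ → ℂ) UpperHalfPlane.I = 16 := rfl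
  rw [e16] at h1
  rcases mul_eq_zero.mp h1 with h2 | h2
  · exact t4_ne_zero _ h2
  · exact t4_ne_sixteen _ (sub_eq_zero.mp h2)

/-- The stabiliser of `t4` in `SL₂(ℤ)` is contained in `Γ₀(4)`. -/
theorem mem_Gamma0_of_smul_t4 {γ : SL(2, ℤ)} (h : γ • t4 = t4) : γ ∈ Gamma0 4 := by
  apply mem_Gamma0_of_smul_jd_eq
  have h1 := congrArg (fun f : HolFun => γ • f) jd_four_mul_t4
  simp only [smul_mul', smul_pow', smul_sub, smul_add] at h1
  have h16 : γ • (16 : HolFun) = 16 := by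
    ext τ
    rw [HolFun.sl_smul_apply, holFun_ofNat_apply, holFun_ofNat_apply]
  rw [h, h16, ← jd_four_mul_t4] at h1
  exact mul_right_cancel₀ t4_mul_sub_ne_zero h1

/-- **F3 of block G2(b).**  The level four Hauptmodul on `ℍ`. -/
theorem exists_haupt4 : ∃ t : HolFun,
    jHol * (t * (t - 16) ^ 4) = (t ^ 2 + 224 * t + 256) ^ 3 ∧
    (∀ γ : SL(2, ℤ), γ • t = t → γ ∈ Gamma0 4) ∧
    (∀ γ ∈ Gamma0 4, γ • t = t) ∧
    ∀ τ : ℍ, (t : ℍ → ℂ) τ ≠ 0 ∧ (t : ℍ → ℂ) τ ≠ 16 :=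
  ⟨t4, jHol_mul_t4, fun _ h => mem_Gamma0_of_smul_t4 h, fun _ h => smul_t4 h,
    fun τ => ⟨t4_ne_zero τ, t4_ne_sixteen τ⟩⟩

end Fermat.Agent.S27x.G2b

end

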