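import Mathlib
import Fermat.Agent.Gateway.Dict.MerInvJ
import Fermat.Agent.S27x.G2b.Haupt4
import Fermat.Agent.S27x.G2b.GrowthIntClosed

/-!
helper29 (P-S27, block G2b): complements to `Haupt4.lean` (helper80) on the level 4 Hauptmodul
`t4 : HolFun`.

Main declarations (namespace `Fermat.Agent.S27x.G2b`):
* `holInv`, `mul_holInv`, `isUnit_of_forall_ne_zero`: nowhere vanishing elements of `HolFun` are
  units;
* `jFn_t4_apply`: the relation `j = R(t₄)` pointwise;
* `isUnit_t4`, `isUnit_t4_sub`, inverses `t4inv`, `t4subinv` (`t4_mul_t4inv`,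
  `t4_sub_mul_t4subinv`), `smul_t4inv`, `smul_t4subinv`: invariance under `Γ₀(4)`;
* `jAlg = ℂ[j] ⊆ HolFun`, `isIntegral_t4`, `isIntegral_t4inv`, `isIntegral_t4subinv` (integrality
  over `ℂ[j]`), hence `t4_mem_growthAlg`, `t4inv_mem_growthAlg`, `t4subinv_mem_growthAlg`
  (`SymmFn.growthAlg` = all `SL(2,ℤ)`-translates of moderate growth at `i∞`);
* `transcendental_t4 : Transcendental ℂ t4` (`t₄` is not constant);
* `exists_haupt4_units`: the summary.
-/

set_option autoImplicit false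

open ModularCurve IntermediateField Polynomial CongruenceSubgroup
open UpperHalfPlane hiding I
open scoped MatrixGroups

namespace Fermat.Agent.S27x.G2b

open Fermat.Agent.S24 Fermat.Agent.S24.SymmFn
open Fermat.Agent.Gateway.Dict

/-! ### Nowhere vanishing holomorphic functions are units -/

/-- The pointwise inverse of a nowhere vanishing holomorphic function. -/
noncomputable def holInv (f : HolFun) (h : ∀ z : ℍ, (f : ℍ → ℂ) z ≠ 0) : HolFun :=
  ⟨fun z => ((f : ℍ → ℂ) z)⁻¹, by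
    have hd := UpperHalfPlane.mdifferentiable_iff.mp f.2
    exact UpperHalfPlane.mdifferentiable_iff.mpr (hd.inv fun z _ => h _)⟩

@[simp] theorem holInv_apply (f : HolFun) (h : ∀ z : ℍ, (f : ℍ → ℂ) z ≠ 0) (z : ℍ) :
    (holInv f h : ℍ → ℂ) z = ((f : ℍ → ℂ) z)⁻¹ := rfl

theorem mul_holInv (f : HolFun) (h : ∀ z : ℍ, (f : ℍ → ℂ) z ≠ 0) : f * holInv f h = 1 :=
  HolFun.ext fun z => mul_inv_cancel₀ (h z)

theorem isUnit_of_forall_ne_zero (f : HolFun) (h : ∀ z : ℍ, (f : ℍ → ℂ) z ≠ 0) : IsUnit f :=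
  IsUnit.of_mul_eq_one _ (mul_holInv f h)

theorem smul_holInv (γ : SL(2, ℤ)) (f : HolFun) (h : ∀ z : ℍ, (f : ℍ → ℂ) z ≠ 0)
    (hγ : γ • f = f) : γ • holInv f h = holInv f h := by
  ext z
  rw [HolFun.sl_smul_apply, holInv_apply, holInv_apply, ← HolFun.sl_smul_apply, hγ]

/-! ### An integrality criterion -/

section Integrality

variable {R S : Type*} [CommRing R] [CommRing S] [Algebra R S]

/-- If `c · Q(x) = P(x)` with `P` monic and `deg Q < deg P` then `x` is integral. -/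
theorem isIntegral_of_relation (P Q : R[X]) (hP : P.Monic) (hdeg : Q.natDegree < P.natDegree)
    (c : R) (x : S) (h : algebraMap R S c * aeval x Q = aeval x P) : IsIntegral R x := by
  refine ⟨P - C c * Q,
    hP.sub_of_left (degree_lt_degree (lt_of_le_of_lt (natDegree_C_mul_le c Q) hdeg)), ?_⟩
  rw [← aeval_def, map_sub, map_mul, aeval_C, h, sub_self]

theorem monic_quadC (a b : R) : (X ^ 2 + C a * X + C b : R[X]).Monic := by
  rw [add_assoc]
  exact monic_X_pow_add (lt_of_le_of_lt degree_linear_le (by norm_num))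

theorem natDegree_quadC [Nontrivial R] (a b : R) :
    (X ^ 2 + C a * X + C b : R[X]).natDegree = 2 := by
  rw [add_assoc, natDegree_add_eq_left_of_natDegree_lt, natDegree_X_pow]
  rw [natDegree_X_pow]
  exact lt_of_le_of_lt natDegree_linear_le (by norm_num)

theorem monic_quadC_cube (a b : R) : ((X ^ 2 + C a * X + C b) ^ 3 : R[X]).Monic :=
  (monic_quadC a b).pow 3

theorem natDegree_quadC_cube [Nontrivial R] (a b : R) :
    ((X ^ 2 + C a * X + C b) ^ 3 : R[X]).natDegree = 6 := by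
  rw [(monic_quadC a b).natDegree_pow, natDegree_quadC]

theorem aeval_quadC_cube (a b : R) (x : S) :
    aeval x ((X ^ 2 + C a * X + C b) ^ 3 : R[X])
      = (x ^ 2 + algebraMap R S a * x + algebraMap R S b) ^ 3 := by
  simp only [map_pow, map_add, map_mul, aeval_X, aeval_C]

/-- `c · x (x - 16)⁴ = (x² + 224 x + 256)³` makes `x` integral. -/
theorem isIntegral_of_rel4 [Nontrivial R] (c : R) (x : S)
    (h : algebraMap R S c * (x * (x - 16) ^ 4) = (x ^ 2 + 224 * x + 256) ^ 3) :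
    IsIntegral R x := by
  refine isIntegral_of_relation ((X ^ 2 + C 224 * X + C 256) ^ 3) (X * (X - C 16) ^ 4)
    (monic_quadC_cube _ _) ?_ c x ?_
  · rw [natDegree_quadC_cube]
    refine lt_of_le_of_lt ?_ (by norm_num : 5 < 6)
    compute_degree
  · rw [aeval_quadC_cube]
    simp only [map_pow, map_sub, map_mul, aeval_X, map_ofNat]
    exact h

/-- `c · x (x + 4) = (x² + 4 x + 1)³` makes `x` integral. -/
theorem isIntegral_of_rel16 [Nontrivial R] (c : R) (x : S)
    (h : algebraMap R S c * (x * (x + 4)) = (x ^ 2 + 4 * x + 1) ^ 3) :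
    IsIntegral R x := by
  refine isIntegral_of_relation ((X ^ 2 + C 4 * X + C 1) ^ 3) (X * (X + C 4))
    (monic_quadC_cube _ _) ?_ c x ?_
  · rw [natDegree_quadC_cube]
    refine lt_of_le_of_lt ?_ (by norm_num : 2 < 6)
    compute_degree
  · rw [aeval_quadC_cube]
    simp only [map_add, map_mul, aeval_X, map_ofNat, map_one]
    exact h

end Integrality

/-! ### Units -/

theorem jHol_t4 : jHol * (t4 * (t4 - 16) ^ 4) = (t4 ^ 2 + 224 * t4 + 256) ^ 3 := jHol_mul_t4

theorem coe_ofNat_apply (n : ℕ) [n.AtLeastTwo] (z : ℍ) :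
    (((no_index (OfNat.ofNat n)) : HolFun) : ℍ → ℂ) z = OfNat.ofNat n := rfl

/-- The relation `j = R(t₄)` pointwise. -/
theorem jFn_t4_apply (z : ℍ) :
    jFn z * ((t4 : ℍ → ℂ) z * ((t4 : ℍ → ℂ) z - 16) ^ 4)
      = ((t4 : ℍ → ℂ) z ^ 2 + 224 * (t4 : ℍ → ℂ) z + 256) ^ 3 := by
  have h := congrArg (fun f : HolFun => (f : ℍ → ℂ) z) jHol_t4
  simpa only [HolFun.coe_mul_apply, HolFun.coe_pow_apply, HolFun.coe_sub_apply,
    HolFun.coe_add_apply, coe_ofNat_apply, jHol_apply] using h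

theorem t4_sub_ne_zero (z : ℍ) : ((t4 - 16 : HolFun) : ℍ → ℂ) z ≠ 0 := by
  rw [HolFun.coe_sub_apply, coe_ofNat_apply]
  exact sub_ne_zero.mpr (t4_ne_sixteen z)

theorem isUnit_t4 : IsUnit t4 := isUnit_of_forall_ne_zero t4 t4_ne_zero

theorem isUnit_t4_sub : IsUnit (t4 - 16) := isUnit_of_forall_ne_zero _ t4_sub_ne_zero

/-- `1 / t₄`. -/
noncomputable def t4inv : HolFun := holInv t4 t4_ne_zero

/-- `1 / (t₄ - 16)`. -/
noncomputable def t4subinv : HolFun := holInv (t4 - 16) t4_sub_ne_zero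

theorem t4_mul_t4inv : t4 * t4inv = 1 := mul_holInv _ _

theorem t4_sub_mul_t4subinv : (t4 - 16) * t4subinv = 1 := mul_holInv _ _

@[simp] theorem t4inv_apply (z : ℍ) : (t4inv : ℍ → ℂ) z = ((t4 : ℍ → ℂ) z)⁻¹ := rfl

@[simp] theorem t4subinv_apply (z : ℍ) :
    (t4subinv : ℍ → ℂ) z = ((t4 : ℍ → ℂ) z - 16)⁻¹ := rfl

/-! ### Invariance under `Γ₀(4)` -/

theorem smul_t4_sub {γ : SL(2, ℤ)} (hγ : γ ∈ Gamma0 4) : γ • (t4 - 16) = t4 - 16 := by
  rw [smul_sub, smul_t4 hγ]
  congr 1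

theorem smul_t4inv {γ : SL(2, ℤ)} (hγ : γ ∈ Gamma0 4) : γ • t4inv = t4inv :=
  smul_holInv γ _ _ (smul_t4 hγ)

theorem smul_t4subinv {γ : SL(2, ℤ)} (hγ : γ ∈ Gamma0 4) : γ • t4subinv = t4subinv :=
  smul_holInv γ _ _ (smul_t4_sub hγ)

/-! ### Moderate growth: integrality over `ℂ[j]` -/

theorem jHol_mem_growthAlg : jHol ∈ growthAlg := by
  rw [← JD.jd_one_eq_jHol]
  exact JD.jd_mem_growthAlg 1

/-- The subalgebra `ℂ[j] ⊆ HolFun`. -/
noncomputable def jAlg : Subalgebra ℂ HolFun := Algebra.adjoin ℂ {jHol}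

theorem jAlg_le_growthAlg : jAlg ≤ growthAlg :=
  Algebra.adjoin_le (Set.singleton_subset_iff.mpr jHol_mem_growthAlg)

/-- `j` as an element of `ℂ[j]`. -/
noncomputable def jA : jAlg := ⟨jHol, Algebra.subset_adjoin (Set.mem_singleton _)⟩

@[simp] theorem coe_jA : ((jA : jAlg) : HolFun) = jHol := rfl

/-- **`t₄` is integral over `ℂ[j]`.** -/
theorem isIntegral_t4 : IsIntegral jAlg t4 := isIntegral_of_rel4 jA t4 jHol_t4

/-- `256 / t₄` satisfies the same equation over `ℂ[j]` as `t₄` (the deck transformation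
`t ↦ 256 / t` of `X₀(4) → X(1)`). -/
theorem rel_t4inv : jHol * ((256 * t4inv) * ((256 * t4inv) - 16) ^ 4)
    = ((256 * t4inv) ^ 2 + 224 * (256 * t4inv) + 256) ^ 3 := by
  ext z
  have h := jFn_t4_apply z
  have h0 := t4_ne_zero z
  simp only [HolFun.coe_mul_apply, HolFun.coe_pow_apply, HolFun.coe_sub_apply,
    HolFun.coe_add_apply, coe_ofNat_apply, jHol_apply, t4inv_apply]
  field_simp
  linear_combination (65536 : ℂ) * h

theorem isIntegral_t4inv_mul : IsIntegral jAlg (256 * t4inv) :=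
  isIntegral_of_rel4 jA _ rel_t4inv

/-- `64 / (t₄ - 16)` satisfies `(j / 256) v (v + 4) = (v² + 4 v + 1)³`. -/
theorem rel_t4subinv : (algebraMap ℂ HolFun (1 / 256) * jHol) *
    ((64 * t4subinv) * ((64 * t4subinv) + 4))
      = ((64 * t4subinv) ^ 2 + 4 * (64 * t4subinv) + 1) ^ 3 := by
  ext z
  have h := jFn_t4_apply z
  have h0 : (t4 : ℍ → ℂ) z - 16 ≠ 0 := sub_ne_zero.mpr (t4_ne_sixteen z)
  simp only [HolFun.coe_mul_apply, HolFun.coe_pow_apply,
    HolFun.coe_add_apply, coe_ofNat_apply, jHol_apply, t4subinv_apply, HolFun.coe_algebraMap,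
    HolFun.coe_one_apply]
  field_simp
  linear_combination (256 : ℂ) * h

theorem isIntegral_t4subinv_mul : IsIntegral jAlg (64 * t4subinv) :=
  isIntegral_of_rel16 (algebraMap ℂ jAlg (1 / 256) * jA) _ rel_t4subinv

theorem t4inv_eq : t4inv = algebraMap ℂ HolFun (1 / 256) * (256 * t4inv) := by
  ext z
  simp only [HolFun.coe_mul_apply, coe_ofNat_apply, HolFun.coe_algebraMap]
  ring

theorem t4subinv_eq : t4subinv = algebraMap ℂ HolFun (1 / 64) * (64 * t4subinv) := by
  ext z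
  simp only [HolFun.coe_mul_apply, coe_ofNat_apply, HolFun.coe_algebraMap]
  ring

/-- **`1 / t₄` is integral over `ℂ[j]`.** -/
theorem isIntegral_t4inv : IsIntegral jAlg t4inv := by
  rw [t4inv_eq]
  exact IsIntegral.mul (isIntegral_algebraMap (x := algebraMap ℂ jAlg (1 / 256)))
    isIntegral_t4inv_mul

/-- **`1 / (t₄ - 16)` is integral over `ℂ[j]`.** -/
theorem isIntegral_t4subinv : IsIntegral jAlg t4subinv := by
  rw [t4subinv_eq]
  exact IsIntegral.mul (isIntegral_algebraMap (x := algebraMap ℂ jAlg (1 / 64)))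
    isIntegral_t4subinv_mul

/-- **All `SL(2,ℤ)`-translates of `t₄` have moderate growth at `i∞`.** -/
theorem t4_mem_growthAlg : t4 ∈ growthAlg :=
  mem_growthAlg_of_isIntegral_of_le jAlg_le_growthAlg isIntegral_t4

/-- **All `SL(2,ℤ)`-translates of `1 / t₄` have moderate growth at `i∞`.** -/
theorem t4inv_mem_growthAlg : t4inv ∈ growthAlg :=
  mem_growthAlg_of_isIntegral_of_le jAlg_le_growthAlg isIntegral_t4inv

/-- **All `SL(2,ℤ)`-translates of `1 / (t₄ - 16)` have moderate growth at `i∞`.** -/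
theorem t4subinv_mem_growthAlg : t4subinv ∈ growthAlg :=
  mem_growthAlg_of_isIntegral_of_le jAlg_le_growthAlg isIntegral_t4subinv


/-! ### `t₄` is transcendental over `ℂ` -/

/-- **`t₄` is not constant**, i.e. transcendental over `ℂ` (so `ℂ[T, 1/(T(T-16))] → HolFun`,
`T ↦ t₄`, is injective). -/
theorem transcendental_t4 : Transcendental ℂ t4 := by
  intro halg
  have hint : IsIntegral ℂ t4 := halg.isIntegral
  have hirr := minpoly.irreducible hint
  have hdeg := IsAlgClosed.degree_eq_one_of_irreducible ℂ hirr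
  obtain ⟨r, hr⟩ := minpoly.mem_range_of_degree_eq_one ℂ t4 hdeg
  have hrz : ∀ z : ℍ, (t4 : ℍ → ℂ) z = r := fun z => by rw [← hr]; rfl
  have hr0 : r ≠ 0 := by
    have := t4_ne_zero UpperHalfPlane.I
    rwa [hrz] at this
  have hr16 : r - 16 ≠ 0 := by
    have := t4_ne_sixteen UpperHalfPlane.I
    rw [hrz] at this
    exact sub_ne_zero.mpr this
  set a : ℂ := r * (r - 16) ^ 4 with ha
  set b : ℂ := (r ^ 2 + 224 * r + 256) ^ 3 with hb
  have ha0 : a ≠ 0 := mul_ne_zero hr0 (pow_ne_zero _ hr16)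
  have hQ : (C a * X - C b : ℂ[X]) ≠ 0 := by
    intro h0
    have := congrArg (fun p : ℂ[X] => p.coeff 1) h0
    simp at this
    exact ha0 this
  apply MerInvJ.aeval_jHol_ne_zero hQ
  ext z
  have h := jFn_t4_apply z
  rw [hrz z] at h
  simp only [map_sub, map_mul, aeval_C, aeval_X, HolFun.coe_sub_apply, HolFun.coe_mul_apply,
    HolFun.coe_algebraMap, jHol_apply, HolFun.coe_zero_apply]
  rw [ha, hb]
  linear_combination h

/-! ### Summary -/

/-- The level 4 Hauptmodul as a holomorphic function: a unit `t` of `HolFun` with `t - 16` a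
unit, `j = R(t)`, stabiliser `Γ₀(4)`, transcendental over `ℂ`, and such that `t`, `t⁻¹`,
`(t - 16)⁻¹` lie in `growthAlg` (all `SL(2,ℤ)`-translates have moderate growth). -/
theorem exists_haupt4_units : ∃ t : HolFun, IsUnit t ∧ IsUnit (t - 16) ∧
    jHol * (t * (t - 16) ^ 4) = (t ^ 2 + 224 * t + 256) ^ 3 ∧
    (∀ γ : SL(2, ℤ), γ • t = t ↔ γ ∈ Gamma0 4) ∧ Transcendental ℂ t ∧ t ∈ growthAlg ∧
    (∀ s : HolFun, t * s = 1 → s ∈ growthAlg) ∧
    (∀ w : HolFun, (t - 16) * w = 1 → w ∈ growthAlg) := by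
  refine ⟨t4, isUnit_t4, isUnit_t4_sub, jHol_t4,
    fun γ => ⟨mem_Gamma0_of_smul_t4, fun hγ => smul_t4 hγ⟩, transcendental_t4,
    t4_mem_growthAlg, fun s hs => ?_, fun w hw => ?_⟩
  · have : s = t4inv := by
      calc s = (t4inv * t4) * s := by rw [mul_comm t4inv, t4_mul_t4inv, one_mul]
        _ = t4inv := by rw [mul_assoc, hs, mul_one]
    rw [this]
    exact t4inv_mem_growthAlg
  · have : w = t4subinv := by
      calc w = (t4subinv * (t4 - 16)) * w := by
            rw [mul_comm t4subinv, t4_sub_mul_t4subinv, one_mul]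
        _ = t4subinv := by rw [mul_assoc, hw, mul_one]
    rw [this]
    exact t4subinv_mem_growthAlg

end Fermat.Agent.S27x.G2b
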