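/-
P-S27, block G2(b) (helper85): shared definitions for the analytic continuation of a Belyi
function field by a linear ODE.

* `baseRing K β = K[β, β⁻¹, (β - 16)⁻¹] ⊆ F`;
* `intRing K β` : its integral closure in `F`;
* `IsBelyiUnram K β` : `F / K(β)` is unramified over every finite value `c ≠ 0, 16` of `β`;
* `belyiJ β = (β² + 224 β + 256)³ / (β (β - 16)⁴)` : the element of `F` which becomes `j`.
-/
import Mathlib
import Fermat.Prelude.Def_AlgebraicCurve_DivisorClassGroup

set_option autoImplicit false

open AlgebraicCurve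

namespace Fermat.Agent.S27x.G2b

variable (K : Type*) {F : Type*} [Field K] [Field F] [Algebra K F]

/-- `K[β, β⁻¹, (β - 16)⁻¹]` inside `F`. -/
def baseRing (β : F) : Subalgebra K F := Algebra.adjoin K {β, β⁻¹, (β - 16)⁻¹}

theorem self_mem_baseRing (β : F) : β ∈ baseRing K β :=
  Algebra.subset_adjoin (by simp)

theorem inv_mem_baseRing (β : F) : β⁻¹ ∈ baseRing K β :=
  Algebra.subset_adjoin (by simp)

theorem sub_inv_mem_baseRing (β : F) : (β - 16)⁻¹ ∈ baseRing K β :=
  Algebra.subset_adjoin (by simp)

/-- The integral closure of `baseRing K β` in `F`. -/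
abbrev intRing (β : F) : Subalgebra (baseRing K β) F := integralClosure (baseRing K β) F

/-- `F / K(β)` is unramified over every finite value `c ≠ 0, 16` of `β`: every zero of `β - c`
is simple. -/
def IsBelyiUnram (β : F) : Prop :=
  ∀ (v : Place K F) (c : K), c ≠ 0 → c ≠ 16 →
    0 < v.ord (β - algebraMap K F c) → v.ord (β - algebraMap K F c) = 1

/-- The element `(β² + 224 β + 256)³ / (β (β - 16)⁴)`, which is sent to `j` when `β` is sent
to the level `4` Hauptmodul. -/
def belyiJ (β : F) : F := (β ^ 2 + 224 * β + 256) ^ 3 / (β * (β - 16) ^ 4)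

end Fermat.Agent.S27x.G2b
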