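import Mathlib

/-!
# P-S27 (G2b, F4a): extension of derivations along formally étale algebras (helper48)

* `exists_derivation_extension` : for `R → S → T` with `T` formally étale over `S`, every
  `R`-derivation `d : S → T` extends to an `R`-derivation of `T`.
* `exists_derivation_of_transcendental` : for a field extension `F / K`, `β : F` transcendental
  over `K` with `F / K(β)` separable algebraic, there is a `K`-derivation `D` of `F` with
  `D (aeval β p) = aeval β (derivative p)` for all polynomials `p`; in particular `D β = 1`
  (`d/dβ`).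
-/

set_option autoImplicit false
set_option linter.style.haveILetI false

noncomputable section

open KaehlerDifferential TensorProduct Polynomial IntermediateField

namespace Fermat.Agent.S27x.G2b.DerivExt

section General

variable (R S T : Type*) [CommRing R] [CommRing S] [CommRing T]
variable [Algebra R S] [Algebra R T] [Algebra S T] [IsScalarTower R S T]

/-- Extension of a derivation along a formally étale algebra. -/
theorem exists_derivation_extension [Algebra.FormallyEtale S T] (d : Derivation R S T) :
    ∃ D : Derivation R T T, ∀ s : S, D (algebraMap S T s) = d s := by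
  let e := KaehlerDifferential.tensorKaehlerEquivOfFormallyEtale R S T
  let ℓ : Ω[T⁄R] →ₗ[T] T :=
    (LinearMap.liftBaseChange T d.liftKaehlerDifferential) ∘ₗ e.symm.toLinearMap
  refine ⟨ℓ.compDer (KaehlerDifferential.D R T), fun s => ?_⟩
  show ℓ (KaehlerDifferential.D R T (algebraMap S T s)) = d s
  show LinearMap.liftBaseChange T d.liftKaehlerDifferential
    (e.symm (KaehlerDifferential.D R T (algebraMap S T s))) = d s
  rw [KaehlerDifferential.tensorKaehlerEquivOfFormallyEtale_symm_D_algebraMap,
    LinearMap.liftBaseChange_tmul, one_smul, Derivation.liftKaehlerDifferential_comp_D]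

end General

section Field

variable {K F : Type*} [Field K] [Field F] [Algebra K F]

open scoped IntermediateField.algebraAdjoinAdjoin in
/-- `K[X] → F`, `X ↦ β`, is formally étale when `β` is transcendental and `F / K(β)` is
separable algebraic. -/
theorem formallyEtale_aeval {β : F} (hβ : Transcendental K β) [Algebra.IsSeparable K⟮β⟯ F] :
    @Algebra.FormallyEtale K[X] F _ _ (aeval β : K[X] →ₐ[K] F).toRingHom.toAlgebra := by
  classical
  letI algPF : Algebra K[X] F := (aeval β : K[X] →ₐ[K] F).toRingHom.toAlgebra
  have hPF : ∀ p : K[X], algebraMap K[X] F p = aeval β p := fun _ => rfl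
  -- the middle ring `K[β]`
  have hinj : Function.Injective (aeval β : K[X] →ₐ[K] F) := transcendental_iff_injective.mp hβ
  let e0 : K[X] ≃ₐ[K] (aeval β : K[X] →ₐ[K] F).range := AlgEquiv.ofInjective _ hinj
  have hrange : (aeval β : K[X] →ₐ[K] F).range = Algebra.adjoin K {β} :=
    (Algebra.adjoin_singleton_eq_range_aeval K β).symm
  let e1 : K[X] ≃ₐ[K] Algebra.adjoin K {β} := e0.trans (Subalgebra.equivOfEq _ _ hrange)
  have he1 : ∀ p : K[X], ((e1 p : Algebra.adjoin K {β}) : F) = aeval β p := fun _ => rfl
  letI algPA : Algebra K[X] (Algebra.adjoin K {β}) := e1.toAlgHom.toRingHom.toAlgebra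
  have hPA : ∀ p : K[X], algebraMap K[X] (Algebra.adjoin K {β}) p = e1 p := fun _ => rfl
  haveI tPAF : IsScalarTower K[X] (Algebra.adjoin K {β}) F :=
    IsScalarTower.of_algebraMap_eq fun p => by
      rw [hPF, hPA]; exact (he1 p).symm
  have h4 : Algebra.FormallyEtale K[X] (Algebra.adjoin K {β}) := by
    have hbij : Function.Bijective (Algebra.ofId K[X] (Algebra.adjoin K {β})) := e1.bijective
    exact Algebra.FormallyEtale.of_equiv (AlgEquiv.ofBijective _ hbij)
  -- `K[β] → K(β)` is a localization, `K(β) → F` is separable
  have h1 : Algebra.FormallyEtale (Algebra.adjoin K {β}) K⟮β⟯ :=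
    .of_isLocalization (nonZeroDivisors _)
  have h2 : Algebra.FormallyEtale K⟮β⟯ F := Algebra.FormallyEtale.of_isSeparable _ F
  have h3 : Algebra.FormallyEtale (Algebra.adjoin K {β}) F := .comp _ K⟮β⟯ _
  exact .comp _ (Algebra.adjoin K {β}) _

/-- The derivation `d/dβ` of a separable algebraic extension `F` of `K(β)`. -/
theorem exists_derivation_of_transcendental {β : F} (hβ : Transcendental K β)
    [Algebra.IsSeparable K⟮β⟯ F] :
    ∃ D : Derivation K F F, ∀ p : K[X], D (aeval β p) = aeval β (derivative p) := by
  letI algPF : Algebra K[X] F := (aeval β : K[X] →ₐ[K] F).toRingHom.toAlgebra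
  have hPF : ∀ p : K[X], algebraMap K[X] F p = aeval β p := fun _ => rfl
  haveI tKPF : IsScalarTower K K[X] F :=
    IsScalarTower.of_algebraMap_eq fun x => by
      rw [hPF, Polynomial.algebraMap_apply, aeval_C]
      rfl
  haveI : Algebra.FormallyEtale K[X] F := formallyEtale_aeval hβ
  let d : Derivation K K[X] F := (Algebra.linearMap K[X] F).compDer derivative'
  obtain ⟨D, hD⟩ := exists_derivation_extension K K[X] F d
  refine ⟨D, fun p => ?_⟩
  have := hD p
  rw [hPF] at this
  rw [this]
  rfl

/-- `d/dβ` maps `β` to `1`. -/
theorem derivation_apply_self {β : F} (D : Derivation K F F)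
    (hD : ∀ p : K[X], D (aeval β p) = aeval β (derivative p)) : D β = 1 := by
  have := hD X
  simpa using this

end Field

end Fermat.Agent.S27x.G2b.DerivExt
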