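import Mathlib
import Fermat.Agent.S27x.G2b.Defs

/-!
# P-S27 (G2b, F4: E1, E2, E4): the integral closure of `K[β, β⁻¹, (β-16)⁻¹]` (helper48)

For `β : F` transcendental over `K` with `F / K(β)` finite (characteristic zero):

* `baseRing K β` is the localization of `K[X]` away from `X (X - 16)` (`X ↦ β`), hence a
  principal ideal domain, with fraction field `K⟮β⟯`;
* `intRing K β` is a Dedekind domain, finite and free over `baseRing K β` of rank `[F : K(β)]`,
  with fraction field `F`.
-/

set_option autoImplicit false
set_option linter.style.haveILetI false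

noncomputable section

open Polynomial IntermediateField

namespace Fermat.Agent.S27x.G2b

variable {K F : Type*} [Field K] [Field F] [Algebra K F]

namespace EtaleAlg

/-- `β` as an element of `baseRing K β`. -/
def βb (β : F) : baseRing K β := ⟨β, self_mem_baseRing K β⟩

/-- The polynomial `X (X - 16)`. -/
def sPoly (K : Type*) [Field K] : K[X] := X * (X - C 16)

/-- The evaluation `K[X] → baseRing K β`, `X ↦ β`. -/
def evalB (β : F) : K[X] →ₐ[K] baseRing K β := aeval (βb (K := K) β)

theorem coe_evalB (β : F) (p : K[X]) : ((evalB (K := K) β p : baseRing K β) : F) = aeval β p := by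
  have : (baseRing K β).val.comp (evalB (K := K) β) = aeval β := by
    apply Polynomial.algHom_ext
    simp [evalB, βb]
  exact DFunLike.congr_fun this p

theorem ne_zero_of_transcendental {β : F} (hβ : Transcendental K β) : β ≠ 0 := by
  rintro rfl
  exact hβ (isAlgebraic_zero)

theorem sub_ne_zero_of_transcendental {β : F} (hβ : Transcendental K β) (c : K) :
    β - algebraMap K F c ≠ 0 := by
  intro h
  apply hβ
  rw [sub_eq_zero] at h
  rw [h]
  exact isAlgebraic_algebraMap c

theorem algebraMap_sixteen : algebraMap K F 16 = 16 := map_ofNat _ 16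

theorem sub_sixteen_ne_zero {β : F} (hβ : Transcendental K β) : β - 16 ≠ 0 := by
  have := sub_ne_zero_of_transcendental hβ (16 : K)
  rwa [algebraMap_sixteen] at this

theorem aeval_sPoly (β : F) : aeval β (sPoly K) = β * (β - 16) := by
  simp only [sPoly, map_mul, map_sub, aeval_X, aeval_C, algebraMap_sixteen]

theorem evalB_injective {β : F} (hβ : Transcendental K β) :
    Function.Injective (evalB (K := K) β) := by
  intro p q h
  have h' := congrArg (fun x : baseRing K β => (x : F)) h
  simp only [coe_evalB] at h'
  exact (transcendental_iff_injective.mp hβ) h'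

/-- Every element of `baseRing K β` is `p(β) / (β (β - 16))ⁿ`. -/
theorem exists_eq_div {β : F} (hβ : Transcendental K β) {x : F} (hx : x ∈ baseRing K β) :
    ∃ (p : K[X]) (n : ℕ), x * (β * (β - 16)) ^ n = aeval β p := by
  have h0 := ne_zero_of_transcendental hβ
  have h16 := sub_sixteen_ne_zero hβ
  induction hx using Algebra.adjoin_induction with
  | mem x hx =>
    rcases hx with rfl | rfl | rfl
    · exact ⟨X, 0, by simp⟩
    · refine ⟨X - C 16, 1, ?_⟩
      simp only [pow_one, map_sub, aeval_X, aeval_C, algebraMap_sixteen]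
      field_simp
    · refine ⟨X, 1, ?_⟩
      simp only [pow_one, aeval_X]
      field_simp
  | algebraMap r => exact ⟨C r, 0, by simp⟩
  | add x y _ _ hx hy =>
    obtain ⟨p, n, hp⟩ := hx
    obtain ⟨q, m, hq⟩ := hy
    refine ⟨p * sPoly K ^ m + q * sPoly K ^ n, n + m, ?_⟩
    simp only [map_add, map_mul, map_pow, aeval_sPoly, ← hp, ← hq]
    ring
  | mul x y _ _ hx hy =>
    obtain ⟨p, n, hp⟩ := hx
    obtain ⟨q, m, hq⟩ := hy
    refine ⟨p * q, n + m, ?_⟩
    simp only [map_mul, ← hp, ← hq]
    ring

end EtaleAlg

open EtaleAlg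

/-- The `K[X]`-algebra structure on `baseRing K β` (`X ↦ β`). -/
@[reducible] def algebraPolyBase (β : F) : Algebra K[X] (baseRing K β) :=
  (evalB (K := K) β).toRingHom.toAlgebra

/-- `baseRing K β` is the localization of `K[X]` away from `X (X - 16)`. -/
theorem isLocalization_baseRing {β : F} (hβ : Transcendental K β) :
    @IsLocalization.Away K[X] _ (sPoly K) (baseRing K β) _ (algebraPolyBase β) := by
  letI := algebraPolyBase (K := K) β
  have hmap : ∀ p : K[X], algebraMap K[X] (baseRing K β) p = evalB (K := K) β p := fun _ => rfl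
  have h0 := ne_zero_of_transcendental hβ
  have h16 := sub_sixteen_ne_zero hβ
  -- the inverse of the image of `sPoly`
  have hinvmem : β⁻¹ * (β - 16)⁻¹ ∈ baseRing K β :=
    (baseRing K β).mul_mem (inv_mem_baseRing K β) (sub_inv_mem_baseRing K β)
  have hunit : IsUnit (algebraMap K[X] (baseRing K β) (sPoly K)) := by
    refine IsUnit.of_mul_eq_one (b := ⟨β⁻¹ * (β - 16)⁻¹, hinvmem⟩) ?_
    apply Subtype.ext
    rw [hmap]
    show ((evalB (K := K) β (sPoly K) : baseRing K β) : F) * (β⁻¹ * (β - 16)⁻¹) = 1
    rw [coe_evalB, aeval_sPoly]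
    field_simp
  refine IsLocalization.Away.mk (sPoly K) hunit ?_ ?_
  · rintro ⟨x, hx⟩
    obtain ⟨p, n, hp⟩ := exists_eq_div hβ hx
    refine ⟨n, p, ?_⟩
    apply Subtype.ext
    rw [hmap, hmap]
    show x * ((evalB (K := K) β (sPoly K) : baseRing K β) : F) ^ n = (evalB (K := K) β p : F)
    rw [coe_evalB, coe_evalB, aeval_sPoly, hp]
  · intro a b hab
    rw [hmap, hmap] at hab
    exact ⟨0, by rw [evalB_injective hβ hab]⟩

/-- A localization of a principal ideal ring is a principal ideal ring. -/
theorem isPrincipalIdealRing_of_isLocalization {R : Type*} [CommRing R] [IsPrincipalIdealRing R]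
    (M : Submonoid R) (S : Type*) [CommRing S] [Algebra R S] [IsLocalization M S] :
    IsPrincipalIdealRing S := by
  refine ⟨fun J => ?_⟩
  obtain ⟨a, ha⟩ := (IsPrincipalIdealRing.principal (J.under R)).principal
  refine ⟨⟨algebraMap R S a, ?_⟩⟩
  rw [← IsLocalization.map_under M S J, ha, Ideal.submodule_span_eq, Ideal.map_span,
    Set.image_singleton, Ideal.submodule_span_eq]

/-- `baseRing K β` is a principal ideal domain. -/
theorem isPrincipalIdealRing_baseRing {β : F} (hβ : Transcendental K β) :
    IsPrincipalIdealRing (baseRing K β) := by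
  letI := algebraPolyBase (K := K) β
  haveI : IsLocalization (Submonoid.powers (sPoly K)) (baseRing K β) := isLocalization_baseRing hβ
  exact isPrincipalIdealRing_of_isLocalization (Submonoid.powers (sPoly K)) (baseRing K β)

theorem baseRing_le_adjoin (β : F) : baseRing K β ≤ K⟮β⟯.toSubalgebra := by
  apply Algebra.adjoin_le
  have hβ : β ∈ K⟮β⟯ := mem_adjoin_simple_self K β
  have h16 : (16 : F) ∈ K⟮β⟯ := by
    rw [← algebraMap_sixteen (K := K)]
    exact K⟮β⟯.algebraMap_mem 16
  intro x hx
  simp only [Set.mem_insert_iff, Set.mem_singleton_iff] at hx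
  rcases hx with rfl | rfl | rfl
  · exact hβ
  · exact K⟮β⟯.inv_mem hβ
  · exact K⟮β⟯.inv_mem (K⟮β⟯.sub_mem hβ h16)

/-- The inclusion `baseRing K β → K⟮β⟯` as an algebra structure. -/
@[reducible] def algebraBaseAdjoin (β : F) : Algebra (baseRing K β) K⟮β⟯ :=
  (Subalgebra.inclusion (baseRing_le_adjoin (K := K) β)).toRingHom.toAlgebra

theorem isScalarTower_baseAdjoin (β : F) :
    @IsScalarTower (baseRing K β) K⟮β⟯ F (algebraBaseAdjoin β).toSMul _ _ :=
  letI := algebraBaseAdjoin (K := K) β
  IsScalarTower.of_algebraMap_eq fun _ => rfl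

/-- `K⟮β⟯` is the fraction field of `baseRing K β`. -/
theorem isFractionRing_baseRing (β : F) :
    @IsFractionRing (baseRing K β) _ K⟮β⟯ _ (algebraBaseAdjoin β) := by
  letI := algebraBaseAdjoin (K := K) β
  have hmap : ∀ x : baseRing K β, ((algebraMap (baseRing K β) K⟮β⟯ x : K⟮β⟯) : F) = (x : F) :=
    fun _ => rfl
  haveI : FaithfulSMul (baseRing K β) K⟮β⟯ := by
    rw [faithfulSMul_iff_algebraMap_injective]
    intro x y hxy
    apply Subtype.ext
    rw [← hmap x, ← hmap y, hxy]
  refine IsFractionRing.of_field (baseRing K β) K⟮β⟯ fun z => ?_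
  obtain ⟨r, s, hrs⟩ := (mem_adjoin_simple_iff K (z : F)).mp z.2
  refine ⟨evalB β r, evalB β s, ?_⟩
  apply Subtype.ext
  rw [hrs]
  push_cast
  rw [hmap, hmap, coe_evalB, coe_evalB]

section Integral

variable [CharZero K] {β : F} (hβ : Transcendental K β) [FiniteDimensional K⟮β⟯ F]

include hβ

/-- (E2) `intRing K β` is a finite `baseRing K β`-module. -/
theorem intRing_finite : Module.Finite (baseRing K β) (intRing K β) := by
  letI := algebraBaseAdjoin (K := K) β
  haveI := isScalarTower_baseAdjoin (K := K) β
  haveI := isFractionRing_baseRing (K := K) β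
  haveI := isPrincipalIdealRing_baseRing hβ
  exact IsIntegralClosure.finite (baseRing K β) K⟮β⟯ F (intRing K β)

/-- (E1) `intRing K β` is a free `baseRing K β`-module. -/
theorem intRing_free : Module.Free (baseRing K β) (intRing K β) := by
  letI := algebraBaseAdjoin (K := K) β
  haveI := isScalarTower_baseAdjoin (K := K) β
  haveI := isFractionRing_baseRing (K := K) β
  haveI := isPrincipalIdealRing_baseRing hβ
  exact IsIntegralClosure.module_free (baseRing K β) K⟮β⟯ F (intRing K β)

/-- (E2') the rank of `intRing K β` is `[F : K(β)]`. -/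
theorem finrank_intRing :
    Module.finrank (baseRing K β) (intRing K β) = Module.finrank K⟮β⟯ F := by
  letI := algebraBaseAdjoin (K := K) β
  haveI := isScalarTower_baseAdjoin (K := K) β
  haveI := isFractionRing_baseRing (K := K) β
  haveI := isPrincipalIdealRing_baseRing hβ
  exact IsIntegralClosure.rank (baseRing K β) K⟮β⟯ F (intRing K β)

omit hβ [CharZero K] in
/-- (E4) `F` is the fraction field of `intRing K β`. -/
theorem intRing_isFractionRing : IsFractionRing (intRing K β) F := by
  letI := algebraBaseAdjoin (K := K) β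
  haveI := isScalarTower_baseAdjoin (K := K) β
  haveI := isFractionRing_baseRing (K := K) β
  exact integralClosure.isFractionRing_of_finite_extension K⟮β⟯ F

/-- `intRing K β` is a Dedekind domain. -/
theorem intRing_isDedekindDomain : IsDedekindDomain (intRing K β) := by
  letI := algebraBaseAdjoin (K := K) β
  haveI := isScalarTower_baseAdjoin (K := K) β
  haveI := isFractionRing_baseRing (K := K) β
  haveI := isPrincipalIdealRing_baseRing hβ
  exact integralClosure.isDedekindDomain (baseRing K β) K⟮β⟯ F

end Integral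

end Fermat.Agent.S27x.G2b
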