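import Mathlib
import Fermat.Agent.S27x.G2b.Defs
import Fermat.Agent.S27x.G2b.DerivExt
import Fermat.Agent.S27x.G2b.EtaleAlgFree
import Fermat.Agent.S24.DiffOrdAll
import Fermat.Agent.S24.PlacesDedekind

/-!
# P-S27 (G2b, F4: E3): `d/dβ` preserves the integral closure of `K[β, β⁻¹, (β-16)⁻¹]` (helper48)

If `F / K(β)` is unramified over every finite value `c ≠ 0, 16` of `β` (`IsBelyiUnram K β`), the
derivation `D = d/dβ` of `F` maps `baseRing K β` and `intRing K β` into themselves.

Local argument: at a place `v` whose valuation ring contains `baseRing K β`, `β - c` is a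
uniformizer (`c = β(v) ≠ 0, 16`), so `d u ∈ O_v • d (β - c)` for `u ∈ O_v` (S24, Part I-c), and
applying the linear form attached to `D` gives `D u ∈ O_v`.  Globally `intRing K β` is a Dedekind
domain with fraction field `F`, hence the intersection of these valuation rings.
-/

set_option autoImplicit false
set_option linter.style.haveILetI false
set_option linter.unusedSectionVars false

noncomputable section

open Polynomial IntermediateField AlgebraicCurve IsDedekindDomain KaehlerDifferential

namespace Fermat.Agent.S27x.G2b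

open Fermat.Agent.S24

variable {K F : Type*} [Field K] [Field F] [Algebra K F]

section BaseRing

/-- A `K`-derivation with `D β = 1` preserves `baseRing K β`. -/
theorem derivation_mem_baseRing {β : F} (D : Derivation K F F) (hD : D β = 1) {a : F}
    (ha : a ∈ baseRing K β) : D a ∈ baseRing K β := by
  induction ha using Algebra.adjoin_induction with
  | mem x hx =>
    rcases hx with rfl | rfl | rfl
    · rw [hD]; exact (baseRing K x).one_mem
    · rw [Derivation.leibniz_inv, hD, smul_eq_mul, mul_one]
      exact (baseRing K _).neg_mem ((baseRing K _).pow_mem (inv_mem_baseRing K _) 2)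
    · rename_i β
      have h16 : D ((16 : F)) = 0 := by
        have : (16 : F) = algebraMap K F 16 := (map_ofNat _ 16).symm
        rw [this, D.map_algebraMap]
      rw [Derivation.leibniz_inv, map_sub, hD, h16, sub_zero, smul_eq_mul, mul_one]
      exact (baseRing K _).neg_mem ((baseRing K _).pow_mem (sub_inv_mem_baseRing K _) 2)
  | algebraMap r =>
    rw [D.map_algebraMap]; exact (baseRing K β).zero_mem
  | add x y _ _ hx hy =>
    rw [map_add]; exact (baseRing K β).add_mem hx hy
  | mul x y hx' hy' hx hy =>
    rw [Derivation.leibniz, smul_eq_mul, smul_eq_mul]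
    exact (baseRing K β).add_mem ((baseRing K β).mul_mem hx' hy) ((baseRing K β).mul_mem hy' hx)

end BaseRing

section Local

variable [IsAlgClosed K] [CharZero K] {β : F} (hβ : Transcendental K β)
  [FiniteDimensional K⟮β⟯ F]

include hβ in
/-- **Local statement.** At a place whose valuation ring contains `β`, `β⁻¹`, `(β - 16)⁻¹`,
the derivation `d/dβ` preserves the valuation ring. -/
theorem derivation_mem_valuationSubring (D : Derivation K F F) (hD : D β = 1)
    (h : IsBelyiUnram K β) (v : Place K F) (hβv : β ∈ v.toValuationSubring)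
    (hβinv : β⁻¹ ∈ v.toValuationSubring) (h16inv : (β - 16)⁻¹ ∈ v.toValuationSubring)
    {u : F} (hu : u ∈ v.toValuationSubring) : D u ∈ v.toValuationSubring := by
  have hres := residueTrivial_place β hβ v
  obtain ⟨c, hc⟩ := hres ⟨β, hβv⟩
  set y : F := β - algebraMap K F c with hy_def
  have hy0 : y ≠ 0 := EtaleAlg.sub_ne_zero_of_transcendental hβ c
  have hymem : y ∈ v.toValuationSubring :=
    v.toValuationSubring.sub_mem hβv (v.algebraMap_mem' c)
  have hypos : 0 < v.ord y := by
    have : (⟨y, hymem⟩ : v.toValuationSubring) ∈ IsLocalRing.maximalIdeal v.toValuationSubring := hc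
    exact (PD.place_mem_maximalIdeal_iff v ⟨y, hymem⟩ hy0).mp this
  have hβ0 : β ≠ 0 := EtaleAlg.ne_zero_of_transcendental hβ
  have hβ16 : β - 16 ≠ 0 := EtaleAlg.sub_sixteen_ne_zero hβ
  -- `c ≠ 0`, `c ≠ 16`
  have hc0 : c ≠ 0 := by
    rintro rfl
    have h1 : 0 ≤ v.ord β⁻¹ := (PD.place_mem_iff v (inv_ne_zero hβ0)).mp hβinv
    rw [v.ord_inv] at h1
    have h2 : 0 < v.ord β := by simpa [hy_def] using hypos
    omega
  have hc16 : c ≠ 16 := by
    rintro rfl
    have h1 : 0 ≤ v.ord (β - 16)⁻¹ := (PD.place_mem_iff v (inv_ne_zero hβ16)).mp h16inv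
    rw [v.ord_inv] at h1
    have h2 : 0 < v.ord (β - 16) := by
      have := hypos
      rwa [hy_def, EtaleAlg.algebraMap_sixteen] at this
    omega
  have hy1 : v.ord y = 1 := h v c hc0 hc16 hypos
  -- `β - c` is a uniformizer
  obtain ⟨ϖ, hϖ⟩ := IsDiscreteValuationRing.exists_irreducible v.toValuationSubring
  obtain ⟨w, hw⟩ := v.exists_unit_mul_zpow hy0 hϖ
  rw [hy1, zpow_one] at hw
  have hπ : Irreducible (⟨y, hymem⟩ : v.toValuationSubring) := by
    have e : (⟨y, hymem⟩ : v.toValuationSubring) = (w : v.toValuationSubring) * ϖ := by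
      apply Subtype.ext
      exact hw
    rw [e, irreducible_units_mul]
    exact hϖ
  haveI := finite_kaehler_place β hβ v
  obtain ⟨a, ha⟩ := exists_D_eq_smul_D_irreducible v hres hπ ⟨u, hu⟩
  have key := congrArg D.liftKaehlerDifferential ha
  rw [map_smul, Derivation.liftKaehlerDifferential_comp_D,
    Derivation.liftKaehlerDifferential_comp_D] at key
  have hDy : D y = 1 := by rw [hy_def, map_sub, hD, D.map_algebraMap, sub_zero]
  change D u = (a : F) • D y at key
  rw [hDy, smul_eq_mul, mul_one] at key
  rw [key]
  exact a.2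

end Local

section Global

variable [IsAlgClosed K] [CharZero K] {β : F} (hβ : Transcendental K β)
  [FiniteDimensional K⟮β⟯ F]

include hβ in
/-- A `K`-derivation with `D β = 1` preserves `intRing K β` when `β` is unramified over every
finite value `≠ 0, 16`. -/
theorem derivation_mem_intRing (D : Derivation K F F) (hD : D β = 1) (h : IsBelyiUnram K β)
    {f : F} (hf : f ∈ intRing K β) : D f ∈ intRing K β := by
  haveI := intRing_isDedekindDomain hβ
  haveI : IsFractionRing (intRing K β) F := intRing_isFractionRing
  haveI tK : IsScalarTower K (intRing K β) F := IsScalarTower.of_algebraMap_eq fun _ => rfl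
  have hle : ∀ {x : F}, x ∈ baseRing K β → x ∈ intRing K β := fun {x} hx =>
    (intRing K β).algebraMap_mem ⟨x, hx⟩
  have hmem := HeightOneSpectrum.mem_integers_of_valuation_le_one (R := intRing K β) F (D f) ?_
  · obtain ⟨g, hg⟩ := hmem
    rw [← hg]
    exact g.2
  · intro P
    let v : Place K F := PD.placeOfPrime (K := K) (F := F) P
    have hB : ∀ b : intRing K β, (b : F) ∈ v.toValuationSubring :=
      fun b => PD.algebraMap_mem_placeOfPrime P b
    have hDf : D f ∈ v.toValuationSubring :=
      derivation_mem_valuationSubring hβ D hD h v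
        (hB ⟨β, hle (self_mem_baseRing K β)⟩) (hB ⟨β⁻¹, hle (inv_mem_baseRing K β)⟩)
        (hB ⟨(β - 16)⁻¹, hle (sub_inv_mem_baseRing K β)⟩) (hB ⟨f, hf⟩)
    exact (Valuation.mem_valuationSubring_iff _ _).mp hDf

include hβ in
/-- **(E3)** The derivation `d/dβ` of `F` preserves `baseRing K β` and `intRing K β`. -/
theorem exists_derivation (h : IsBelyiUnram K β) :
    ∃ D : Derivation K F F, D β = 1 ∧ (∀ a ∈ baseRing K β, D a ∈ baseRing K β) ∧
      ∀ f ∈ intRing K β, D f ∈ intRing K β := by
  obtain ⟨D, hDp⟩ := DerivExt.exists_derivation_of_transcendental hβ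
  have hD : D β = 1 := DerivExt.derivation_apply_self D hDp
  exact ⟨D, hD, fun a ha => derivation_mem_baseRing D hD ha,
    fun f hf => derivation_mem_intRing hβ D hD h hf⟩

end Global

end Fermat.Agent.S27x.G2b
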