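import Mathlib

/-!
# Ring homomorphisms from solutions of linear differential systems (P-S27, block G2b, file F5)

Abstract algebra behind the analytic continuation step: `B` is a free `A`-algebra of finite rank
with a derivation `D` extending a derivation `DA` of `A`; `R` is a differential ring (think of
holomorphic functions on the upper half plane) with an evaluation `ev : R →+* C`, and
`θ : A →+* R` satisfies the chain rule `dR (θ a) = t' * θ (DA a)`.  If linear differential
systems over `R` have solutions with prescribed values under `ev`, and the zero solution is the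
only one with zero values, then every point `ψ : B →+* C` above `ev ∘ θ` extends uniquely to a
ring homomorphism `φ : B →+* R` above `θ` with `dR (φ x) = t' * φ (D x)` and `ev ∘ φ = ψ`.
-/

namespace Fermat.Agent.S27x.G2b

open Finset

variable {A B R C : Type*} [CommRing A] [CommRing B] [Algebra A B] [CommRing R] [CommRing C]
variable {d : ℕ}

/-- The `θ`-semilinear extension of prescribed values on a basis. -/
noncomputable def linOf (b : Module.Basis (Fin d) A B) (θ : A →+* R) (Y : Fin d → R) : B →+ R where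
  toFun x := ∑ i, θ (b.repr x i) * Y i
  map_zero' := by simp
  map_add' x y := by simp [add_mul, Finset.sum_add_distrib]

theorem linOf_apply (b : Module.Basis (Fin d) A B) (θ : A →+* R) (Y : Fin d → R) (x : B) :
    linOf b θ Y x = ∑ i, θ (b.repr x i) * Y i := rfl

theorem linOf_smul (b : Module.Basis (Fin d) A B) (θ : A →+* R) (Y : Fin d → R) (a : A) (x : B) :
    linOf b θ Y (a • x) = θ a * linOf b θ Y x := by
  simp [linOf_apply, Finset.mul_sum, mul_assoc]

theorem linOf_basis (b : Module.Basis (Fin d) A B) (θ : A →+* R) (Y : Fin d → R) (i : Fin d) :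
    linOf b θ Y (b i) = Y i := by
  classical
  simp [linOf_apply, Finsupp.single_apply]

theorem eq_linOf (b : Module.Basis (Fin d) A B) (θ : A →+* R) (Y : Fin d → R) (f : B →+ R)
    (hf : ∀ a x, f (a • x) = θ a * f x) (hb : ∀ i, f (b i) = Y i) (x : B) :
    f x = linOf b θ Y x := by
  conv_lhs => rw [← b.sum_repr x]
  rw [map_sum]
  simp [hf, hb, linOf_apply]

theorem addHom_ext_smul_basis (b : Module.Basis (Fin d) A B) (f g : B →+ R)
    (h : ∀ (a : A) (i : Fin d), f (a • b i) = g (a • b i)) (x : B) : f x = g x := by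
  rw [← b.sum_repr x, map_sum, map_sum]
  exact Finset.sum_congr rfl (fun i _ => h _ i)

/-- The connection matrix of a derivation in a basis: `D (b i) = ∑ j, connMat b D i j • b j`. -/
noncomputable def connMat (b : Module.Basis (Fin d) A B) (D : Derivation ℤ B B) (i j : Fin d) : A :=
  b.repr (D (b i)) j

theorem D_basis (b : Module.Basis (Fin d) A B) (D : Derivation ℤ B B) (i : Fin d) :
    D (b i) = ∑ j, (connMat b D i j : A) • b j := (b.sum_repr _).symm

theorem linOf_D_basis (b : Module.Basis (Fin d) A B) (D : Derivation ℤ B B) (θ : A →+* R)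
    (Y : Fin d → R) (i : Fin d) :
    linOf b θ Y (D (b i)) = ∑ j, θ (connMat b D i j) * Y j := rfl

theorem D_smul (DA : Derivation ℤ A A) (D : Derivation ℤ B B)
    (hD : ∀ a, D (algebraMap A B a) = algebraMap A B (DA a)) (a : A) (x : B) :
    D (a • x) = DA a • x + a • D x := by
  rw [Algebra.smul_def, D.leibniz, hD]
  simp only [Algebra.smul_def, Algebra.algebraMap_self, RingHom.id_apply]
  ring

/-- Uniqueness of the zero solution, transported to an arbitrary finite index type. -/
theorem uniq_fintype (dR : Derivation ℤ R R) (ev : R →+* C)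
    (huniq : ∀ (n : ℕ) (N : Matrix (Fin n) (Fin n) R) (Y : Fin n → R),
      (∀ i, dR (Y i) = ∑ j, N i j * Y j) → (∀ i, ev (Y i) = 0) → ∀ i, Y i = 0)
    {ι : Type*} [Fintype ι] (N : Matrix ι ι R) (Y : ι → R)
    (h1 : ∀ i, dR (Y i) = ∑ j, N i j * Y j) (h0 : ∀ i, ev (Y i) = 0) (i : ι) : Y i = 0 := by
  classical
  let e := Fintype.equivFin ι
  have := huniq (Fintype.card ι) (N.submatrix e.symm e.symm) (Y ∘ e.symm)
    (fun k => by
      simp only [Function.comp_apply, Matrix.submatrix_apply]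
      rw [h1 (e.symm k)]
      exact (Equiv.sum_comp e.symm (fun j => N (e.symm k) j * Y j)).symm)
    (fun k => h0 _) (e i)
  simpa using this

section main

variable (b : Module.Basis (Fin d) A B)
  (DA : Derivation ℤ A A) (D : Derivation ℤ B B)
  (hD : ∀ a, D (algebraMap A B a) = algebraMap A B (DA a))
  (dR : Derivation ℤ R R) (θ : A →+* R) (t' : R) (hθ : ∀ a, dR (θ a) = t' * θ (DA a))
  (ev : R →+* C) (ψ : B →+* C) (hψ : ∀ a, ψ (algebraMap A B a) = ev (θ a))

include hD hθ in
/-- Chain rule for the semilinear extension of a solution of the connection system. -/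
theorem dR_linOf (Y : Fin d → R)
    (hY : ∀ i, dR (Y i) = ∑ j, (t' * θ (connMat b D i j)) * Y j) (x : B) :
    dR (linOf b θ Y x) = t' * linOf b θ Y (D x) := by
  have key := addHom_ext_smul_basis b
    ((dR : R →ₗ[ℤ] R).toAddMonoidHom.comp (linOf b θ Y))
    ((AddMonoidHom.mulLeft t').comp ((linOf b θ Y).comp (D : B →ₗ[ℤ] B).toAddMonoidHom))
    (fun a i => by
      simp only [AddMonoidHom.coe_comp, Function.comp_apply, LinearMap.toAddMonoidHom_coe,
        Derivation.coeFn_coe, AddMonoidHom.coe_mulLeft]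
      rw [linOf_smul, linOf_basis, dR.leibniz, hθ, hY, D_smul DA D hD, map_add, linOf_smul,
        linOf_basis, linOf_smul, linOf_D_basis]
      simp only [smul_eq_mul, Finset.mul_sum]
      rw [mul_add, Finset.mul_sum, add_comm]
      congr 1
      · ring
      · exact Finset.sum_congr rfl (fun j _ => by ring)) x
  simpa using key

include hψ in
theorem ev_linOf (Y : Fin d → R) (hY0 : ∀ i, ev (Y i) = ψ (b i)) (x : B) :
    ev (linOf b θ Y x) = ψ x := by
  conv_rhs => rw [← b.sum_repr x]
  rw [linOf_apply, map_sum, map_sum]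
  refine Finset.sum_congr rfl (fun i _ => ?_)
  rw [map_mul, hY0, ← hψ, Algebra.smul_def, map_mul]

theorem linOf_D_basis_mul (Y : Fin d → R) (i : Fin d) (y : B) :
    linOf b θ Y (D (b i) * y) = ∑ k, θ (connMat b D i k) * linOf b θ Y (b k * y) := by
  conv_lhs => rw [D_basis b D i, Finset.sum_mul]
  rw [map_sum]
  exact Finset.sum_congr rfl (fun k _ => by rw [smul_mul_assoc, linOf_smul])

theorem linOf_mul_D_basis (Y : Fin d → R) (x : B) (j : Fin d) :
    linOf b θ Y (x * D (b j)) = ∑ l, θ (connMat b D j l) * linOf b θ Y (x * b l) := by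
  conv_lhs => rw [D_basis b D j, Finset.mul_sum]
  rw [map_sum]
  exact Finset.sum_congr rfl (fun k _ => by rw [mul_smul_comm, linOf_smul])

include hD hθ hψ in
/-- Multiplicativity on basis vectors, from uniqueness for a system of size `d * d`. -/
theorem linOf_basis_mul_basis (Y : Fin d → R)
    (hY : ∀ i, dR (Y i) = ∑ j, (t' * θ (connMat b D i j)) * Y j)
    (hY0 : ∀ i, ev (Y i) = ψ (b i))
    (huniq : ∀ (n : ℕ) (N : Matrix (Fin n) (Fin n) R) (Y : Fin n → R),
      (∀ i, dR (Y i) = ∑ j, N i j * Y j) → (∀ i, ev (Y i) = 0) → ∀ i, Y i = 0)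
    (i j : Fin d) :
    linOf b θ Y (b i * b j) = linOf b θ Y (b i) * linOf b θ Y (b j) := by
  classical
  set φ := linOf b θ Y with hφ
  have hch : ∀ x, dR (φ x) = t' * φ (D x) := dR_linOf b DA D hD dR θ t' hθ Y hY
  have hev : ∀ x, ev (φ x) = ψ x := ev_linOf b θ ev ψ hψ Y hY0
  let Z : Fin d × Fin d → R := fun p => φ (b p.1 * b p.2) - φ (b p.1) * φ (b p.2)
  let N : Matrix (Fin d × Fin d) (Fin d × Fin d) R := fun p q =>
    t' * (θ (connMat b D p.1 q.1) * (if p.2 = q.2 then 1 else 0)
      + θ (connMat b D p.2 q.2) * (if p.1 = q.1 then 1 else 0))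
  have h0 : ∀ p, ev (Z p) = 0 := fun p => by
    simp only [Z, map_sub, map_mul, hev, sub_self]
  have h1 : ∀ p, dR (Z p) = ∑ q, N p q * Z q := by
    rintro ⟨i, j⟩
    have hL : dR (Z (i, j)) = t' * ((φ (D (b i) * b j) - φ (D (b i)) * φ (b j))
        + (φ (b i * D (b j)) - φ (b i) * φ (D (b j)))) := by
      have hDm : D (b i * b j) = b i * D (b j) + D (b i) * b j := by
        rw [D.leibniz]; simp only [smul_eq_mul]; ring
      rw [show Z (i, j) = φ (b i * b j) - φ (b i) * φ (b j) from rfl, map_sub, dR.leibniz,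
        hch, hch, hch, hDm, map_add]
      simp only [smul_eq_mul]
      ring
    rw [hL, Fintype.sum_prod_type]
    simp only [N, Z]
    rw [linOf_D_basis_mul, linOf_mul_D_basis, hφ, linOf_D_basis, linOf_D_basis, ← hφ]
    simp only [mul_add, add_mul, Finset.sum_add_distrib, mul_ite, mul_one, mul_zero, ite_mul,
      zero_mul, Finset.sum_ite_eq, Finset.mem_univ, if_true, Finset.mul_sum, Finset.sum_mul,
      mul_sub, Finset.sum_sub_distrib]
    have hφb : ∀ k, φ (b k) = Y k := fun k => linOf_basis b θ Y k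
    rw [Finset.sum_comm (f := fun x x_1 => if i = x then
        t' * θ (connMat b D j x_1) * φ (b x * b x_1) else 0),
      Finset.sum_comm (f := fun x x_1 => if i = x then
        t' * θ (connMat b D j x_1) * (φ (b x) * φ (b x_1)) else 0)]
    simp only [Finset.sum_ite_eq, Finset.mem_univ, if_true, hφb]
    have e1 : ∀ f g : Fin d → R, (∀ k, f k = g k) → ∑ k, f k = ∑ k, g k :=
      fun f g h => Finset.sum_congr rfl (fun k _ => h k)
    rw [e1 _ _ (fun k => (mul_assoc t' (θ (connMat b D i k)) (φ (b k * b j))).symm),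
      e1 _ _ (fun k => (mul_assoc t' (θ (connMat b D j k)) (φ (b i * b k))).symm),
      e1 (fun k => t' * (θ (connMat b D i k) * Y k * Y j))
        (fun k => t' * θ (connMat b D i k) * (Y k * Y j)) (fun k => by ring),
      e1 (fun k => t' * (Y i * (θ (connMat b D j k) * Y k)))
        (fun k => t' * θ (connMat b D j k) * (Y i * Y k)) (fun k => by ring)]
    ring
  exact sub_eq_zero.mp (uniq_fintype dR ev huniq N Z h1 h0 (i, j))

include b hD hθ hψ in
/-- **Main theorem of F5.**  A point `ψ` of `B` above `ev ∘ θ` extends uniquely to a ring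
homomorphism `φ : B →+* R` above `θ` which is horizontal (`dR (φ x) = t' * φ (D x)`) and
specialises to `ψ` under `ev`. -/
theorem existsUnique_ringHom_of_ode
    (hex : ∀ (N : Matrix (Fin d) (Fin d) R) (y0 : Fin d → C),
      ∃ Y : Fin d → R, (∀ i, dR (Y i) = ∑ j, N i j * Y j) ∧ ∀ i, ev (Y i) = y0 i)
    (huniq : ∀ (n : ℕ) (N : Matrix (Fin n) (Fin n) R) (Y : Fin n → R),
      (∀ i, dR (Y i) = ∑ j, N i j * Y j) → (∀ i, ev (Y i) = 0) → ∀ i, Y i = 0) :
    ∃! φ : B →+* R, (∀ a, φ (algebraMap A B a) = θ a) ∧ (∀ x, dR (φ x) = t' * φ (D x)) ∧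
      ∀ x, ev (φ x) = ψ x := by
  classical
  obtain ⟨Y, hY, hY0⟩ := hex (fun i j => t' * θ (connMat b D i j)) (fun i => ψ (b i))
  set φ0 := linOf b θ Y with hφ0
  have hch : ∀ x, dR (φ0 x) = t' * φ0 (D x) := dR_linOf b DA D hD dR θ t' hθ Y hY
  have hev : ∀ x, ev (φ0 x) = ψ x := ev_linOf b θ ev ψ hψ Y hY0
  have hmulb : ∀ i j, φ0 (b i * b j) = φ0 (b i) * φ0 (b j) :=
    linOf_basis_mul_basis b DA D hD dR θ t' hθ ev ψ hψ Y hY hY0 huniq
  have hsm : ∀ (a : A) (x : B), φ0 (a • x) = θ a * φ0 x := linOf_smul b θ Y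
  have hmul1 : ∀ (i : Fin d) (y : B), φ0 (b i * y) = φ0 (b i) * φ0 y := fun i y =>
    addHom_ext_smul_basis b (φ0.comp (AddMonoidHom.mulLeft (b i)))
      ((AddMonoidHom.mulLeft (φ0 (b i))).comp φ0)
      (fun a j => by
        simp only [AddMonoidHom.coe_comp, Function.comp_apply, AddMonoidHom.coe_mulLeft]
        rw [mul_smul_comm, hsm, hsm, hmulb]; ring) y
  have hmul : ∀ x y : B, φ0 (x * y) = φ0 x * φ0 y := fun x y =>
    addHom_ext_smul_basis b (φ0.comp (AddMonoidHom.mulRight y))
      ((AddMonoidHom.mulRight (φ0 y)).comp φ0)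
      (fun a i => by
        simp only [AddMonoidHom.coe_comp, Function.comp_apply, AddMonoidHom.coe_mulRight]
        rw [smul_mul_assoc, hsm, hsm, hmul1]; ring) x
  have hone : φ0 1 = 1 := by
    have h1 : ∀ i : Fin 1, dR ((fun _ : Fin 1 => φ0 1 - 1) i)
        = ∑ j, (0 : Matrix (Fin 1) (Fin 1) R) i j * (fun _ : Fin 1 => φ0 1 - 1) j := by
      intro i
      simp [hch]
    have h0 : ∀ i : Fin 1, ev ((fun _ : Fin 1 => φ0 1 - 1) i) = 0 := by
      intro i
      simp [hev]
    exact sub_eq_zero.mp (huniq 1 0 (fun _ => φ0 1 - 1) h1 h0 0)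
  let φ : B →+* R :=
    { toFun := φ0
      map_one' := hone
      map_mul' := hmul
      map_zero' := map_zero φ0
      map_add' := map_add φ0 }
  have hφ : ∀ x, φ x = φ0 x := fun _ => rfl
  refine ⟨φ, ⟨fun a => ?_, fun x => hch x, fun x => hev x⟩, ?_⟩
  · rw [hφ, Algebra.algebraMap_eq_smul_one, hsm, hone, mul_one]
  · rintro φ' ⟨h1, h2, h3⟩
    have hsm' : ∀ (a : A) (x : B), φ' (a • x) = θ a * φ' x := fun a x => by
      rw [Algebra.smul_def, map_mul, h1]
    have hb : ∀ i, φ' (b i) = Y i := by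
      intro i
      have hW1 : ∀ i, dR ((fun k => φ' (b k) - Y k) i)
          = ∑ j, (fun i j => t' * θ (connMat b D i j) : Matrix (Fin d) (Fin d) R) i j
              * (fun k => φ' (b k) - Y k) j := by
        intro i
        simp only [map_sub, h2, hY]
        conv_lhs => rw [D_basis b D i, map_sum, Finset.mul_sum, ← Finset.sum_sub_distrib]
        exact Finset.sum_congr rfl (fun j _ => by rw [hsm']; ring)
      have hW0 : ∀ i, ev ((fun k => φ' (b k) - Y k) i) = 0 := by
        intro i
        simp only [map_sub, h3, hY0, sub_self]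
      exact sub_eq_zero.mp (huniq d _ _ hW1 hW0 i)
    ext x
    rw [hφ]
    exact eq_linOf b θ Y φ'.toAddMonoidHom hsm' hb x

end main

/-- A ring homomorphism out of an integral extension of domains which is injective on the base
is injective. -/
theorem injective_of_integral [Nontrivial A] [IsDomain B] [Algebra.IsIntegral A B]
    (θ : A →+* R) (hθ : Function.Injective θ) (φ : B →+* R)
    (h : ∀ a, φ (algebraMap A B a) = θ a) : Function.Injective φ := by
  rw [RingHom.injective_iff_ker_eq_bot]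
  apply Ideal.eq_bot_of_comap_eq_bot (R := A)
  ext a
  simp only [Ideal.mem_comap, RingHom.mem_ker, h, Ideal.mem_bot]
  exact ⟨fun ha => hθ (by rw [ha, map_zero]), fun ha => by rw [ha, map_zero]⟩

/-- Variant of the main theorem with injectivity of the resulting homomorphism. -/
theorem exists_injective_ringHom_of_ode [Nontrivial A] [IsDomain B] [Algebra.IsIntegral A B]
    (b : Module.Basis (Fin d) A B)
    (DA : Derivation ℤ A A) (D : Derivation ℤ B B)
    (hD : ∀ a, D (algebraMap A B a) = algebraMap A B (DA a))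
    (dR : Derivation ℤ R R) (θ : A →+* R) (hθinj : Function.Injective θ) (t' : R)
    (hθ : ∀ a, dR (θ a) = t' * θ (DA a))
    (ev : R →+* C) (ψ : B →+* C) (hψ : ∀ a, ψ (algebraMap A B a) = ev (θ a))
    (hex : ∀ (N : Matrix (Fin d) (Fin d) R) (y0 : Fin d → C),
      ∃ Y : Fin d → R, (∀ i, dR (Y i) = ∑ j, N i j * Y j) ∧ ∀ i, ev (Y i) = y0 i)
    (huniq : ∀ (n : ℕ) (N : Matrix (Fin n) (Fin n) R) (Y : Fin n → R),
      (∀ i, dR (Y i) = ∑ j, N i j * Y j) → (∀ i, ev (Y i) = 0) → ∀ i, Y i = 0) :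
    ∃ φ : B →+* R, Function.Injective φ ∧ (∀ a, φ (algebraMap A B a) = θ a) ∧
      (∀ x, dR (φ x) = t' * φ (D x)) ∧ ∀ x, ev (φ x) = ψ x := by
  obtain ⟨φ, ⟨h1, h2, h3⟩, -⟩ :=
    existsUnique_ringHom_of_ode b DA D hD dR θ t' hθ ev ψ hψ hex huniq
  exact ⟨φ, injective_of_integral θ hθinj φ h1, h1, h2, h3⟩

/-- The two hypotheses `hex`, `huniq` follow from existence and uniqueness at every size. -/
theorem hex_huniq_of_existsUnique (dR : Derivation ℤ R R) (ev : R →+* C)
    (hEU : ∀ (n : ℕ) (N : Matrix (Fin n) (Fin n) R) (y0 : Fin n → C),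
      ∃! Y : Fin n → R, (∀ i, dR (Y i) = ∑ j, N i j * Y j) ∧ ∀ i, ev (Y i) = y0 i) :
    (∀ (n : ℕ) (N : Matrix (Fin n) (Fin n) R) (y0 : Fin n → C),
      ∃ Y : Fin n → R, (∀ i, dR (Y i) = ∑ j, N i j * Y j) ∧ ∀ i, ev (Y i) = y0 i) ∧
    (∀ (n : ℕ) (N : Matrix (Fin n) (Fin n) R) (Y : Fin n → R),
      (∀ i, dR (Y i) = ∑ j, N i j * Y j) → (∀ i, ev (Y i) = 0) → ∀ i, Y i = 0) := by
  refine ⟨fun n N y0 => (hEU n N y0).exists, fun n N Y h1 h0 i => ?_⟩
  have hz : (∀ i, dR ((0 : Fin n → R) i) = ∑ j, N i j * (0 : Fin n → R) j) ∧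
      ∀ i, ev ((0 : Fin n → R) i) = (0 : Fin n → C) i := by
    constructor <;> intro i <;> simp
  have := (hEU n N 0).unique ⟨h1, fun i => by simpa using h0 i⟩ hz
  exact congrFun this i

/-- The main theorem under the single hypothesis of existence and uniqueness at every size. -/
theorem existsUnique_ringHom_of_ode' (b : Module.Basis (Fin d) A B)
    (DA : Derivation ℤ A A) (D : Derivation ℤ B B)
    (hD : ∀ a, D (algebraMap A B a) = algebraMap A B (DA a))
    (dR : Derivation ℤ R R) (θ : A →+* R) (t' : R)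
    (hθ : ∀ a, dR (θ a) = t' * θ (DA a))
    (ev : R →+* C) (ψ : B →+* C) (hψ : ∀ a, ψ (algebraMap A B a) = ev (θ a))
    (hEU : ∀ (n : ℕ) (N : Matrix (Fin n) (Fin n) R) (y0 : Fin n → C),
      ∃! Y : Fin n → R, (∀ i, dR (Y i) = ∑ j, N i j * Y j) ∧ ∀ i, ev (Y i) = y0 i) :
    ∃! φ : B →+* R, (∀ a, φ (algebraMap A B a) = θ a) ∧ (∀ x, dR (φ x) = t' * φ (D x)) ∧
      ∀ x, ev (φ x) = ψ x :=
  existsUnique_ringHom_of_ode b DA D hD dR θ t' hθ ev ψ hψ
    ((hex_huniq_of_existsUnique dR ev hEU).1 d) (hex_huniq_of_existsUnique dR ev hEU).2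

end Fermat.Agent.S27x.G2b
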