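/-
P-S27, block G2(b) (helper85).  Linear ordinary differential equations with holomorphic
coefficients on a disc: global existence (power series and a majorant) and uniqueness
(Gronwall along segments).

* `exists_fundamental_solution` : for a complete normed `ℂ`-algebra `𝔸` and `N : ℂ → 𝔸`
  holomorphic on `ball c r` there is `Φ : ℂ → 𝔸` with `Φ c = 1` and `Φ' = N Φ` on the ball.
* `eqOn_of_linearODE` : two solutions of `Y' = N(z) Y` on a convex open set which agree at one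
  point agree everywhere.
-/
import Mathlib

set_option autoImplicit false

open Finset Metric

namespace Fermat.Agent.S27x.G2b

theorem pow_eq_mul_div_pow {ρ ρ' : ℝ} (h : ρ' ≠ 0) (n : ℕ) : ρ ^ n = ρ' ^ n * (ρ / ρ') ^ n := by
  rw [div_pow, mul_div_cancel₀ _ (pow_ne_zero _ h)]

section Coeff

variable {𝔸 : Type*} [NormedRing 𝔸] [NormedAlgebra ℂ 𝔸]

/-- The Taylor coefficients of the solution of `Φ' = N Φ`, `Φ(c) = 1`, where `a` are the Taylor
coefficients of `N`: `(n+1) b_{n+1} = ∑_{k ≤ n} a_k b_{n-k}`. -/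
noncomputable def odeCoeff (a : ℕ → 𝔸) : ℕ → 𝔸
  | 0 => 1
  | (n + 1) => ((n + 1 : ℂ)⁻¹) • ∑ k : Fin (n + 1), a k * odeCoeff a (n - k)
decreasing_by
  have := k.isLt
  omega

theorem odeCoeff_zero (a : ℕ → 𝔸) : odeCoeff a 0 = 1 := by
  rw [odeCoeff]

theorem odeCoeff_succ (a : ℕ → 𝔸) (n : ℕ) :
    odeCoeff a (n + 1) = ((n + 1 : ℂ)⁻¹) • ∑ k ∈ range (n + 1), a k * odeCoeff a (n - k) := by
  rw [odeCoeff, Fin.sum_univ_eq_sum_range (fun k => a k * odeCoeff a (n - k)) (n + 1)]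

theorem succ_smul_odeCoeff_succ (a : ℕ → 𝔸) (n : ℕ) :
    ((n + 1 : ℂ)) • odeCoeff a (n + 1) = ∑ k ∈ range (n + 1), a k * odeCoeff a (n - k) := by
  have h : ((n : ℂ) + 1) ≠ 0 := Nat.cast_add_one_ne_zero n
  rw [odeCoeff_succ, smul_smul, mul_inv_cancel₀ h, one_smul]

theorem succ_mul_norm_odeCoeff_succ_le (a : ℕ → 𝔸) (n : ℕ) :
    ((n : ℝ) + 1) * ‖odeCoeff a (n + 1)‖ ≤ ∑ k ∈ range (n + 1), ‖a k‖ * ‖odeCoeff a (n - k)‖ := by
  have h1 : ‖((n + 1 : ℂ)) • odeCoeff a (n + 1)‖ = ((n : ℝ) + 1) * ‖odeCoeff a (n + 1)‖ := by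
    rw [norm_smul]
    congr 1
    have : ((n : ℂ) + 1) = ((n + 1 : ℕ) : ℂ) := by push_cast; ring
    rw [this, Complex.norm_natCast]
    push_cast; ring
  rw [← h1, succ_smul_odeCoeff_succ]
  exact (norm_sum_le _ _).trans (Finset.sum_le_sum fun k _ => norm_mul_le _ _)

/-- The key majorant: the partial sums of `‖b_j‖ ρ^j` grow at most like a binomial coefficient. -/
theorem sum_norm_odeCoeff_le {a : ℕ → 𝔸} {ρ C : ℝ} (hρ : 0 < ρ) (hC : ∀ n, ‖a n‖ * ρ ^ n ≤ C)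
    (m : ℕ) (hm : C * ρ ≤ m) (n : ℕ) :
    ∑ j ∈ range (n + 1), ‖odeCoeff a j‖ * ρ ^ j ≤ ‖(1 : 𝔸)‖ * ((n + m).choose m : ℝ) := by
  induction n with
  | zero => simp [odeCoeff_zero]
  | succ n ih =>
    set S := ∑ j ∈ range (n + 1), ‖odeCoeff a j‖ * ρ ^ j with hS
    have hS0 : 0 ≤ S := Finset.sum_nonneg fun j _ => by positivity
    have hn : (0 : ℝ) < (n : ℝ) + 1 := by positivity
    -- the new term
    have hnew : ((n : ℝ) + 1) * (‖odeCoeff a (n + 1)‖ * ρ ^ (n + 1)) ≤ (m : ℝ) * S := by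
      have h1 := succ_mul_norm_odeCoeff_succ_le a n
      have h2 : ((n : ℝ) + 1) * (‖odeCoeff a (n + 1)‖ * ρ ^ (n + 1)) ≤
          (∑ k ∈ range (n + 1), ‖a k‖ * ‖odeCoeff a (n - k)‖) * ρ ^ (n + 1) := by
        rw [← mul_assoc]
        exact mul_le_mul_of_nonneg_right h1 (by positivity)
      have h3 : (∑ k ∈ range (n + 1), ‖a k‖ * ‖odeCoeff a (n - k)‖) * ρ ^ (n + 1) =
          ρ * ∑ k ∈ range (n + 1), (‖a k‖ * ρ ^ k) * (‖odeCoeff a (n - k)‖ * ρ ^ (n - k)) := by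
        rw [Finset.sum_mul, Finset.mul_sum]
        refine Finset.sum_congr rfl fun k hk => ?_
        have hk' : k ≤ n := Nat.lt_succ_iff.mp (Finset.mem_range.mp hk)
        have : ρ ^ (n + 1) = ρ * (ρ ^ k * ρ ^ (n - k)) := by
          rw [← pow_add, ← pow_succ']
          congr 1
          omega
        rw [this]; ring
      have h4 : ∑ k ∈ range (n + 1), (‖a k‖ * ρ ^ k) * (‖odeCoeff a (n - k)‖ * ρ ^ (n - k)) ≤
          ∑ k ∈ range (n + 1), C * (‖odeCoeff a (n - k)‖ * ρ ^ (n - k)) :=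
        Finset.sum_le_sum fun k _ => mul_le_mul_of_nonneg_right (hC k) (by positivity)
      have h5 : ∑ k ∈ range (n + 1), C * (‖odeCoeff a (n - k)‖ * ρ ^ (n - k)) = C * S := by
        rw [← Finset.mul_sum, hS]
        congr 1
        exact Finset.sum_range_reflect (fun j => ‖odeCoeff a j‖ * ρ ^ j) (n + 1)
      calc ((n : ℝ) + 1) * (‖odeCoeff a (n + 1)‖ * ρ ^ (n + 1))
          ≤ ρ * ∑ k ∈ range (n + 1),
              (‖a k‖ * ρ ^ k) * (‖odeCoeff a (n - k)‖ * ρ ^ (n - k)) := h3 ▸ h2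
        _ ≤ ρ * (C * S) := mul_le_mul_of_nonneg_left (h4.trans_eq h5) hρ.le
        _ = (C * ρ) * S := by ring
        _ ≤ (m : ℝ) * S := mul_le_mul_of_nonneg_right hm hS0
    rw [Finset.sum_range_succ]
    -- multiply by `n + 1`
    have hchoose : ((n + 1 + m).choose m : ℝ) * ((n : ℝ) + 1) =
        ((n + m).choose m : ℝ) * ((n : ℝ) + m + 1) := by
      have := Nat.choose_mul_succ_eq (n + m) m
      have h' : n + m + 1 - m = n + 1 := by omega
      rw [h'] at this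
      have h2 : n + 1 + m = n + m + 1 := by omega
      rw [h2]
      exact_mod_cast this.symm
    have key : ((n : ℝ) + 1) * (S + ‖odeCoeff a (n + 1)‖ * ρ ^ (n + 1)) ≤
        ((n : ℝ) + 1) * (‖(1 : 𝔸)‖ * ((n + 1 + m).choose m : ℝ)) := by
      calc ((n : ℝ) + 1) * (S + ‖odeCoeff a (n + 1)‖ * ρ ^ (n + 1))
          = ((n : ℝ) + 1) * S + ((n : ℝ) + 1) * (‖odeCoeff a (n + 1)‖ * ρ ^ (n + 1)) := by ring
        _ ≤ ((n : ℝ) + 1) * S + (m : ℝ) * S := by linarith
        _ = ((n : ℝ) + m + 1) * S := by ring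
        _ ≤ ((n : ℝ) + m + 1) * (‖(1 : 𝔸)‖ * ((n + m).choose m : ℝ)) :=
            mul_le_mul_of_nonneg_left ih (by positivity)
        _ = ((n : ℝ) + 1) * (‖(1 : 𝔸)‖ * ((n + 1 + m).choose m : ℝ)) := by
            rw [mul_comm ((n : ℝ) + 1), mul_assoc, hchoose]; ring
    exact le_of_mul_le_mul_left key hn

/-- Summability of the majorant series inside the disc of convergence. -/
theorem summable_norm_odeCoeff {a : ℕ → 𝔸} {ρ' C : ℝ} (hρ' : 0 < ρ')
    (hC : ∀ n, ‖a n‖ * ρ' ^ n ≤ C) {ρ : ℝ} (hρ0 : 0 ≤ ρ) (hρ : ρ < ρ') :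
    Summable (fun n => ‖odeCoeff a n‖ * ρ ^ n) := by
  set m : ℕ := ⌈C * ρ'⌉₊ with hm
  have hmle : C * ρ' ≤ m := Nat.le_ceil _
  set θ : ℝ := ρ / ρ' with hθ
  have hθ0 : 0 ≤ θ := div_nonneg hρ0 hρ'.le
  have hθ1 : θ < 1 := (div_lt_one hρ').mpr hρ
  have hsum : Summable (fun n : ℕ => ‖(1 : 𝔸)‖ * (((n + m).choose m : ℝ) * θ ^ n)) := by
    have := summable_choose_mul_geometric_of_norm_lt_one (R := ℝ) m (r := θ)
      (by rw [Real.norm_eq_abs, abs_of_nonneg hθ0]; exact hθ1)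
    exact this.mul_left _
  refine Summable.of_nonneg_of_le (fun n => by positivity) (fun n => ?_) hsum
  have h1 : ‖odeCoeff a n‖ * ρ' ^ n ≤ ‖(1 : 𝔸)‖ * ((n + m).choose m : ℝ) := by
    refine le_trans ?_ (sum_norm_odeCoeff_le hρ' hC m hmle n)
    exact Finset.single_le_sum (f := fun j => ‖odeCoeff a j‖ * ρ' ^ j)
      (fun j _ => by positivity) (Finset.mem_range.mpr (Nat.lt_succ_self n))
  have h2 : ρ ^ n = ρ' ^ n * θ ^ n := pow_eq_mul_div_pow hρ'.ne' n
  calc ‖odeCoeff a n‖ * ρ ^ n = (‖odeCoeff a n‖ * ρ' ^ n) * θ ^ n := by rw [h2]; ring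
    _ ≤ (‖(1 : 𝔸)‖ * ((n + m).choose m : ℝ)) * θ ^ n :=
        mul_le_mul_of_nonneg_right h1 (by positivity)
    _ = ‖(1 : 𝔸)‖ * (((n + m).choose m : ℝ) * θ ^ n) := by ring

end Coeff

section Taylor

variable {E : Type*} [NormedAddCommGroup E] [NormedSpace ℂ E] [CompleteSpace E]

/-- The Taylor coefficients of a function holomorphic on a disc. -/
noncomputable def taylorCoeff (N : ℂ → E) (c : ℂ) (n : ℕ) : E :=
  ((n.factorial : ℂ)⁻¹) • iteratedDeriv n N c

theorem hasSum_taylorCoeff {N : ℂ → E} {c : ℂ} {r : ℝ}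
    (hN : DifferentiableOn ℂ N (ball c r)) {z : ℂ} (hz : z ∈ ball c r) :
    HasSum (fun n => (z - c) ^ n • taylorCoeff N c n) (N z) := by
  have := Complex.hasSum_taylorSeries_on_ball hN hz
  refine this.congr_fun fun n => ?_
  rw [taylorCoeff, smul_comm]

/-- Cauchy bound: the Taylor coefficients times `ρ ^ n` are bounded for `ρ < r`. -/
theorem exists_bound_taylorCoeff {N : ℂ → E} {c : ℂ} {r : ℝ}
    (hN : DifferentiableOn ℂ N (ball c r)) {ρ : ℝ} (hρ0 : 0 < ρ) (hρ : ρ < r) :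
    ∃ C, ∀ n, ‖taylorCoeff N c n‖ * ρ ^ n ≤ C := by
  have hz : c + (ρ : ℂ) ∈ ball c r := by
    rw [mem_ball, dist_eq_norm, add_sub_cancel_left, Complex.norm_real, Real.norm_eq_abs,
      abs_of_pos hρ0]
    exact hρ
  have hs := (hasSum_taylorCoeff hN hz).summable
  have ht := hs.tendsto_atTop_zero.norm
  obtain ⟨C, hC⟩ := ht.bddAbove_range
  refine ⟨C, fun n => ?_⟩
  have := hC (Set.mem_range_self n)
  simp only [add_sub_cancel_left, norm_smul, norm_pow, Complex.norm_real, Real.norm_eq_abs,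
    abs_of_pos hρ0] at this
  rw [mul_comm]
  exact this

/-- Absolute convergence of the Taylor series inside the disc. -/
theorem summable_norm_taylorCoeff {N : ℂ → E} {c : ℂ} {r : ℝ}
    (hN : DifferentiableOn ℂ N (ball c r)) {ρ : ℝ} (hρ0 : 0 ≤ ρ) (hρ : ρ < r) :
    Summable (fun n => ‖taylorCoeff N c n‖ * ρ ^ n) := by
  obtain ⟨ρ', h1, h2⟩ := exists_between hρ
  have h0 : 0 < ρ' := lt_of_le_of_lt hρ0 h1
  obtain ⟨C, hC⟩ := exists_bound_taylorCoeff hN h0 h2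
  set θ : ℝ := ρ / ρ' with hθ
  have hθ0 : 0 ≤ θ := div_nonneg hρ0 h0.le
  have hθ1 : θ < 1 := (div_lt_one h0).mpr h1
  refine Summable.of_nonneg_of_le (fun n => by positivity) (fun n => ?_)
    ((summable_geometric_of_lt_one hθ0 hθ1).mul_left C)
  have h3 : ρ ^ n = ρ' ^ n * θ ^ n := pow_eq_mul_div_pow h0.ne' n
  calc ‖taylorCoeff N c n‖ * ρ ^ n = (‖taylorCoeff N c n‖ * ρ' ^ n) * θ ^ n := by rw [h3]; ring
    _ ≤ C * θ ^ n := mul_le_mul_of_nonneg_right (hC n) (by positivity)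

end Taylor

section Existence

variable {𝔸 : Type*} [NormedRing 𝔸] [NormedAlgebra ℂ 𝔸] [CompleteSpace 𝔸]

/-- The candidate solution: the power series with coefficients `odeCoeff`. -/
noncomputable def odeSol (N : ℂ → 𝔸) (c : ℂ) (z : ℂ) : 𝔸 :=
  1 + ∑' n : ℕ, (z - c) ^ (n + 1) • odeCoeff (taylorCoeff N c) (n + 1)

omit [CompleteSpace 𝔸] in
theorem odeSol_center (N : ℂ → 𝔸) (c : ℂ) : odeSol N c c = 1 := by
  simp [odeSol]

theorem summable_norm_odeCoeff_taylor {N : ℂ → 𝔸} {c : ℂ} {r : ℝ}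
    (hN : DifferentiableOn ℂ N (ball c r)) {ρ : ℝ} (hρ0 : 0 ≤ ρ) (hρ : ρ < r) :
    Summable (fun n => ‖odeCoeff (taylorCoeff N c) n‖ * ρ ^ n) := by
  obtain ⟨ρ', h1, h2⟩ := exists_between hρ
  have h0 : 0 < ρ' := lt_of_le_of_lt hρ0 h1
  obtain ⟨C, hC⟩ := exists_bound_taylorCoeff hN h0 h2
  exact summable_norm_odeCoeff h0 hC hρ0 h1

/-- **Existence on a disc.** -/
theorem hasDerivAt_odeSol {N : ℂ → 𝔸} {c : ℂ} {r : ℝ}
    (hN : DifferentiableOn ℂ N (ball c r)) {z : ℂ} (hz : z ∈ ball c r) :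
    HasDerivAt (odeSol N c) (N z * odeSol N c z) z := by
  set a := taylorCoeff N c with ha
  set b := odeCoeff a with hb
  have hzr : ‖z - c‖ < r := by rwa [mem_ball, dist_eq_norm] at hz
  obtain ⟨ρ, hzρ, hρr⟩ := exists_between hzr
  have hρ0 : 0 < ρ := lt_of_le_of_lt (norm_nonneg _) hzρ
  -- the derivative of the series
  let g : ℕ → ℂ → 𝔸 := fun n w => (w - c) ^ (n + 1) • b (n + 1)
  let g' : ℕ → ℂ → 𝔸 := fun n w => (w - c) ^ n • ∑ k ∈ range (n + 1), a k * b (n - k)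
  let u : ℕ → ℝ := fun n => ‖∑ k ∈ range (n + 1), (‖a k‖ * ρ ^ k) * (‖b (n - k)‖ * ρ ^ (n - k))‖
  have hu : Summable u := by
    have h1 : Summable fun n => ‖‖a n‖ * ρ ^ n‖ := by
      have := summable_norm_taylorCoeff hN hρ0.le hρr
      refine this.congr fun n => ?_
      rw [Real.norm_eq_abs, abs_of_nonneg (by positivity)]
    have h2 : Summable fun n => ‖‖b n‖ * ρ ^ n‖ := by
      have := summable_norm_odeCoeff_taylor hN hρ0.le hρr
      refine this.congr fun n => ?_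
      rw [Real.norm_eq_abs, abs_of_nonneg (by positivity)]
    exact summable_norm_sum_mul_range_of_summable_norm (f := fun n => ‖a n‖ * ρ ^ n)
      (g := fun n => ‖b n‖ * ρ ^ n) h1 h2
  have hg : ∀ n w, w ∈ ball c ρ → HasDerivAt (g n) (g' n w) w := by
    intro n w _
    have h1 : HasDerivAt (fun w : ℂ => (w - c) ^ (n + 1)) (((n + 1 : ℕ) : ℂ) * (w - c) ^ n) w := by
      have := ((hasDerivAt_id w).sub_const c).fun_pow (n + 1)
      simpa using this
    have h2 := h1.smul_const (b (n + 1))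
    have h3 : (((n + 1 : ℕ) : ℂ) * (w - c) ^ n) • b (n + 1) = g' n w := by
      show _ = (w - c) ^ n • ∑ k ∈ range (n + 1), a k * b (n - k)
      rw [← succ_smul_odeCoeff_succ, smul_smul, mul_comm]
      push_cast
      rfl
    rw [h3] at h2
    exact h2
  have hg' : ∀ n w, w ∈ ball c ρ → ‖g' n w‖ ≤ u n := by
    intro n w hw
    have hwρ : ‖w - c‖ ≤ ρ := by
      rw [mem_ball, dist_eq_norm] at hw
      exact hw.le
    show ‖(w - c) ^ n • ∑ k ∈ range (n + 1), a k * b (n - k)‖ ≤ _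
    rw [norm_smul, norm_pow]
    have h1 : ‖∑ k ∈ range (n + 1), a k * b (n - k)‖ ≤ ∑ k ∈ range (n + 1), ‖a k‖ * ‖b (n - k)‖ :=
      (norm_sum_le _ _).trans (Finset.sum_le_sum fun k _ => norm_mul_le _ _)
    have h2 : ‖w - c‖ ^ n ≤ ρ ^ n := pow_le_pow_left₀ (norm_nonneg _) hwρ n
    have h3 : ρ ^ n * ∑ k ∈ range (n + 1), ‖a k‖ * ‖b (n - k)‖ =
        ∑ k ∈ range (n + 1), (‖a k‖ * ρ ^ k) * (‖b (n - k)‖ * ρ ^ (n - k)) := by
      rw [Finset.mul_sum]
      refine Finset.sum_congr rfl fun k hk => ?_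
      have hk' : k ≤ n := Nat.lt_succ_iff.mp (Finset.mem_range.mp hk)
      have : ρ ^ n = ρ ^ k * ρ ^ (n - k) := by
        rw [← pow_add]
        congr 1
        omega
      rw [this]; ring
    calc ‖w - c‖ ^ n * ‖∑ k ∈ range (n + 1), a k * b (n - k)‖
        ≤ ρ ^ n * ∑ k ∈ range (n + 1), ‖a k‖ * ‖b (n - k)‖ :=
          mul_le_mul h2 h1 (norm_nonneg _) (by positivity)
      _ = ∑ k ∈ range (n + 1), (‖a k‖ * ρ ^ k) * (‖b (n - k)‖ * ρ ^ (n - k)) := h3
      _ ≤ u n := le_abs_self _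
  have hg0 : Summable fun n => g n c := by
    have : (fun n => g n c) = fun _ => (0 : 𝔸) := by
      funext n
      show (c - c) ^ (n + 1) • b (n + 1) = 0
      rw [sub_self, zero_pow (Nat.succ_ne_zero n), zero_smul]
    rw [this]
    exact summable_zero
  have hzρ' : z ∈ ball c ρ := by rwa [mem_ball, dist_eq_norm]
  have key := hasDerivAt_tsum_of_isPreconnected hu isOpen_ball (convex_ball c ρ).isPreconnected
    hg hg' (mem_ball_self hρ0) hg0 hzρ'
  have key' : HasDerivAt (odeSol N c) (∑' n, g' n z) z := key.const_add 1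
  -- identify the derivative with the product
  have hNa : Summable fun n => ‖(z - c) ^ n • a n‖ := by
    have := summable_norm_taylorCoeff hN (norm_nonneg (z - c)) hzr
    refine this.congr fun n => ?_
    rw [norm_smul, norm_pow, mul_comm]
  have hNb : Summable fun n => ‖(z - c) ^ n • b n‖ := by
    have := summable_norm_odeCoeff_taylor hN (norm_nonneg (z - c)) hzr
    refine this.congr fun n => ?_
    rw [norm_smul, norm_pow, mul_comm]
  have hNz : N z = ∑' n, (z - c) ^ n • a n := (hasSum_taylorCoeff hN hz).tsum_eq.symm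
  have hΦz : odeSol N c z = ∑' n, (z - c) ^ n • b n := by
    rw [hNb.of_norm.tsum_eq_zero_add]
    show _ = (z - c) ^ 0 • odeCoeff a 0 + _
    rw [pow_zero, one_smul, odeCoeff_zero]
    rfl
  have hprod := tsum_mul_tsum_eq_tsum_sum_range_of_summable_norm hNa hNb
  have hterm : ∀ n, ∑ k ∈ range (n + 1), (z - c) ^ k • a k * (z - c) ^ (n - k) • b (n - k) =
      g' n z := by
    intro n
    show _ = (z - c) ^ n • ∑ k ∈ range (n + 1), a k * b (n - k)
    rw [Finset.smul_sum]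
    refine Finset.sum_congr rfl fun k hk => ?_
    have hk' : k ≤ n := Nat.lt_succ_iff.mp (Finset.mem_range.mp hk)
    rw [smul_mul_smul_comm, ← pow_add]
    congr 2
    omega
  have : N z * odeSol N c z = ∑' n, g' n z := by
    rw [hNz, hΦz, hprod]
    exact tsum_congr hterm
  rw [this]
  exact key'

/-- **Existence of a fundamental solution on a disc.** -/
theorem exists_fundamental_solution (N : ℂ → 𝔸) (c : ℂ) (r : ℝ)
    (hN : DifferentiableOn ℂ N (ball c r)) :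
    ∃ Φ : ℂ → 𝔸, Φ c = 1 ∧ ∀ z ∈ ball c r, HasDerivAt Φ (N z * Φ z) z :=
  ⟨odeSol N c, odeSol_center N c, fun _ hz => hasDerivAt_odeSol hN hz⟩

end Existence

section Uniqueness

variable {E : Type*} [NormedAddCommGroup E] [NormedSpace ℂ E]

/-- A solution of `W' = N(z) W` on a convex set which vanishes at one point vanishes
identically (Gronwall along segments). -/
theorem eq_zero_of_linearODE (N : ℂ → E →L[ℂ] E) {U : Set ℂ} (hconv : Convex ℝ U)
    (hN : ContinuousOn N U) (W : ℂ → E) (hW : ∀ z ∈ U, HasDerivAt W (N z (W z)) z) {c : ℂ}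
    (hc : c ∈ U) (h : W c = 0) : ∀ z ∈ U, W z = 0 := by
  intro z hz
  let γ : ℝ → ℂ := fun s => c + s • (z - c)
  have hγU : ∀ s ∈ Set.Icc (0 : ℝ) 1, γ s ∈ U := fun s hs =>
    hconv.add_smul_sub_mem hc hz hs
  have hγ : ∀ s, HasDerivAt γ (z - c) s := by
    intro s
    have h1 : HasDerivAt (fun s : ℝ => s • (z - c)) ((1 : ℝ) • (z - c)) s :=
      (hasDerivAt_id s).smul_const (z - c)
    rw [one_smul] at h1
    exact h1.const_add c
  have hγc : Continuous γ := by fun_prop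
  have hNγ : ContinuousOn (fun s => N (γ s)) (Set.Icc (0 : ℝ) 1) :=
    hN.comp hγc.continuousOn hγU
  obtain ⟨C, hC⟩ := isCompact_Icc.exists_bound_of_continuousOn hNγ
  let f : ℝ → E := W ∘ γ
  let f' : ℝ → E := fun s => (z - c) • N (γ s) (W (γ s))
  have hf' : ∀ s ∈ Set.Icc (0 : ℝ) 1, HasDerivAt f (f' s) s := fun s hs =>
    (hW _ (hγU s hs)).scomp s (hγ s)
  have hcont : ContinuousOn f (Set.Icc (0 : ℝ) 1) := fun s hs =>
    (hf' s hs).continuousAt.continuousWithinAt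
  have hf0 : f 0 = 0 := by
    show W (c + (0 : ℝ) • (z - c)) = 0
    rw [zero_smul, add_zero, h]
  have bound : ∀ s ∈ Set.Ico (0 : ℝ) 1, ‖f' s‖ ≤ (‖z - c‖ * C) * ‖f s‖ := by
    intro s hs
    have hs' := Set.Ico_subset_Icc_self hs
    show ‖(z - c) • N (γ s) (W (γ s))‖ ≤ _
    rw [norm_smul, mul_assoc]
    refine mul_le_mul_of_nonneg_left ?_ (norm_nonneg _)
    exact ((N (γ s)).le_opNorm _).trans
      (mul_le_mul_of_nonneg_right (hC s hs') (norm_nonneg _))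
  have key := eq_zero_of_abs_deriv_le_mul_abs_self_of_eq_zero_right hcont
    (fun x hx => (hf' x (Set.Ico_subset_Icc_self hx)).hasDerivWithinAt) hf0 bound 1
    (Set.right_mem_Icc.mpr zero_le_one)
  have h1 : f 1 = W z := by
    show W (c + (1 : ℝ) • (z - c)) = W z
    rw [one_smul, add_sub_cancel]
  rw [← h1, key]

/-- **Uniqueness on convex sets.** -/
theorem eqOn_of_linearODE (N : ℂ → E →L[ℂ] E) {U : Set ℂ} (hconv : Convex ℝ U)
    (hN : ContinuousOn N U) (Y₁ Y₂ : ℂ → E) (h₁ : ∀ z ∈ U, HasDerivAt Y₁ (N z (Y₁ z)) z)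
    (h₂ : ∀ z ∈ U, HasDerivAt Y₂ (N z (Y₂ z)) z) {c : ℂ} (hc : c ∈ U) (h : Y₁ c = Y₂ c) :
    Set.EqOn Y₁ Y₂ U := by
  intro z hz
  have key := eq_zero_of_linearODE N hconv hN (fun w => Y₁ w - Y₂ w)
    (fun w hw => by
      have := (h₁ w hw).sub (h₂ w hw)
      rw [← map_sub] at this
      exact this) hc (by rw [h, sub_self]) z hz
  exact sub_eq_zero.mp key

end Uniqueness

end Fermat.Agent.S27x.G2b
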