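import Mathlib
import Fermat.Agent.S24.HolFun

/-!
helper29 (P-S27, block G2b, file F2 of notes 908/935): linear differential systems with
holomorphic coefficients on the upper half plane.

* `dH : Derivation ℂ HolFun HolFun`, the derivation `d/dτ` (`dH_apply`);
* `evH τ : HolFun →ₐ[ℂ] ℂ`, evaluation at `τ`;
* `linODE_existsUnique_of`: existence and uniqueness of solutions `Y : Fin n → HolFun` of
  `dH (Y i) = ∑ j, N i j * Y j` with prescribed values at `τ0`, from the two statements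
  `DiscEx n` (existence of a fundamental solution on discs) and `ConvUniq n` (uniqueness on convex
  open sets) of file F1 (`ODEDisc.lean`).
-/

set_option autoImplicit false

open UpperHalfPlane hiding I
open Complex Filter
open scoped Manifold MatrixGroups Topology

namespace Fermat.Agent.S27x.G2b

open Fermat.Agent.S24

local notation "ℍₒ" => UpperHalfPlane.upperHalfPlaneSet

/-! ### The derivation `d/dτ` on `HolFun` -/

/-- The extension of `f : HolFun` to `ℂ` (junk outside the upper half plane). -/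
noncomputable def extC (f : HolFun) : ℂ → ℂ := (f : ℍ → ℂ) ∘ ofComplex

theorem extC_apply_coe (f : HolFun) (τ : ℍ) : extC f τ = (f : ℍ → ℂ) τ := by
  rw [extC, Function.comp_apply, ofComplex_apply]

theorem extC_apply_of_im_pos (f : HolFun) {z : ℂ} (hz : 0 < z.im) :
    extC f z = (f : ℍ → ℂ) ⟨z, hz⟩ := by
  rw [extC, Function.comp_apply, ofComplex_apply_of_im_pos hz]

theorem differentiableOn_extC (f : HolFun) : DifferentiableOn ℂ (extC f) ℍₒ :=
  UpperHalfPlane.mdifferentiable_iff.mp f.2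

theorem differentiableAt_extC (f : HolFun) {z : ℂ} (hz : 0 < z.im) :
    DifferentiableAt ℂ (extC f) z :=
  (differentiableOn_extC f).differentiableAt (isOpen_upperHalfPlaneSet.mem_nhds hz)

theorem extC_add (f g : HolFun) : extC (f + g) = extC f + extC g := rfl

theorem extC_mul (f g : HolFun) : extC (f * g) = extC f * extC g := rfl

theorem extC_smul (c : ℂ) (f : HolFun) : extC (c • f) = c • extC f := rfl

theorem extC_one : extC 1 = fun _ => 1 := rfl

/-- A function on `ℍ` whose extension to `ℂ` agrees on the upper half plane with a function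
differentiable there is holomorphic. -/
theorem mdiff_of_eqOn {f : ℍ → ℂ} {g : ℂ → ℂ} (hg : DifferentiableOn ℂ g ℍₒ)
    (h : ∀ τ : ℍ, f τ = g τ) : MDiff f := by
  refine UpperHalfPlane.mdifferentiable_iff.mpr (hg.congr fun z hz => ?_)
  rw [Function.comp_apply, h, ofComplex_apply_of_im_pos hz]

/-- The derivative of a holomorphic function on `ℍ`, as a holomorphic function. -/
noncomputable def dHFun (f : HolFun) : HolFun :=
  ⟨fun τ => deriv (extC f) τ,
    mdiff_of_eqOn ((differentiableOn_extC f).deriv isOpen_upperHalfPlaneSet) fun _ => rfl⟩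

theorem dHFun_apply (f : HolFun) (τ : ℍ) : (dHFun f : ℍ → ℂ) τ = deriv (extC f) τ := rfl

/-- **The derivation `d/dτ` of the ring of holomorphic functions on `ℍ`.** -/
noncomputable def dH : Derivation ℂ HolFun HolFun where
  toFun := dHFun
  map_add' f g := by
    ext τ
    rw [HolFun.coe_add_apply, dHFun_apply, dHFun_apply, dHFun_apply, extC_add]
    exact deriv_add (differentiableAt_extC f τ.im_pos) (differentiableAt_extC g τ.im_pos)
  map_smul' c f := by
    ext τ
    rw [RingHom.id_apply, dHFun_apply, extC_smul]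
    change deriv (c • extC f) τ = c • deriv (extC f) τ
    exact deriv_const_smul c (differentiableAt_extC f τ.im_pos)
  map_one_eq_zero' := by
    ext τ
    change deriv (extC 1) τ = 0
    rw [extC_one]
    exact deriv_const _ _
  leibniz' f g := by
    ext τ
    change deriv (extC (f * g)) τ = (f : ℍ → ℂ) τ * deriv (extC g) τ
      + (g : ℍ → ℂ) τ * deriv (extC f) τ
    rw [extC_mul, deriv_mul (differentiableAt_extC f τ.im_pos) (differentiableAt_extC g τ.im_pos),
      extC_apply_coe, extC_apply_coe]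
    ring

theorem dH_apply (f : HolFun) (τ : ℍ) :
    (dH f : ℍ → ℂ) τ = deriv ((f : ℍ → ℂ) ∘ UpperHalfPlane.ofComplex) τ := rfl

theorem hasDerivAt_extC (f : HolFun) (τ : ℍ) :
    HasDerivAt (extC f) ((dH f : ℍ → ℂ) τ) τ :=
  (differentiableAt_extC f τ.im_pos).hasDerivAt

theorem hasDerivAt_extC' (f : HolFun) {z : ℂ} (hz : 0 < z.im) :
    HasDerivAt (extC f) (extC (dH f) z) z := by
  have h := hasDerivAt_extC f ⟨z, hz⟩
  rwa [← extC_apply_of_im_pos (dH f) hz] at h

/-- If the extension of `f` has derivative `g τ` at every `τ : ℍ` then `dH f = g`. -/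
theorem dH_eq_of_hasDerivAt {f g : HolFun}
    (h : ∀ τ : ℍ, HasDerivAt (extC f) ((g : ℍ → ℂ) τ) τ) : dH f = g := by
  ext τ
  exact (h τ).deriv

/-! ### Evaluation -/

/-- Evaluation at a point of the upper half plane. -/
noncomputable def evH (τ : ℍ) : HolFun →ₐ[ℂ] ℂ :=
  (Pi.evalAlgHom ℂ (fun _ : ℍ => ℂ) τ).comp HolFun.val

@[simp] theorem evH_apply (τ : ℍ) (f : HolFun) : evH τ f = (f : ℍ → ℂ) τ := rfl

theorem extC_eq_evH (f : HolFun) (z : ℂ) : extC f z = evH (ofComplex z) f := rfl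

/-! ### Linear systems: the two inputs from `ODEDisc.lean` -/

/-- The algebra of endomorphisms of `ℂⁿ`. -/
abbrev EndV (n : ℕ) : Type := (Fin n → ℂ) →L[ℂ] (Fin n → ℂ)

/-- Statement (F1-ex) at the algebra `EndV n`: a linear system with coefficients holomorphic on a
disc has a fundamental solution there. -/
def DiscEx (n : ℕ) : Prop :=
  ∀ (N : ℂ → EndV n) (c : ℂ) (r : ℝ), DifferentiableOn ℂ N (Metric.ball c r) →
    ∃ Φ : ℂ → EndV n, Φ c = 1 ∧ ∀ z ∈ Metric.ball c r, HasDerivAt Φ (N z * Φ z) z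

/-- Statement (F1-uniq) for `ℂⁿ`: uniqueness of solutions of linear systems on convex open sets. -/
def ConvUniq (n : ℕ) : Prop :=
  ∀ (N : ℂ → EndV n) (U : Set ℂ), IsOpen U → Convex ℝ U → ContinuousOn N U →
    ∀ (Y₁ Y₂ : ℂ → (Fin n → ℂ)), (∀ z ∈ U, HasDerivAt Y₁ (N z (Y₁ z)) z) →
      (∀ z ∈ U, HasDerivAt Y₂ (N z (Y₂ z)) z) → ∀ c ∈ U, Y₁ c = Y₂ c → Set.EqOn Y₁ Y₂ U

/-! ### The exhaustion of the upper half plane by discs -/

/-- The disc with centre `k i` and radius `k`. -/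
def hDisc (k : ℕ) : Set ℂ := Metric.ball ((k : ℂ) * I) k

theorem isOpen_hDisc (k : ℕ) : IsOpen (hDisc k) := Metric.isOpen_ball

theorem convex_hDisc (k : ℕ) : Convex ℝ (hDisc k) := convex_ball _ _

theorem hDisc_subset (k : ℕ) : hDisc k ⊆ ℍₒ := by
  intro z hz
  rw [hDisc, Metric.mem_ball, dist_eq_norm] at hz
  have h1 : |(z - (k : ℂ) * I).im| ≤ ‖z - (k : ℂ) * I‖ := Complex.abs_im_le_norm _
  have h2 : (z - (k : ℂ) * I).im = z.im - k := by simp
  rw [h2] at h1
  have h3 := (abs_lt.mp (lt_of_le_of_lt h1 hz)).1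
  show 0 < z.im
  linarith

theorem hDisc_mono {k l : ℕ} (h : k ≤ l) : hDisc k ⊆ hDisc l := by
  intro z hz
  rw [hDisc, Metric.mem_ball, dist_eq_norm] at hz ⊢
  have h1 : z - (l : ℂ) * I = (z - (k : ℂ) * I) + (((k : ℂ) - (l : ℂ)) * I) := by ring
  have h2 : ‖((k : ℂ) - (l : ℂ)) * I‖ = (l : ℝ) - k := by
    rw [norm_mul, Complex.norm_I, mul_one, ← Complex.ofReal_natCast, ← Complex.ofReal_natCast,
      ← Complex.ofReal_sub, Complex.norm_real, Real.norm_eq_abs, abs_sub_comm,
      abs_of_nonneg (sub_nonneg.mpr (Nat.cast_le.mpr h))]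
  calc ‖z - (l : ℂ) * I‖ ≤ ‖z - (k : ℂ) * I‖ + ‖((k : ℂ) - (l : ℂ)) * I‖ := by
        rw [h1]; exact norm_add_le _ _
    _ < (k : ℝ) + ((l : ℝ) - k) := by rw [h2]; linarith
    _ = l := by ring

theorem exists_mem_hDisc {z : ℂ} (hz : 0 < z.im) : ∃ k : ℕ, z ∈ hDisc k := by
  obtain ⟨k, hk⟩ := exists_nat_gt (Complex.normSq z / (2 * z.im))
  refine ⟨k, ?_⟩
  rw [hDisc, Metric.mem_ball, dist_eq_norm]
  have hk' : Complex.normSq z < 2 * z.im * k := by
    rw [div_lt_iff₀ (by positivity)] at hk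
    linarith
  have hkpos : (0 : ℝ) < k := by
    have h0 : 0 ≤ Complex.normSq z := Complex.normSq_nonneg z
    by_contra hcon
    have : (k : ℝ) = 0 := le_antisymm (not_lt.mp hcon) (Nat.cast_nonneg k)
    rw [this, mul_zero] at hk'
    linarith
  have hsq : ‖z - (k : ℂ) * I‖ ^ 2 < (k : ℝ) ^ 2 := by
    rw [Complex.sq_norm, Complex.normSq_apply]
    have h1 : (z - (k : ℂ) * I).re = z.re := by simp
    have h2 : (z - (k : ℂ) * I).im = z.im - k := by simp
    rw [h1, h2]
    rw [Complex.normSq_apply] at hk'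
    nlinarith
  exact lt_of_pow_lt_pow_left₀ 2 hkpos.le hsq

theorem center_mem_hDisc {k : ℕ} {z : ℂ} (hz : z ∈ hDisc k) : (k : ℂ) * I ∈ hDisc k := by
  rw [hDisc, Metric.mem_ball] at hz ⊢
  rw [dist_self]
  exact lt_of_le_of_lt dist_nonneg hz

/-! ### Solutions on discs and on the half plane, as functions on `ℂ` -/

section Complex

variable {n : ℕ}

theorem hasDerivAt_clm_apply {Φ : ℂ → EndV n} {Φ' : EndV n} {z : ℂ} (h : HasDerivAt Φ Φ' z)
    (v : Fin n → ℂ) : HasDerivAt (fun w => Φ w v) (Φ' v) z :=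
  (ContinuousLinearMap.apply ℂ (Fin n → ℂ) v).hasFDerivAt.comp_hasDerivAt z h

/-- On a disc `hDisc k` there is a solution with prescribed value at a given point. -/
theorem exists_solution_hDisc (hEx : DiscEx n) (hUniq : ConvUniq n) (Nf : ℂ → EndV n)
    (hN : DifferentiableOn ℂ Nf ℍₒ) (k : ℕ) {τ0 : ℂ} (hτ0 : τ0 ∈ hDisc k) (y0 : Fin n → ℂ) :
    ∃ Y : ℂ → (Fin n → ℂ), Y τ0 = y0 ∧ ∀ z ∈ hDisc k, HasDerivAt Y (Nf z (Y z)) z := by
  obtain ⟨Φ, hΦc, hΦ⟩ := hEx Nf ((k : ℂ) * I) k (hN.mono (hDisc_subset k))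
  have hsol : ∀ v : Fin n → ℂ, ∀ z ∈ hDisc k, HasDerivAt (fun w => Φ w v) (Nf z (Φ z v)) z :=
    fun v z hz => hasDerivAt_clm_apply (hΦ z hz) v
  have hcont : ContinuousOn Nf (hDisc k) := (hN.mono (hDisc_subset k)).continuousOn
  have hinj : Function.Injective ((Φ τ0 : EndV n) : (Fin n → ℂ) →ₗ[ℂ] (Fin n → ℂ)) := by
    rw [← LinearMap.ker_eq_bot, LinearMap.ker_eq_bot']
    intro v hv
    have h0 : ∀ z ∈ hDisc k, HasDerivAt (fun _ : ℂ => (0 : Fin n → ℂ)) (Nf z 0) z := by
      intro z _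
      rw [map_zero]
      exact hasDerivAt_const z 0
    have heq := hUniq Nf (hDisc k) (isOpen_hDisc k) (convex_hDisc k) hcont
      (fun w => Φ w v) (fun _ => 0) (hsol v) h0 τ0 hτ0 hv
    have hc := heq (center_mem_hDisc hτ0)
    simpa [hΦc] using hc
  obtain ⟨v, hv⟩ := LinearMap.surjective_of_injective hinj y0
  exact ⟨fun w => Φ w v, hv, hsol v⟩

/-- The index of a disc containing a given point. -/
noncomputable def discIdx (k0 : ℕ) (z : ℂ) : ℕ :=
  if h : 0 < z.im then max k0 (Classical.choose (exists_mem_hDisc h)) else k0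

theorem le_discIdx (k0 : ℕ) (z : ℂ) : k0 ≤ discIdx k0 z := by
  unfold discIdx
  split_ifs
  · exact le_max_left _ _
  · exact le_rfl

theorem mem_hDisc_discIdx (k0 : ℕ) {z : ℂ} (hz : 0 < z.im) : z ∈ hDisc (discIdx k0 z) := by
  unfold discIdx
  rw [dif_pos hz]
  exact hDisc_mono (le_max_right _ _) (Classical.choose_spec (exists_mem_hDisc hz))

/-- **Global solutions on the upper half plane** (as functions on `ℂ`). -/
theorem exists_solution_halfPlane (hEx : DiscEx n) (hUniq : ConvUniq n) (Nf : ℂ → EndV n)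
    (hN : DifferentiableOn ℂ Nf ℍₒ) {τ0 : ℂ} (hτ0 : 0 < τ0.im) (y0 : Fin n → ℂ) :
    ∃ Y : ℂ → (Fin n → ℂ), Y τ0 = y0 ∧ ∀ z ∈ ℍₒ, HasDerivAt Y (Nf z (Y z)) z := by
  obtain ⟨k0, hk0⟩ := exists_mem_hDisc hτ0
  have hex : ∀ k : ℕ, ∃ Y : ℂ → (Fin n → ℂ), k0 ≤ k →
      (Y τ0 = y0 ∧ ∀ z ∈ hDisc k, HasDerivAt Y (Nf z (Y z)) z) := by
    intro k
    by_cases hk : k0 ≤ k
    · obtain ⟨Y, h1, h2⟩ := exists_solution_hDisc hEx hUniq Nf hN k (hDisc_mono hk hk0) y0
      exact ⟨Y, fun _ => ⟨h1, h2⟩⟩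
    · exact ⟨fun _ => 0, fun h => absurd h hk⟩
  choose Yk hYk using hex
  have hcompat : ∀ k l : ℕ, k0 ≤ k → k ≤ l → Set.EqOn (Yk k) (Yk l) (hDisc k) := by
    intro k l hk hkl
    have hcont : ContinuousOn Nf (hDisc k) := (hN.mono (hDisc_subset k)).continuousOn
    exact hUniq Nf (hDisc k) (isOpen_hDisc k) (convex_hDisc k) hcont (Yk k) (Yk l)
      (hYk k hk).2 (fun z hz => (hYk l (hk.trans hkl)).2 z (hDisc_mono hkl hz)) τ0
      (hDisc_mono hk hk0) ((hYk k hk).1.trans (hYk l (hk.trans hkl)).1.symm)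
  refine ⟨fun z => Yk (discIdx k0 z) z, (hYk _ (le_discIdx k0 τ0)).1, ?_⟩
  intro z hz
  set k := discIdx k0 z with hk
  have hkk0 : k0 ≤ k := le_discIdx k0 z
  have hzk : z ∈ hDisc k := mem_hDisc_discIdx k0 hz
  have hloc : ∀ w ∈ hDisc k, Yk (discIdx k0 w) w = Yk k w := by
    intro w hw
    have hw0 : 0 < w.im := hDisc_subset k hw
    have hwl : w ∈ hDisc (discIdx k0 w) := mem_hDisc_discIdx k0 hw0
    rcases le_total k (discIdx k0 w) with hle | hle
    · exact (hcompat k _ hkk0 hle hw).symm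
    · exact hcompat _ k (le_discIdx k0 w) hle hwl
  have hev : (fun w => Yk (discIdx k0 w) w) =ᶠ[𝓝 z] Yk k :=
    Filter.eventuallyEq_of_mem ((isOpen_hDisc k).mem_nhds hzk) hloc
  have hd := (hYk k hkk0).2 z hzk
  rw [← hloc z hzk] at hd
  exact hd.congr_of_eventuallyEq hev

end Complex


/-! ### Linear systems with coefficients in `HolFun` -/

section Hol

variable {n : ℕ}

/-- The matrix unit `E_{ij}` as a continuous endomorphism of `ℂⁿ`. -/
noncomputable def matUnit (i j : Fin n) : EndV n :=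
  (ContinuousLinearMap.proj j : (Fin n → ℂ) →L[ℂ] ℂ).smulRight (Pi.single i (1 : ℂ))

theorem matUnit_apply (i j : Fin n) (v : Fin n → ℂ) (l : Fin n) :
    matUnit i j v l = if l = i then v j else 0 := by
  rw [matUnit, ContinuousLinearMap.smulRight_apply, ContinuousLinearMap.proj_apply, Pi.smul_apply,
    Pi.single_apply, smul_eq_mul]
  split_ifs <;> simp

/-- The coefficient function `ℂ → End(ℂⁿ)` of a matrix of holomorphic functions. -/
noncomputable def coefFun (N : Matrix (Fin n) (Fin n) HolFun) (z : ℂ) : EndV n :=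
  ∑ i, ∑ j, extC (N i j) z • matUnit i j

theorem coefFun_apply (N : Matrix (Fin n) (Fin n) HolFun) (z : ℂ) (v : Fin n → ℂ) (l : Fin n) :
    coefFun N z v l = ∑ j, extC (N l j) z * v j := by
  simp only [coefFun, FunLike.coe_sum, FunLike.coe_smul,
    Finset.sum_apply, Pi.smul_apply, matUnit_apply, smul_eq_mul, mul_ite, mul_zero]
  rw [Finset.sum_comm]
  refine Finset.sum_congr rfl fun j _ => ?_
  rw [Finset.sum_ite_eq]
  simp

theorem differentiableOn_coefFun (N : Matrix (Fin n) (Fin n) HolFun) :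
    DifferentiableOn ℂ (coefFun N) ℍₒ := by
  unfold coefFun
  refine DifferentiableOn.fun_sum fun i _ => DifferentiableOn.fun_sum fun j _ => ?_
  exact (differentiableOn_extC (N i j)).smul_const _

/-- The vector valued function on `ℂ` attached to a tuple of holomorphic functions. -/
noncomputable def vecFun (Y : Fin n → HolFun) (z : ℂ) : Fin n → ℂ := fun i => extC (Y i) z

/-- A tuple of holomorphic functions solves the system iff its vector function does. -/
theorem hasDerivAt_vecFun (N : Matrix (Fin n) (Fin n) HolFun) (Y : Fin n → HolFun)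
    (h : ∀ i, dH (Y i) = ∑ j, N i j * Y j) {z : ℂ} (hz : 0 < z.im) :
    HasDerivAt (vecFun Y) (coefFun N z (vecFun Y z)) z := by
  rw [hasDerivAt_pi]
  intro i
  have h1 := hasDerivAt_extC' (Y i) hz
  rw [h i, extC_eq_evH, map_sum] at h1
  rw [coefFun_apply]
  simp only [map_mul, ← extC_eq_evH] at h1
  exact h1

/-- **Existence and uniqueness for linear differential systems on the upper half plane**, from
the two inputs `DiscEx n`, `ConvUniq n` of `ODEDisc.lean`. -/
theorem linODE_existsUnique_of (hEx : DiscEx n) (hUniq : ConvUniq n) (τ0 : ℍ)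
    (N : Matrix (Fin n) (Fin n) HolFun) (y0 : Fin n → ℂ) :
    ∃! Y : Fin n → HolFun, (∀ i, dH (Y i) = ∑ j, N i j * Y j) ∧ ∀ i, evH τ0 (Y i) = y0 i := by
  obtain ⟨Yc, hY0, hYc⟩ := exists_solution_halfPlane hEx hUniq (coefFun N)
    (differentiableOn_coefFun N) τ0.im_pos y0
  have hcomp : ∀ i, ∀ z ∈ ℍₒ, HasDerivAt (fun w => Yc w i) (coefFun N z (Yc z) i) z :=
    fun i z hz => hasDerivAt_pi.mp (hYc z hz) i
  let Yh : Fin n → HolFun := fun i =>
    ⟨fun τ => Yc τ i, mdiff_of_eqOn (g := fun w => Yc w i)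
      (fun z hz => (hcomp i z hz).differentiableAt.differentiableWithinAt) fun _ => rfl⟩
  have hYh : ∀ i (τ : ℍ), (Yh i : ℍ → ℂ) τ = Yc τ i := fun _ _ => rfl
  have hext : ∀ i, ∀ z ∈ ℍₒ, extC (Yh i) z = Yc z i := by
    intro i z hz
    rw [extC_apply_of_im_pos (Yh i) hz]
  refine ⟨Yh, ⟨fun i => ?_, fun i => ?_⟩, ?_⟩
  · apply dH_eq_of_hasDerivAt
    intro τ
    have hev : extC (Yh i) =ᶠ[𝓝 (τ : ℂ)] fun w => Yc w i :=
      Filter.eventuallyEq_of_mem (isOpen_upperHalfPlaneSet.mem_nhds τ.im_pos) (hext i)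
    have hd := (hcomp i τ τ.im_pos).congr_of_eventuallyEq hev
    have hval : coefFun N τ (Yc τ) i = ((∑ j, N i j * Yh j : HolFun) : ℍ → ℂ) τ := by
      rw [coefFun_apply, ← evH_apply, map_sum]
      refine Finset.sum_congr rfl fun j _ => ?_
      rw [map_mul, evH_apply, evH_apply, extC_apply_coe, hYh]
    rwa [hval] at hd
  · rw [evH_apply, hYh, hY0]
  · rintro Y' ⟨hY'1, hY'2⟩
    have h1 : ∀ z ∈ ℍₒ, HasDerivAt (vecFun Y') (coefFun N z (vecFun Y' z)) z :=
      fun z hz => hasDerivAt_vecFun N Y' hY'1 hz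
    have h2 : ∀ z ∈ ℍₒ, HasDerivAt Yc (coefFun N z (Yc z)) z := hYc
    have h0 : vecFun Y' (τ0 : ℂ) = Yc τ0 := by
      funext i
      rw [hY0, vecFun, extC_apply_coe, ← evH_apply, hY'2 i]
    have heq := hUniq (coefFun N) ℍₒ isOpen_upperHalfPlaneSet (convex_halfSpace_im_gt 0)
      (differentiableOn_coefFun N).continuousOn (vecFun Y') Yc h1 h2 τ0 τ0.im_pos h0
    funext i
    ext τ
    have := congrFun (heq τ.im_pos) i
    rw [vecFun, extC_apply_coe] at this
    rw [this, hYh]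

end Hol


end Fermat.Agent.S27x.G2b
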