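import Mathlib
import Fermat.Agent.S27x.G2b.ODEDisc
import Fermat.Agent.S27x.G2b.ODEHalfPlane

/-!
helper29 (P-S27, block G2b, file F2 of notes 908/935, final form): existence and uniqueness of
solutions of linear differential systems with coefficients in `HolFun`, unconditionally
(`ODEHalfPlane.linODE_existsUnique_of` + `ODEDisc.exists_fundamental_solution` +
`ODEDisc.eqOn_of_linearODE`).
-/

set_option autoImplicit false

open UpperHalfPlane

namespace Fermat.Agent.S27x.G2b

open Fermat.Agent.S24

theorem discEx (n : ℕ) : DiscEx n := fun N c r hN => exists_fundamental_solution N c r hN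

theorem convUniq (n : ℕ) : ConvUniq n := fun N _ _ hconv hN Y₁ Y₂ h₁ h₂ _ hc h =>
  eqOn_of_linearODE N hconv hN Y₁ Y₂ h₁ h₂ hc h

/-- **Existence and uniqueness for linear differential systems with holomorphic coefficients on
the upper half plane**: for a matrix `N` of holomorphic functions, a point `τ0` and initial values
`y0` there is exactly one tuple `Y` of holomorphic functions with `Y' = N Y` and `Y(τ0) = y0`. -/
theorem linODE_existsUnique (τ0 : ℍ) (n : ℕ) (N : Matrix (Fin n) (Fin n) HolFun)
    (y0 : Fin n → ℂ) :
    ∃! Y : Fin n → HolFun, (∀ i, dH (Y i) = ∑ j, N i j * Y j) ∧ ∀ i, evH τ0 (Y i) = y0 i :=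
  linODE_existsUnique_of (discEx n) (convUniq n) τ0 N y0

end Fermat.Agent.S27x.G2b
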