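import Mathlib
import Fermat.Agent.S24.HolFun
import Fermat.Agent.S27x.G2b.Defs
import Fermat.Agent.S27x.G2b.EtaleAlgFree
import Fermat.Agent.S27x.Spec.PlaceExt

/-!
helper29 (P-S27, block G2b, glue for F6): the ring hom `θ : baseRing K β →+* HolFun`, `β ↦ t`,
over `ι : K →+* ℂ`, for a unit `t` of `HolFun` with `t - 16` a unit.

* `thetaHom ι hβ t ht ht16 : baseRing K β →+* HolFun` with `thetaHom_β`, `thetaHom_algebraMap`,
  `thetaHom_evalB`;
* `thetaHom_chain`: the chain rule `d (θ a) = d t * θ (D a)` for a derivation `d` of `HolFun` over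
  `ℂ` and a `K`-derivation `D` of `F` with `D β = 1` (which preserves `baseRing K β`);
* `thetaHom_injective`: `θ` is injective when `t` is transcendental over `ℂ`;
* `exists_intRing_point`: a ring hom `baseRing K β →+* ℂ` extends to `intRing K β →+* ℂ`
  (Chevalley's extension theorem, `Spec/PlaceExt`).
-/

set_option autoImplicit false

open Polynomial

namespace Fermat.Agent.S27x.G2b

open Fermat.Agent.S24 EtaleAlg

variable {K F : Type*} [Field K] [Field F] [Algebra K F]

section Theta

variable (ι : K →+* ℂ) {β : F} (hβ : Transcendental K β) (t : HolFun)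

/-- The ring hom `K[X] → HolFun`, `X ↦ t`, `c ↦ ι c`. -/
noncomputable def polyHom : K[X] →+* HolFun := eval₂RingHom ((algebraMap ℂ HolFun).comp ι) t

theorem polyHom_X : polyHom ι t X = t := eval₂_X _ _

theorem polyHom_C (c : K) : polyHom ι t (C c) = algebraMap ℂ HolFun (ι c) := eval₂_C _ _

variable (ht : IsUnit t) (ht16 : IsUnit (t - 16))

include ht ht16 in
theorem isUnit_polyHom_sPoly : IsUnit (polyHom ι t (sPoly K)) := by
  have h16 : algebraMap ℂ HolFun (ι 16) = 16 := by rw [map_ofNat, map_ofNat]
  rw [sPoly, map_mul, map_sub, polyHom_X, polyHom_C, h16]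
  exact ht.mul ht16

/-- **The ring hom `θ : K[β, β⁻¹, (β - 16)⁻¹] → HolFun`, `β ↦ t`, over `ι`.** -/
noncomputable def thetaHom : baseRing K β →+* HolFun :=
  @IsLocalization.Away.lift K[X] _ (baseRing K β) _ (algebraPolyBase β) HolFun _ (sPoly K)
    (isLocalization_baseRing hβ) (polyHom ι t) (isUnit_polyHom_sPoly ι t ht ht16)

theorem thetaHom_evalB (p : K[X]) :
    thetaHom ι hβ t ht ht16 (evalB (K := K) β p) = polyHom ι t p :=
  @IsLocalization.Away.lift_eq K[X] _ (baseRing K β) _ (algebraPolyBase β) HolFun _ (sPoly K)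
    (isLocalization_baseRing hβ) (polyHom ι t) (isUnit_polyHom_sPoly ι t ht ht16) p

theorem thetaHom_β : thetaHom ι hβ t ht ht16 (βb (K := K) β) = t := by
  have h : evalB (K := K) β X = βb (K := K) β := aeval_X _
  rw [← h, thetaHom_evalB, polyHom_X]

theorem thetaHom_algebraMap (c : K) :
    thetaHom ι hβ t ht ht16 (algebraMap K (baseRing K β) c) = algebraMap ℂ HolFun (ι c) := by
  have h : evalB (K := K) β (C c) = algebraMap K (baseRing K β) c := aeval_C _ _
  rw [← h, thetaHom_evalB, polyHom_C]

end Theta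

/-! ### The chain rule -/

section Chain

variable (ι : K →+* ℂ) {β : F} (hβ : Transcendental K β) (t : HolFun)
  (ht : IsUnit t) (ht16 : IsUnit (t - 16))
  (d : Derivation ℂ HolFun HolFun) (D : Derivation K F F)
  (hDmem : ∀ a ∈ baseRing K β, D a ∈ baseRing K β)

/-- The restriction of `D` to `baseRing K β`, as a map. -/
def derivBase (a : baseRing K β) : baseRing K β := ⟨D a, hDmem a a.2⟩

theorem derivBase_add (a b : baseRing K β) :
    derivBase D hDmem (a + b) = derivBase D hDmem a + derivBase D hDmem b :=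
  Subtype.ext (map_add D (a : F) (b : F))

theorem derivBase_mul (a b : baseRing K β) :
    derivBase D hDmem (a * b) = a * derivBase D hDmem b + b * derivBase D hDmem a :=
  Subtype.ext (D.leibniz (a : F) (b : F))

theorem derivBase_algebraMap (c : K) : derivBase D hDmem (algebraMap K (baseRing K β) c) = 0 :=
  Subtype.ext (D.map_algebraMap c)

theorem derivBase_one : derivBase D hDmem (1 : baseRing K β) = 0 :=
  Subtype.ext D.map_one_eq_zero

/-- The chain rule at `a`. -/
def ChainAt (a : baseRing K β) : Prop :=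
  d (thetaHom ι hβ t ht ht16 a) = d t * thetaHom ι hβ t ht ht16 (derivBase D hDmem a)

theorem chainAt_add {a b : baseRing K β} (ha : ChainAt ι hβ t ht ht16 d D hDmem a)
    (hb : ChainAt ι hβ t ht ht16 d D hDmem b) : ChainAt ι hβ t ht ht16 d D hDmem (a + b) := by
  unfold ChainAt at *
  rw [map_add, map_add, ha, hb, derivBase_add, map_add, mul_add]

theorem chainAt_mul {a b : baseRing K β} (ha : ChainAt ι hβ t ht ht16 d D hDmem a)
    (hb : ChainAt ι hβ t ht ht16 d D hDmem b) : ChainAt ι hβ t ht ht16 d D hDmem (a * b) := by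
  unfold ChainAt at *
  rw [map_mul, Derivation.leibniz, ha, hb, derivBase_mul, map_add, map_mul, map_mul, smul_eq_mul,
    smul_eq_mul]
  ring

theorem chainAt_algebraMap (c : K) :
    ChainAt ι hβ t ht ht16 d D hDmem (algebraMap K (baseRing K β) c) := by
  unfold ChainAt
  rw [thetaHom_algebraMap, Derivation.map_algebraMap, derivBase_algebraMap, map_zero, mul_zero]

theorem chainAt_β (hD : D β = 1) : ChainAt ι hβ t ht ht16 d D hDmem (βb (K := K) β) := by
  unfold ChainAt
  have h1 : derivBase D hDmem (βb (K := K) β) = 1 := Subtype.ext hD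
  rw [thetaHom_β, h1, map_one, mul_one]

/-- If the chain rule holds at `x` and `x y = 1` then it holds at `y`. -/
theorem chainAt_of_mul_eq_one {x y : baseRing K β} (hxy : x * y = 1)
    (hx : ChainAt ι hβ t ht ht16 d D hDmem x) : ChainAt ι hβ t ht ht16 d D hDmem y := by
  unfold ChainAt at *
  set θ := thetaHom ι hβ t ht ht16 with hθ
  have h1 : θ x * θ y = 1 := by rw [← map_mul, hxy, map_one]
  have hx0 : θ x ≠ 0 := left_ne_zero_of_mul_eq_one h1
  -- derivative of `θ x * θ y = 1`
  have h2 : θ x * d (θ y) + θ y * d (θ x) = 0 := by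
    have := congrArg d h1
    rwa [Derivation.leibniz, Derivation.map_one_eq_zero, smul_eq_mul, smul_eq_mul] at this
  -- derivative of `x * y = 1`
  have h3 : θ x * θ (derivBase D hDmem y) + θ y * θ (derivBase D hDmem x) = 0 := by
    have := congrArg (fun a => θ (derivBase D hDmem a)) hxy
    simp only [derivBase_mul, derivBase_one, map_add, map_mul, map_zero] at this
    exact this
  apply mul_left_cancel₀ hx0
  rw [hx] at h2
  linear_combination h2 - d t * h3

include hDmem in
/-- **The chain rule** `d (θ a) = d t · θ (D a)`. -/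
theorem thetaHom_chain (hD : D β = 1) (a : baseRing K β) :
    d (thetaHom ι hβ t ht ht16 a) = d t * thetaHom ι hβ t ht ht16 ⟨D a, hDmem a a.2⟩ := by
  obtain ⟨x, hx⟩ := a
  have hβ' := chainAt_β ι hβ t ht ht16 d D hDmem hD
  have h16 : ChainAt ι hβ t ht ht16 d D hDmem (16 : baseRing K β) := by
    have := chainAt_algebraMap ι hβ t ht ht16 d D hDmem (16 : K)
    rwa [map_ofNat] at this
  have hneg : ChainAt ι hβ t ht ht16 d D hDmem (-1 : baseRing K β) := by
    have := chainAt_algebraMap ι hβ t ht ht16 d D hDmem (-1 : K)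
    rwa [map_neg, map_one] at this
  have hsub : ChainAt ι hβ t ht ht16 d D hDmem (βb (K := K) β - 16) := by
    have := chainAt_add ι hβ t ht ht16 d D hDmem hβ'
      (chainAt_mul ι hβ t ht ht16 d D hDmem hneg h16)
    rwa [neg_one_mul, ← sub_eq_add_neg] at this
  have h0 := ne_zero_of_transcendental hβ
  have h160 := sub_sixteen_ne_zero hβ
  show ChainAt ι hβ t ht ht16 d D hDmem ⟨x, hx⟩
  induction hx using Algebra.adjoin_induction with
  | mem x hx =>
    have hx' := hx
    rcases hx' with h | h | h
    · have e : (⟨x, Algebra.subset_adjoin hx⟩ : baseRing K β) = βb (K := K) β := Subtype.ext h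
      rw [e]
      exact hβ'
    · refine chainAt_of_mul_eq_one ι hβ t ht ht16 d D hDmem
        (x := βb (K := K) β) ?_ hβ'
      apply Subtype.ext
      show β * x = 1
      rw [h]
      exact mul_inv_cancel₀ h0
    · refine chainAt_of_mul_eq_one ι hβ t ht ht16 d D hDmem
        (x := βb (K := K) β - 16) ?_ hsub
      apply Subtype.ext
      show (β - 16) * x = 1
      rw [h]
      exact mul_inv_cancel₀ h160
  | algebraMap r =>
    have e : (⟨algebraMap K F r, Subalgebra.algebraMap_mem _ r⟩ : baseRing K β)
        = algebraMap K (baseRing K β) r := Subtype.ext rfl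
    rw [e]
    exact chainAt_algebraMap ι hβ t ht ht16 d D hDmem r
  | add x y hx hy ihx ihy =>
    have e : (⟨x + y, Subalgebra.add_mem _ hx hy⟩ : baseRing K β) = ⟨x, hx⟩ + ⟨y, hy⟩ :=
      Subtype.ext rfl
    rw [e]
    exact chainAt_add ι hβ t ht ht16 d D hDmem ihx ihy
  | mul x y hx hy ihx ihy =>
    have e : (⟨x * y, Subalgebra.mul_mem _ hx hy⟩ : baseRing K β) = ⟨x, hx⟩ * ⟨y, hy⟩ :=
      Subtype.ext rfl
    rw [e]
    exact chainAt_mul ι hβ t ht ht16 d D hDmem ihx ihy

end Chain


/-! ### Injectivity -/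

section Injective

variable (ι : K →+* ℂ) {β : F} (hβ : Transcendental K β) (t : HolFun)
  (ht : IsUnit t) (ht16 : IsUnit (t - 16))

theorem polyHom_eq_aeval (p : K[X]) : polyHom ι t p = aeval t (p.map ι) := by
  rw [polyHom, coe_eval₂RingHom, aeval_def, eval₂_map]

theorem polyHom_injective (htr : Transcendental ℂ t) : Function.Injective (polyHom ι t) := by
  rw [injective_iff_map_eq_zero]
  intro p hp
  rw [polyHom_eq_aeval] at hp
  have h0 : p.map ι = 0 := by
    by_contra hne
    exact htr ⟨p.map ι, hne, hp⟩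
  exact (Polynomial.map_eq_zero_iff ι.injective).mp h0

/-- `θ` is injective when `t` is transcendental over `ℂ`. -/
theorem thetaHom_injective (htr : Transcendental ℂ t) :
    Function.Injective (thetaHom ι hβ t ht ht16) := by
  rw [injective_iff_map_eq_zero]
  intro a ha
  obtain ⟨p, n, hp⟩ := exists_eq_div hβ a.2
  have h1 : a * (evalB (K := K) β (sPoly K)) ^ n = evalB (K := K) β p := by
    apply Subtype.ext
    rw [Subalgebra.coe_mul, Subalgebra.coe_pow, coe_evalB, coe_evalB, aeval_sPoly, hp]
  have h2 := congrArg (thetaHom ι hβ t ht ht16) h1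
  rw [map_mul, ha, zero_mul, thetaHom_evalB] at h2
  have hp0 : p = 0 := polyHom_injective ι t htr (by rw [← h2, map_zero])
  rw [hp0, map_zero] at hp
  have hs : (β * (β - 16)) ^ n ≠ 0 :=
    pow_ne_zero _ (mul_ne_zero (ne_zero_of_transcendental hβ) (sub_sixteen_ne_zero hβ))
  exact Subtype.ext ((mul_eq_zero.mp hp).resolve_right hs)

end Injective

/-! ### Points of the integral closure -/

section Points

/-- **A `ℂ`-valued point of `baseRing K β` lifts to `intRing K β`** (Chevalley's extension
theorem; valuation rings are integrally closed). -/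
theorem exists_intRing_point (β : F) (χ : baseRing K β →+* ℂ) :
    ∃ ψ : intRing K β →+* ℂ,
      ∀ a : baseRing K β, ψ (algebraMap (baseRing K β) (intRing K β) a) = χ a := by
  set R : Subring F := (baseRing K β).toSubring with hR
  let e : R →+* baseRing K β := RingHom.codRestrict R.subtype (baseRing K β) (fun r => r.2)
  obtain ⟨O, hRO, f, hf, -⟩ := Spec.exists_valuationSubring_ringHom_extends R (χ.comp e)
  have hmem : ∀ x : intRing K β, (x : F) ∈ O := by
    rintro ⟨x, hx⟩
    have hx' : IsIntegral (baseRing K β) x := hx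
    obtain ⟨p, hp, hroot⟩ := hx'
    let incl : baseRing K β →+* O :=
      RingHom.codRestrict (baseRing K β).val.toRingHom O (fun a => hRO a.2)
    have hint : IsIntegral O x := by
      refine ⟨p.map incl, hp.map _, ?_⟩
      rw [eval₂_map]
      exact hroot
    obtain ⟨y, hy⟩ := IsIntegrallyClosed.isIntegral_iff.mp hint
    show x ∈ O
    rw [← hy]
    exact y.2
  refine ⟨f.comp (RingHom.codRestrict (intRing K β).val.toRingHom O hmem), fun a => ?_⟩
  have := hf ⟨(a : F), a.2⟩
  exact this

end Points


end Fermat.Agent.S27x.G2b
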