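import Mathlib
import Fermat.Agent.S27x.G2b.EtaleAlgDeriv
import Fermat.Agent.S27x.G2b.HomOfODE
import Fermat.Agent.S27x.G2b.ThetaHom
import Fermat.Agent.S27x.G2b.ODEHalfPlaneFinal
import Fermat.Agent.S24.Ord
import Fermat.Agent.S24.SymmFn

/-!
helper29 (P-S27, block G2b, glue for F6): the ring hom `φ : intRing K β →+* HolFun` above
`θ = thetaHom : baseRing K β →+* HolFun`, obtained by instantiating `HomOfODE` (F5) at
`(R, dR, ev) = (HolFun, dH, evH τ0)` with `linODE_existsUnique` (F1 + F2), the derivation `d/dβ`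
of `EtaleAlgDeriv` (F4) and a `ℂ`-point of `intRing K β` from `ThetaHom.exists_intRing_point`.

* `derivRestrict`: restriction of a derivation to a stable subring;
* `exists_phiHom`: the injective ring hom `φ : intRing K β →+* HolFun` above `θ`;
* `exists_emb_of_haupt`: the resulting embedding `F →+* MerFun`.
-/

set_option autoImplicit false

open Polynomial IntermediateField UpperHalfPlane

namespace Fermat.Agent.S27x.G2b

open Fermat.Agent.S24 EtaleAlg

/-! ### Restriction of derivations to stable subrings -/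

section Restrict

variable {F σ : Type*} [CommRing F] [SetLike σ F] [SubringClass σ F]

/-- The restriction of a derivation of `F` to a stable subring. -/
noncomputable def derivRestrict (S : σ) (D : Derivation ℤ F F) (h : ∀ x ∈ S, D x ∈ S) :
    Derivation ℤ S S :=
  Derivation.mk'
    (AddMonoidHom.toIntLinearMap
      { toFun := fun x => ⟨D x, h x x.2⟩
        map_zero' := Subtype.ext (map_zero D)
        map_add' := fun x y => Subtype.ext (map_add D (x : F) (y : F)) })
    (fun a b => Subtype.ext (D.leibniz (a : F) (b : F)))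

@[simp] theorem coe_derivRestrict (S : σ) (D : Derivation ℤ F F) (h : ∀ x ∈ S, D x ∈ S) (x : S) :
    ((derivRestrict S D h x : S) : F) = D x := rfl

end Restrict

variable {K F : Type*} [Field K] [Field F] [Algebra K F]

section Phi

variable [IsAlgClosed K] [CharZero K] (ι : K →+* ℂ) {β : F} (hβ : Transcendental K β)
  [FiniteDimensional K⟮β⟯ F] (t : HolFun) (ht : IsUnit t) (ht16 : IsUnit (t - 16))

/-- **The analytic continuation step.** For a Belyi-unramified `β` and a unit `t` of `HolFun` with
`t - 16` a unit, transcendental over `ℂ`, there is an injective ring hom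
`φ : intRing K β →+* HolFun` above `θ : baseRing K β →+* HolFun`, `β ↦ t`. -/
theorem exists_phiHom (hunr : IsBelyiUnram K β) (htr : Transcendental ℂ t) (τ0 : ℍ) :
    ∃ φ : intRing K β →+* HolFun, Function.Injective φ ∧
      ∀ a : baseRing K β,
        φ (algebraMap (baseRing K β) (intRing K β) a) = thetaHom ι hβ t ht ht16 a := by
  obtain ⟨D, hD1, hDA, hDB⟩ := exists_derivation hβ hunr
  set Dz : Derivation ℤ F F := D.restrictScalars ℤ with hDz
  have hDzA : ∀ x ∈ baseRing K β, Dz x ∈ baseRing K β := hDA
  have hDzB : ∀ x ∈ intRing K β, Dz x ∈ intRing K β := hDB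
  let DA : Derivation ℤ (baseRing K β) (baseRing K β) := derivRestrict (baseRing K β) Dz hDzA
  let DB : Derivation ℤ (intRing K β) (intRing K β) := derivRestrict (intRing K β) Dz hDzB
  have hcompat : ∀ a : baseRing K β, DB (algebraMap (baseRing K β) (intRing K β) a)
      = algebraMap (baseRing K β) (intRing K β) (DA a) := fun a => Subtype.ext rfl
  have := intRing_free hβ
  have := intRing_finite hβ
  let b := Module.finBasis (baseRing K β) (intRing K β)
  set θ := thetaHom ι hβ t ht ht16 with hθdef
  let dR : Derivation ℤ HolFun HolFun := dH.restrictScalars ℤ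
  have hθ : ∀ a : baseRing K β, dR (θ a) = dH t * θ (DA a) := fun a =>
    thetaHom_chain ι hβ t ht ht16 dH D hDA hD1 a
  let ev : HolFun →+* ℂ := (evH τ0 : HolFun →+* ℂ)
  obtain ⟨ψ, hψ⟩ := exists_intRing_point β (ev.comp θ)
  have hEU : ∀ (n : ℕ) (N : Matrix (Fin n) (Fin n) HolFun) (y0 : Fin n → ℂ),
      ∃! Y : Fin n → HolFun, (∀ i, dR (Y i) = ∑ j, N i j * Y j) ∧ ∀ i, ev (Y i) = y0 i :=
    fun n N y0 => linODE_existsUnique τ0 n N y0
  obtain ⟨φ, ⟨h1, -, -⟩, -⟩ := existsUnique_ringHom_of_ode' b DA DB hcompat dR θ (dH t) hθ ev ψ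
    hψ hEU
  exact ⟨φ, injective_of_integral θ (thetaHom_injective ι hβ t ht ht16 htr) φ h1, h1⟩

end Phi

/-! ### The embedding into `MerFun` -/

section Emb

variable [IsAlgClosed K] [CharZero K] (ι : K →+* ℂ) {β : F} (hβ : Transcendental K β)
  [FiniteDimensional K⟮β⟯ F] (t : HolFun) (ht : IsUnit t) (ht16 : IsUnit (t - 16))

include hβ ht ht16 in
/-- **The embedding of a Belyi function field into `MerFun`**: `β ↦ t`, constants through `ι`,
elements integral over `K[β, β⁻¹, (β - 16)⁻¹]` go to holomorphic functions. -/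
theorem exists_emb_of_haupt (hunr : IsBelyiUnram K β) (htr : Transcendental ℂ t) (τ0 : ℍ) :
    ∃ emb : F →+* MerFun,
      (∀ c : K, emb (algebraMap K F c) = algebraMap HolFun MerFun (algebraMap ℂ HolFun (ι c))) ∧
      emb β = algebraMap HolFun MerFun t ∧
      ∀ x ∈ intRing K β, ∃ f : HolFun, emb x = algebraMap HolFun MerFun f := by
  obtain ⟨φ, hφinj, hφθ⟩ := exists_phiHom ι hβ t ht ht16 hunr htr τ0
  have hfr : IsFractionRing (intRing K β) F := intRing_isFractionRing
  have hg : Function.Injective ((algebraMap HolFun MerFun).comp φ) :=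
    (IsFractionRing.injective HolFun MerFun).comp hφinj
  refine ⟨IsFractionRing.lift (A := intRing K β) (K := F) hg, fun c => ?_, ?_, fun x hx => ?_⟩
  · have h2 := IsFractionRing.lift_algebraMap (A := intRing K β) (K := F) hg
      (algebraMap (baseRing K β) (intRing K β) (algebraMap K (baseRing K β) c))
    rw [RingHom.comp_apply, hφθ, thetaHom_algebraMap] at h2
    exact h2
  · have h2 := IsFractionRing.lift_algebraMap (A := intRing K β) (K := F) hg
      (algebraMap (baseRing K β) (intRing K β) (βb (K := K) β))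
    rw [RingHom.comp_apply, hφθ, thetaHom_β] at h2
    exact h2
  · exact ⟨φ ⟨x, hx⟩, IsFractionRing.lift_algebraMap (A := intRing K β) (K := F) hg ⟨x, hx⟩⟩

omit [IsAlgClosed K] [CharZero K] [FiniteDimensional K⟮β⟯ F] in
include ht ht16 in
/-- An embedding with `β ↦ t` sends `belyiJ β` to `j` when `j = R(t)`. -/
theorem emb_belyiJ_of_haupt (emb : F →+* MerFun) (hβt : emb β = algebraMap HolFun MerFun t)
    (hj : jHol * (t * (t - 16) ^ 4) = (t ^ 2 + 224 * t + 256) ^ 3) :
    emb (belyiJ β) = algebraMap HolFun MerFun jHol := by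
  have hden : algebraMap HolFun MerFun (t * (t - 16) ^ 4) ≠ 0 := by
    intro h0
    have h1 : t * (t - 16) ^ 4 = 0 :=
      IsFractionRing.injective HolFun MerFun (by rw [h0, map_zero])
    exact (ht.mul (ht16.pow 4)).ne_zero h1
  have hrel := congrArg (algebraMap HolFun MerFun) hj
  rw [map_mul] at hrel
  rw [belyiJ, map_div₀, div_eq_iff]
  · simp only [map_mul, map_pow, map_sub, map_add, map_ofNat, hβt]
    simp only [map_mul, map_pow, map_sub, map_add, map_ofNat] at hrel
    exact hrel.symm
  · simp only [map_mul, map_pow, map_sub, map_ofNat, hβt]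
    simpa only [map_mul, map_pow, map_sub, map_ofNat] using hden

end Emb


end Fermat.Agent.S27x.G2b
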