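/-
P-S27, block G2(b), file F7 (helper96): cusp-meromorphy from algebraicity.

* `modGrowth_of_norm_le_sum` : a function dominated by `1 + ∑ ‖g i‖` with all `g i` of moderate
  growth has moderate growth.
* `mem_cuspFnAlg_of_isIntegral` : a holomorphic `n`-periodic function which is integral over the
  algebra `cuspFnAlg n` of `n`-periodic holomorphic functions of moderate growth lies in it
  (Cauchy's root bound).
* `isCuspMer_of_isAlgebraic` : an element of `MerFun` fixed by `T ^ n` and algebraic over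
  `cuspMerField n` belongs to `cuspMerField n`.
* `isCuspMer_of_ringHom` : the consumer form for a ring homomorphism `σ : F →+* MerFun` of a
  field `F` algebraic over `K⟮x⟯`.
-/
import Mathlib
import Fermat.Agent.S24.CuspOrdMer
import Fermat.Agent.Gateway.Dict.HolOfOrd

set_option autoImplicit false

open UpperHalfPlane Complex Filter Function Polynomial
open scoped Manifold MatrixGroups

namespace Fermat.Agent.S27x.G2b

open Fermat.Agent.S24 Fermat.Agent.S24.CuspOrd

local notation "Δ" => ModularForm.discriminant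

/-! ### Cauchy's root bound -/

/-- A root `z` of a monic complex polynomial satisfies `‖z‖ ≤ 1 + ∑_{i < deg} ‖coeff i‖`. -/
theorem cauchy_root_bound {p : ℂ[X]} (hp : p.Monic) {z : ℂ} (hz : p.eval z = 0) :
    ‖z‖ ≤ 1 + ∑ i ∈ Finset.range p.natDegree, ‖p.coeff i‖ := by
  have hS : 0 ≤ ∑ i ∈ Finset.range p.natDegree, ‖p.coeff i‖ :=
    Finset.sum_nonneg fun i _ => norm_nonneg _
  rcases le_or_gt ‖z‖ 1 with h1 | h1
  · linarith
  have hd : p.natDegree ≠ 0 := by
    intro h0
    rw [hp.natDegree_eq_zero.mp h0, eval_one] at hz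
    exact one_ne_zero hz
  obtain ⟨m, hm⟩ := Nat.exists_eq_succ_of_ne_zero hd
  have hexp : z ^ p.natDegree + ∑ i ∈ Finset.range p.natDegree, p.coeff i * z ^ i = 0 := by
    rw [← hz]
    conv_rhs => rw [hp.as_sum]
    simp [eval_finsetSum]
  have hle : ‖z‖ * ‖z‖ ^ m ≤ (∑ i ∈ Finset.range p.natDegree, ‖p.coeff i‖) * ‖z‖ ^ m := by
    calc ‖z‖ * ‖z‖ ^ m = ‖z ^ p.natDegree‖ := by rw [norm_pow, hm, pow_succ']
      _ = ‖∑ i ∈ Finset.range p.natDegree, p.coeff i * z ^ i‖ := by
          rw [eq_neg_of_add_eq_zero_left hexp, norm_neg]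
      _ ≤ ∑ i ∈ Finset.range p.natDegree, ‖p.coeff i * z ^ i‖ := norm_sum_le _ _
      _ ≤ ∑ i ∈ Finset.range p.natDegree, ‖p.coeff i‖ * ‖z‖ ^ m := by
          refine Finset.sum_le_sum fun i hi => ?_
          rw [norm_mul, norm_pow]
          refine mul_le_mul_of_nonneg_left (pow_le_pow_right₀ h1.le ?_) (norm_nonneg _)
          have := Finset.mem_range.mp hi
          omega
      _ = (∑ i ∈ Finset.range p.natDegree, ‖p.coeff i‖) * ‖z‖ ^ m :=
          (Finset.sum_mul _ _ _).symm
  have := le_of_mul_le_mul_right hle (pow_pos (by linarith) m)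
  linarith

/-! ### Moderate growth from a pointwise bound -/

theorem modGrowth_of_norm_le_sum {ι : Type*} (s : Finset ι) (g : ι → ℍ → ℂ) (f : ℍ → ℂ)
    (hg : ∀ i ∈ s, ModGrowth (g i)) (hle : ∀ τ, ‖f τ‖ ≤ 1 + ∑ i ∈ s, ‖g i τ‖) :
    ModGrowth f := by
  classical
  choose! M hM using hg
  refine ⟨s.sup M, ?_⟩
  have hΔ : IsBoundedAtImInfty (fun z : ℍ => Δ z ^ (s.sup M)) :=
    isBoundedAtImInfty_pow discriminant_isBoundedAtImInfty _
  have hi : ∀ i ∈ s, IsBoundedAtImInfty (fun z : ℍ => Δ z ^ (s.sup M) * g i z) := fun i his =>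
    isBoundedAtImInfty_discriminant_pow_mul_mono (Finset.le_sup his) (hM i his)
  have hH : (fun z : ℍ => ‖Δ z ^ (s.sup M)‖ + ∑ i ∈ s, ‖Δ z ^ (s.sup M) * g i z‖)
      =O[atImInfty] (1 : ℍ → ℝ) := by
    refine Asymptotics.IsBigO.add hΔ.norm_left ?_
    have := Asymptotics.IsBigO.sum (s := s) (A := fun i => fun z : ℍ => ‖Δ z ^ (s.sup M) * g i z‖)
      (g := (1 : ℍ → ℝ)) (l := atImInfty) fun i his => (hi i his).norm_left
    exact this.congr_left fun z => by simp [Finset.sum_apply]
  refine Asymptotics.IsBigO.trans (Asymptotics.isBigO_of_le _ fun z => ?_) hH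
  rw [norm_mul, Real.norm_of_nonneg (by positivity)]
  calc ‖Δ z ^ (s.sup M)‖ * ‖f z‖
      ≤ ‖Δ z ^ (s.sup M)‖ * (1 + ∑ i ∈ s, ‖g i z‖) :=
        mul_le_mul_of_nonneg_left (hle z) (norm_nonneg _)
    _ = ‖Δ z ^ (s.sup M)‖ + ∑ i ∈ s, ‖Δ z ^ (s.sup M) * g i z‖ := by
        rw [mul_add, mul_one, Finset.mul_sum]
        simp only [norm_mul]

/-! ### Integral elements over `cuspFnAlg n` -/

/-- Evaluation at a point, as a ring homomorphism on `HolFun`. -/
def cuspEvalAt (τ : ℍ) : HolFun →+* ℂ :=
  (Pi.evalRingHom (fun _ : ℍ => ℂ) τ).comp (HolFun.val : HolFun →ₐ[ℂ] (ℍ → ℂ)).toRingHom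

@[simp] theorem cuspEvalAt_apply (τ : ℍ) (f : HolFun) : cuspEvalAt τ f = (f : ℍ → ℂ) τ := rfl

/-- A holomorphic function which is a root of a monic polynomial with coefficients of moderate
growth has moderate growth. -/
theorem modGrowth_of_monic_root {p : HolFun[X]} (hp : p.Monic)
    (hc : ∀ i, ModGrowth ((p.coeff i : HolFun) : ℍ → ℂ)) {u : HolFun}
    (hu : p.eval u = 0) : ModGrowth (u : ℍ → ℂ) := by
  refine modGrowth_of_norm_le_sum (Finset.range p.natDegree)
    (fun i => ((p.coeff i : HolFun) : ℍ → ℂ)) _ (fun i _ => hc i) fun τ => ?_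
  have hm : (p.map (cuspEvalAt τ)).Monic := hp.map _
  have hroot : (p.map (cuspEvalAt τ)).eval ((u : ℍ → ℂ) τ) = 0 := by
    have := congrArg (cuspEvalAt τ) hu
    rwa [← Polynomial.eval₂_at_apply, map_zero, Polynomial.eval₂_eq_eval_map, cuspEvalAt_apply] at this
  have h := cauchy_root_bound hm hroot
  rw [hp.natDegree_map] at h
  simpa [Polynomial.coeff_map] using h

/-- The commutative ring structure on `cuspFnAlg n`, registered locally to help instance search
for polynomial rings over it. -/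
noncomputable local instance instCommRingCuspFnAlg (n : ℕ) : CommRing ↥(cuspFnAlg n) :=
  Subalgebra.toCommRing _

theorem mem_cuspFnAlg_of_isIntegral {n : ℕ} {u : HolFun} (hper : ModularGroup.T ^ n • u = u)
    (hint : IsIntegral (cuspFnAlg n) u) : u ∈ cuspFnAlg n := by
  obtain ⟨q, hq, hqu⟩ := hint
  refine ⟨HolFun.mdiff u, (T_pow_smul_eq_iff n u).1 hper, ?_⟩
  have hm : (q.map (algebraMap (cuspFnAlg n) HolFun)).Monic := hq.map _
  refine modGrowth_of_monic_root hm (fun i => ?_) (u := u) ?_
  · rw [Polynomial.coeff_map]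
    exact (q.coeff i).2.growth
  · rwa [Polynomial.eval_map]

/-! ### The main statement -/

/-- `cuspMerField n` is algebraic over `cuspFnAlg n`: every element is a quotient. -/
theorem isAlgebraic_cuspFnAlg_of_isCuspMer {n : ℕ} {x : MerFun} (hx : IsCuspMer n x) :
    IsAlgebraic (cuspFnAlg n) x := by
  obtain ⟨a, b, ha, hb, hb0, rfl⟩ := hx
  let p : (cuspFnAlg n)[X] := C (⟨b, hb⟩ : cuspFnAlg n) * X - C (⟨a, ha⟩ : cuspFnAlg n)
  refine ⟨p, ?_, ?_⟩
  · intro h0
    have h1 : p.coeff 1 = (⟨b, hb⟩ : cuspFnAlg n) := by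
      simp [p, coeff_C]
    rw [h0, coeff_zero] at h1
    exact hb0 (congrArg Subtype.val h1).symm
  · have hb' := algebraMap_ne_zero hb0
    simp only [p, map_sub, map_mul, aeval_C, aeval_X]
    change algebraMap HolFun MerFun b * _ - algebraMap HolFun MerFun a = 0
    field_simp
    ring

/-- The inclusion of `cuspFnAlg n` into `cuspMerField n`. -/
noncomputable def cuspFnToMer (n : ℕ) : cuspFnAlg n →+* cuspMerField n :=
  ((algebraMap HolFun MerFun).comp (cuspFnAlg n).val.toRingHom).codRestrict (cuspMerField n)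
    fun a => isCuspMer_algebraMap a.2

/-- An element of `MerFun` which is fixed by `T ^ n` and algebraic over the field of quotients of
`n`-periodic holomorphic functions of moderate growth is itself such a quotient. -/
theorem isCuspMer_of_isAlgebraic {n : ℕ} {h : MerFun}
    (hper : ModularGroup.T ^ n • h = h) (halg : IsAlgebraic (cuspMerField n) h) :
    IsCuspMer n h := by
  let _ : Algebra (cuspFnAlg n) (cuspMerField n) := (cuspFnToMer n).toAlgebra
  have : IsScalarTower (cuspFnAlg n) (cuspMerField n) MerFun :=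
    IsScalarTower.of_algebraMap_eq fun _ => rfl
  have : Algebra.IsAlgebraic (cuspFnAlg n) (cuspMerField n) := ⟨fun x => by
    have h1 : IsAlgebraic (cuspFnAlg n) (algebraMap (cuspMerField n) MerFun x) :=
      isAlgebraic_cuspFnAlg_of_isCuspMer x.2
    exact (isAlgebraic_algebraMap_iff (algebraMap (cuspMerField n) MerFun).injective).1 h1⟩
  have halg' : IsAlgebraic (cuspFnAlg n) h := halg.restrictScalars (cuspFnAlg n)
  obtain ⟨y, hy0, hyint⟩ := halg'.exists_integral_multiple
  have hyh : y • h = algebraMap HolFun MerFun (y : HolFun) * h := by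
    rw [Algebra.smul_def]; rfl
  have hint' : IsIntegral HolFun (y • h) := hyint.tower_top
  obtain ⟨u, hu⟩ := Fermat.Agent.Gateway.Dict.HolOfOrd.exists_holFun_of_isIntegral _ hint'
  have hu_int : IsIntegral (cuspFnAlg n) u := by
    rw [← hu] at hyint
    exact (isIntegral_algebraMap_iff algebraMap_injective).1 hyint
  have hu_per : ModularGroup.T ^ n • u = u := by
    apply algebraMap_injective
    rw [← MerFun.sl_smul_algebraMap, hu, hyh, smul_mul', hper, MerFun.sl_smul_algebraMap,
      T_pow_smul_of_mem_cuspFnAlg y.2]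
  have hmem := mem_cuspFnAlg_of_isIntegral hu_per hu_int
  have hy0' : (y : HolFun) ≠ 0 := fun h0 => hy0 (Subtype.ext h0)
  refine ⟨u, y, hmem, y.2, hy0', ?_⟩
  rw [hu, hyh, mul_div_cancel_left₀ _ (algebraMap_ne_zero hy0')]

/-- Consumer form: for a ring homomorphism `σ : F →+* MerFun` from a field `F` algebraic over
`K⟮x⟯`, sending the constants and `x` into `cuspMerField n`, every `σ f` fixed by `T ^ n` lies in
`cuspMerField n`. -/
theorem isCuspMer_of_ringHom {K F : Type*} [Field K] [Field F] [Algebra K F] {n : ℕ}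
    (σ : F →+* MerFun) (x : F) (hK : ∀ c : K, IsCuspMer n (σ (algebraMap K F c)))
    (hx : IsCuspMer n (σ x)) [Algebra.IsAlgebraic (IntermediateField.adjoin K {x}) F] (f : F)
    (hper : ModularGroup.T ^ n • σ f = σ f) : IsCuspMer n (σ f) := by
  let L : IntermediateField K F :=
    Subfield.toIntermediateField ((cuspMerField n).comap σ) fun c => hK c
  have hle : IntermediateField.adjoin K {x} ≤ L :=
    IntermediateField.adjoin_simple_le_iff.2 hx
  let τ : IntermediateField.adjoin K {x} →+* cuspMerField n :=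
    (σ.comp (algebraMap (IntermediateField.adjoin K {x}) F)).codRestrict (cuspMerField n)
      fun e => hle e.2
  obtain ⟨p, hp0, hp⟩ := Algebra.IsAlgebraic.isAlgebraic (R := IntermediateField.adjoin K {x}) f
  refine isCuspMer_of_isAlgebraic hper ⟨p.map τ, ?_, ?_⟩
  · exact (Polynomial.map_ne_zero_iff τ.injective).2 hp0
  · rw [Polynomial.aeval_def, Polynomial.eval₂_map]
    have h1 : (algebraMap (cuspMerField n) MerFun).comp τ =
        σ.comp (algebraMap (IntermediateField.adjoin K {x}) F) := rfl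
    rw [h1, ← Polynomial.hom_eval₂, ← Polynomial.aeval_def, hp, map_zero]

end Fermat.Agent.S27x.G2b
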