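/-
P-S27, block G2(b), step (STAB) of file F6 (helper96): the stabiliser of an embedding of a
function field into `MerFun`.

* `embStab emb : Subgroup SL(2, ℤ)` : the stabiliser `{g | ∀ f, g • emb f = emb f}`.
* `neg_one_mem_embStab` : `-1` lies in it.
* `index_embStab_le` / `finiteIndex_embStab` : if `F` is finite over `K⟮x⟯` and `SL(2, ℤ)` fixes the
  images of the constants and of `x`, the stabiliser has index at most `[F : K⟮x⟯]`.
* `exists_pow_conj_mem` : for a subgroup of finite index, a fixed power of any element lies in all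
  of its conjugates.
* `exists_isCuspMer_smul_emb` : (STAB) + (CUSP) combined: if constants go to constants and
  `emb x = j`, then for some `n > 0` all translates `g • emb f` lie in `cuspMerField n`.
-/
import Mathlib
import Fermat.Agent.S24.CuspOrdMer
import Fermat.Agent.S27x.G2b.CuspAlg

set_option autoImplicit false

open UpperHalfPlane
open scoped MatrixGroups

namespace Fermat.Agent.S27x.G2b

open Fermat.Agent.S24 Fermat.Agent.S24.CuspOrd

variable {K F : Type*} [Field K] [Field F] [Algebra K F]

/-- The stabiliser in `SL(2, ℤ)` of a ring homomorphism into `MerFun`. -/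
def embStab (emb : F →+* MerFun) : Subgroup SL(2, ℤ) where
  carrier := {g | ∀ f, g • emb f = emb f}
  one_mem' := fun f => one_smul _ _
  mul_mem' := fun {a b} ha hb f => by rw [mul_smul, hb f, ha f]
  inv_mem' := fun {a} ha f => by rw [inv_smul_eq_iff, ha f]

theorem mem_embStab {emb : F →+* MerFun} {g : SL(2, ℤ)} :
    g ∈ embStab emb ↔ ∀ f, g • emb f = emb f := Iff.rfl

/-! ### `-1` acts trivially -/

theorem stab_neg_one_smul_holFun (a : HolFun) : (-1 : SL(2, ℤ)) • a = a := by
  ext τ
  have h1 : (-1 : SL(2, ℤ))⁻¹ • τ = τ := by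
    rw [inv_smul_eq_iff, ModularGroup.SL_neg_smul, one_smul]
  rw [HolFun.sl_smul_apply, h1]

theorem stab_neg_one_smul_merFun (h : MerFun) : (-1 : SL(2, ℤ)) • h = h := by
  obtain ⟨a, b, -, rfl⟩ := IsFractionRing.div_surjective HolFun h
  rw [smul_div₀', MerFun.sl_smul_algebraMap, MerFun.sl_smul_algebraMap, stab_neg_one_smul_holFun,
    stab_neg_one_smul_holFun]

theorem neg_one_mem_embStab (emb : F →+* MerFun) : (-1 : SL(2, ℤ)) ∈ embStab emb :=
  fun _ => stab_neg_one_smul_merFun _

/-! ### The index bound -/

section index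

variable (emb : F →+* MerFun) (x : F)

/-- The embedding twisted by `g`. -/
noncomputable def twEmb (g : SL(2, ℤ)) : F →+* MerFun :=
  (MulSemiringAction.toRingHom SL(2, ℤ) MerFun g).comp emb

@[simp] theorem twEmb_apply (g : SL(2, ℤ)) (f : F) : twEmb emb g f = g • emb f := rfl

theorem twEmb_eq_iff {a b : SL(2, ℤ)} : twEmb emb a = twEmb emb b ↔ a⁻¹ * b ∈ embStab emb := by
  constructor
  · intro h f
    have := DFunLike.congr_fun h f
    rw [twEmb_apply, twEmb_apply] at this
    rw [mul_smul, ← this, ← mul_smul, inv_mul_cancel, one_smul]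
  · intro h
    ext f
    rw [twEmb_apply, twEmb_apply]
    calc a • emb f = a • ((a⁻¹ * b) • emb f) := by rw [h f]
      _ = b • emb f := by rw [← mul_smul, mul_inv_cancel_left]

variable {emb x}

/-- If `g` fixes the images of the constants and of `x`, it fixes the image of `K⟮x⟯`. -/
theorem smul_emb_of_mem_adjoin {g : SL(2, ℤ)}
    (hK : ∀ c : K, g • emb (algebraMap K F c) = emb (algebraMap K F c))
    (hx : g • emb x = emb x) {e : F} (he : e ∈ IntermediateField.adjoin K {x}) :
    g • emb e = emb e := by
  let L : IntermediateField K F :=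
    Subfield.toIntermediateField (RingHom.eqLocusField (twEmb emb g) emb) fun c => hK c
  have hle : IntermediateField.adjoin K {x} ≤ L :=
    IntermediateField.adjoin_simple_le_iff.2 hx
  exact hle he

variable (emb x)

/-- The index of the stabiliser is at most the degree `[F : K⟮x⟯]`. -/
theorem finite_quotient_and_card_le [FiniteDimensional (IntermediateField.adjoin K {x}) F]
    (hK : ∀ (g : SL(2, ℤ)) (c : K), g • emb (algebraMap K F c) = emb (algebraMap K F c))
    (hx : ∀ g : SL(2, ℤ), g • emb x = emb x) :
    Finite (SL(2, ℤ) ⧸ embStab emb) ∧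
      Nat.card (SL(2, ℤ) ⧸ embStab emb) ≤
        Module.finrank (IntermediateField.adjoin K {x}) F := by
  let E := IntermediateField.adjoin K {x}
  let _ : Algebra E MerFun := (emb.comp (algebraMap E F)).toAlgebra
  let φ : SL(2, ℤ) → (F →ₐ[E] MerFun) := fun g =>
    { twEmb emb g with
      commutes' := fun e => smul_emb_of_mem_adjoin (hK g) (hx g) e.2 }
  have hφ : ∀ a b : SL(2, ℤ), φ a = φ b ↔ a⁻¹ * b ∈ embStab emb := by
    intro a b
    rw [← twEmb_eq_iff]
    constructor
    · intro h
      ext f
      exact DFunLike.congr_fun h f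
    · intro h
      ext f
      exact DFunLike.congr_fun h f
  let ψ : SL(2, ℤ) ⧸ embStab emb → (F →ₐ[E] MerFun) := fun q =>
    Quotient.liftOn' q φ fun a b hab => (hφ a b).2 (QuotientGroup.leftRel_apply.mp hab)
  have hψ : Function.Injective ψ := by
    intro q q' h
    induction q using QuotientGroup.induction_on with
    | H a =>
    induction q' using QuotientGroup.induction_on with
    | H b =>
      rw [QuotientGroup.eq]
      exact (hφ a b).1 h
  have : Finite (F →ₐ[E] MerFun) := Finite.algHom E F MerFun
  refine ⟨Finite.of_injective ψ hψ, ?_⟩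
  exact (Nat.card_le_card_of_injective ψ hψ).trans (card_algHom_le_finrank E F MerFun)

theorem finiteIndex_embStab [FiniteDimensional (IntermediateField.adjoin K {x}) F]
    (hK : ∀ (g : SL(2, ℤ)) (c : K), g • emb (algebraMap K F c) = emb (algebraMap K F c))
    (hx : ∀ g : SL(2, ℤ), g • emb x = emb x) : (embStab emb).FiniteIndex := by
  have := (finite_quotient_and_card_le emb x hK hx).1
  exact Subgroup.finiteIndex_of_finite_quotient

theorem index_embStab_le [FiniteDimensional (IntermediateField.adjoin K {x}) F]
    (hK : ∀ (g : SL(2, ℤ)) (c : K), g • emb (algebraMap K F c) = emb (algebraMap K F c))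
    (hx : ∀ g : SL(2, ℤ), g • emb x = emb x) :
    (embStab emb).index ≤ Module.finrank (IntermediateField.adjoin K {x}) F :=
  (finite_quotient_and_card_le emb x hK hx).2

end index

/-! ### Powers in all conjugates -/

/-- For a subgroup `H` of finite index and any `t`, a fixed positive power of `t` lies in all
conjugates of `H`. -/
theorem exists_pow_conj_mem {G : Type*} [Group G] (H : Subgroup G) [H.FiniteIndex] (t : G) :
    ∃ n : ℕ, 0 < n ∧ ∀ g : G, g * t ^ n * g⁻¹ ∈ H := by
  refine ⟨H.normalCore.index, Nat.pos_of_ne_zero Subgroup.FiniteIndex.index_ne_zero, fun g => ?_⟩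
  exact H.normalCore_le (Subgroup.Normal.conj_mem inferInstance _
    (H.normalCore.pow_index_mem t) g)

/-! ### (STAB) + (CUSP) -/

/-- If `F` is finite over `K⟮x⟯`, constants go to constants and `x` goes to `j`, then there is
`n > 0` such that all `SL(2, ℤ)`-translates of all `emb f` are quotients of `n`-periodic
holomorphic functions of moderate growth. -/
theorem exists_isCuspMer_smul_emb (emb : F →+* MerFun) (x : F)
    [FiniteDimensional (IntermediateField.adjoin K {x}) F]
    (hK : ∀ c : K, ∃ z : ℂ,
      emb (algebraMap K F c) = algebraMap HolFun MerFun (algebraMap ℂ HolFun z))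
    (hx : emb x = algebraMap HolFun MerFun jHol) :
    ∃ n : ℕ, 0 < n ∧ ∀ (g : SL(2, ℤ)) (f : F), IsCuspMer n (g • emb f) := by
  have hK' : ∀ (g : SL(2, ℤ)) (c : K), g • emb (algebraMap K F c) = emb (algebraMap K F c) := by
    intro g c
    obtain ⟨z, hz⟩ := hK c
    rw [hz, MerFun.sl_smul_algebraMap, HolFun.sl_smul_algebraMap]
  have hx' : ∀ g : SL(2, ℤ), g • emb x = emb x := by
    intro g
    rw [hx, MerFun.sl_smul_algebraMap, sl_smul_jHol]
  have := finiteIndex_embStab emb x hK' hx'
  obtain ⟨n, hn, hconj⟩ := exists_pow_conj_mem (embStab emb) ModularGroup.T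
  refine ⟨n, hn, fun g f => ?_⟩
  refine isCuspMer_of_ringHom (K := K) (twEmb emb g) x (fun c => ?_) ?_ f ?_
  · obtain ⟨z, hz⟩ := hK c
    rw [twEmb_apply, hK' g c, hz]
    exact isCuspMer_const n z
  · rw [twEmb_apply, hx' g, hx]
    exact isCuspMer_algebraMap (jHol_mem_cuspFnAlg n)
  · rw [twEmb_apply]
    have h1 := hconj g⁻¹ f
    rw [inv_inv] at h1
    calc ModularGroup.T ^ n • g • emb f
        = g • ((g⁻¹ * ModularGroup.T ^ n * g) • emb f) := by
          rw [← mul_smul, ← mul_smul]
          congr 1
          group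
      _ = g • emb f := by rw [h1]

end Fermat.Agent.S27x.G2b
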