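import Mathlib
import Fermat.Agent.S27x.Base.Contract
import Fermat.Agent.S27x.Base.BelyiOut
import Fermat.Agent.S27x.G2b.PhiHom
import Fermat.Agent.S27x.G2b.Haupt4Units
import Fermat.Agent.S27x.G2b.Stab
import Fermat.Agent.S27x.G2b.BelyiJDeg

/-!
helper29 (P-S27, block G2b, final assembly): `Base.G2bOut` holds.

For a Belyi-unramified transcendental `β : F` (`Base.belyiOut`) the embedding
`emb : F →+* MerFun`, `β ↦ t4`, of `PhiHom.exists_emb_of_haupt` sends `x := belyiJ β` to `j`; its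
stabiliser `Γ := embStab emb` has finite index (`Stab.finiteIndex_embStab`), is contained in
`Γ₀(4)` (it fixes `t4`), and all translates are cusp-meromorphic (`Stab.exists_isCuspMer_smul_emb`).

* `exists_embData_of_belyi`: the statement for a given `β`;
* `g2bOut : Base.G2bOut`.
-/

set_option autoImplicit false

open AlgebraicCurve IntermediateField UpperHalfPlane CongruenceSubgroup
open scoped MatrixGroups

namespace Fermat.Agent.S27x.G2b

open Fermat.Agent.S24 Fermat.Agent.S24.CuspOrd Fermat.Agent.Gateway.Dict.ConjAbs EtaleAlg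

universe u v

/-- **Block G2(b).** The analytic realisation of a Belyi function field. -/
theorem exists_embData_of_belyi {K : Type u} {F : Type v} [Field K] [Field F] [Algebra K F]
    [IsAlgClosed K] [CharZero K] (ι : K →+* ℂ) {β : F} (hβ : Transcendental K β)
    [FiniteDimensional K⟮β⟯ F] (hunr : IsBelyiUnram K β) :
    ∃ (Γ : Subgroup SL(2, ℤ)) (n : ℕ) (D : EmbData K F ι (belyiJ β) Γ),
      FiniteDimensional K⟮belyiJ β⟯ F ∧ Γ.FiniteIndex ∧
        Γ.index ≤ 6 * Module.finrank K⟮β⟯ F ∧ 0 < n ∧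
        (∀ (f : F) (g : SL(2, ℤ)), IsCuspMer n (g • D.emb f)) ∧ Γ ≤ Gamma0 4 ∧
        D.emb β = algebraMap HolFun MerFun t4 := by
  have h0 : β ≠ 0 := ne_zero_of_transcendental hβ
  have h16 : β - 16 ≠ 0 := sub_sixteen_ne_zero hβ
  obtain ⟨emb, hconst, hβt, -⟩ := exists_emb_of_haupt ι hβ t4 isUnit_t4 isUnit_t4_sub hunr
    transcendental_t4 UpperHalfPlane.I
  have hx : emb (belyiJ β) = algebraMap HolFun MerFun jHol :=
    emb_belyiJ_of_haupt t4 isUnit_t4 isUnit_t4_sub emb hβt jHol_mul_t4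
  have hfd : FiniteDimensional K⟮belyiJ β⟯ F := finiteDimensional_adjoin_belyiJ K β h0 h16
  have hK' : ∀ (g : SL(2, ℤ)) (c : K), g • emb (algebraMap K F c) = emb (algebraMap K F c) := by
    intro g c
    rw [hconst, MerFun.sl_smul_algebraMap, HolFun.sl_smul_algebraMap]
  have hx' : ∀ g : SL(2, ℤ), g • emb (belyiJ β) = emb (belyiJ β) := by
    intro g
    rw [hx, MerFun.sl_smul_algebraMap, sl_smul_jHol]
  have hfin : (embStab emb).FiniteIndex := finiteIndex_embStab emb (belyiJ β) hK' hx'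
  have hidx : (embStab emb).index ≤ 6 * Module.finrank K⟮β⟯ F :=
    (index_embStab_le emb (belyiJ β) hK' hx').trans (finrank_adjoin_belyiJ_le K β h0 h16)
  obtain ⟨n, hn, hcusp⟩ := exists_isCuspMer_smul_emb (K := K) emb (belyiJ β)
    (fun c => ⟨ι c, hconst c⟩) hx
  let D : EmbData K F ι (belyiJ β) (embStab emb) :=
    { emb := emb
      emb_const := hconst
      emb_x := hx
      fixed := fun γ hγ f => hγ f
      stab := fun γ h => h }
  refine ⟨embStab emb, n, D, hfd, hfin, hidx, hn, fun f g => hcusp g f, ?_, hβt⟩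
  intro γ hγ
  apply mem_Gamma0_of_smul_t4
  apply IsFractionRing.injective HolFun MerFun
  rw [← MerFun.sl_smul_algebraMap, ← hβt]
  exact hγ β

/-- **`Base.G2bOut` holds.** -/
theorem g2bOut : Base.G2bOut.{u, v} := by
  intro K _ _ _ _ ι F _ _ _ _
  obtain ⟨β, hβ, hfd, hunr⟩ := Base.belyiOut.{u, v} K F
  obtain ⟨Γ, n, D, h1, h2, -, h3, h4, h5, -⟩ := exists_embData_of_belyi ι hβ hunr
  exact ⟨belyiJ β, Γ, n, D, h1, h2, h3, h4, h5⟩

end Fermat.Agent.S27x.G2b
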