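/-
P-S27, block G2(b) (helper85).  The route-independent tail of the analytic realisation:
from a ring homomorphism `emb : F →+* MerFun` which is `ι` on constants and sends the Belyi
function `β` to the level-four Hauptmodul `t4`, the full package required by `Base.G2bOut`:
`EmbData K F ι (belyiJ β) Γ` with `Γ` the stabiliser of `emb`, of finite index, contained in
`Γ₀(4)`, all of whose translates are cusp-meromorphic.
-/
import Mathlib
import Fermat.Agent.Gateway.Dict.ConjAbs
import Fermat.Agent.S27x.G2b.Haupt4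
import Fermat.Agent.S27x.G2b.Stab
import Fermat.Agent.S27x.G2b.BelyiJDeg

set_option autoImplicit false

open UpperHalfPlane IntermediateField
open scoped MatrixGroups

namespace Fermat.Agent.S27x.G2b

open Fermat.Agent.S24 Fermat.Agent.S24.CuspOrd Fermat.Agent.S24.Conj
open Fermat.Agent.Gateway.Dict.ConjAbs

variable {K F : Type*} [Field K] [Field F] [Algebra K F]

/-- `t4 (t4 - 16)⁴ ≠ 0` in `MerFun`. -/
theorem algebraMap_t4_den_ne_zero :
    algebraMap HolFun MerFun t4 * (algebraMap HolFun MerFun t4 - 16) ^ 4 ≠ 0 := by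
  have h1 : algebraMap HolFun MerFun t4 * (algebraMap HolFun MerFun t4 - 16) ^ 4 =
      algebraMap HolFun MerFun (t4 * (t4 - 16) ^ 4) := by
    simp only [map_mul, map_pow, map_sub, map_ofNat]
  rw [h1, Ne, map_eq_zero_iff _ (IsFractionRing.injective HolFun MerFun)]
  intro h
  have h2 := congrArg (fun f : HolFun => (f : ℍ → ℂ) UpperHalfPlane.I) h
  simp only [HolFun.coe_mul_apply, HolFun.coe_pow_apply, HolFun.coe_sub_apply,
    HolFun.coe_zero_apply] at h2
  have e16 : ((16 : HolFun) : ℍ → ℂ) UpperHalfPlane.I = 16 := rfl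
  rw [e16] at h2
  rcases mul_eq_zero.mp h2 with h3 | h3
  · exact t4_ne_zero _ h3
  · exact t4_ne_sixteen _ (sub_eq_zero.mp (pow_eq_zero_iff (by norm_num) |>.mp h3))

/-- If `emb β = t4` then `emb (belyiJ β) = j`. -/
theorem emb_belyiJ (emb : F →+* MerFun) {β : F}
    (hβ : emb β = algebraMap HolFun MerFun t4) :
    emb (belyiJ β) = algebraMap HolFun MerFun jHol := by
  have hrel := congrArg (algebraMap HolFun MerFun) jHol_mul_t4
  simp only [map_mul, map_pow, map_sub, map_add, map_ofNat] at hrel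
  unfold belyiJ
  simp only [map_div₀, map_mul, map_pow, map_sub, map_add, map_ofNat, hβ]
  rw [div_eq_iff algebraMap_t4_den_ne_zero]
  exact hrel.symm

/-- **The tail of G2(b).** -/
theorem exists_embData_of_emb (ι : K →+* ℂ) {β : F} (h0 : β ≠ 0) (h16 : β - 16 ≠ 0)
    [FiniteDimensional K⟮β⟯ F] (emb : F →+* MerFun)
    (hconst : ∀ c : K, emb (algebraMap K F c) =
      algebraMap HolFun MerFun (algebraMap ℂ HolFun (ι c)))
    (hβ : emb β = algebraMap HolFun MerFun t4) :
    ∃ (Γ : Subgroup SL(2, ℤ)) (n : ℕ) (D : EmbData K F ι (belyiJ β) Γ),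
      FiniteDimensional K⟮belyiJ β⟯ F ∧ Γ.FiniteIndex ∧ 0 < n ∧
        (∀ (f : F) (g : SL(2, ℤ)), IsCuspMer n (g • D.emb f)) ∧
        Γ ≤ CongruenceSubgroup.Gamma0 4 := by
  have hx : emb (belyiJ β) = algebraMap HolFun MerFun jHol := emb_belyiJ emb hβ
  have hfd : FiniteDimensional K⟮belyiJ β⟯ F := finiteDimensional_adjoin_belyiJ K β h0 h16
  have hK' : ∀ (g : SL(2, ℤ)) (c : K), g • emb (algebraMap K F c) = emb (algebraMap K F c) := by
    intro g c
    rw [hconst, MerFun.sl_smul_algebraMap, HolFun.sl_smul_algebraMap]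
  have hx' : ∀ g : SL(2, ℤ), g • emb (belyiJ β) = emb (belyiJ β) := by
    intro g
    rw [hx, MerFun.sl_smul_algebraMap, sl_smul_jHol]
  have hfi : (embStab emb).FiniteIndex := finiteIndex_embStab emb (belyiJ β) hK' hx'
  obtain ⟨n, hn, hcusp⟩ := exists_isCuspMer_smul_emb (K := K) emb (belyiJ β)
    (fun c => ⟨ι c, hconst c⟩) hx
  let D : EmbData K F ι (belyiJ β) (embStab emb) :=
    { emb := emb
      emb_const := hconst
      emb_x := hx
      fixed := fun γ hγ f => hγ f
      stab := fun γ h => h }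
  refine ⟨embStab emb, n, D, hfd, hfi, hn, fun f g => hcusp g f, fun γ hγ => ?_⟩
  apply mem_Gamma0_of_smul_t4
  have h1 := hγ β
  rw [hβ, MerFun.sl_smul_algebraMap] at h1
  exact IsFractionRing.injective HolFun MerFun h1

end Fermat.Agent.S27x.G2b
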