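import Mathlib

/-!
# P-S27 (G2b, F5): ring homomorphisms from unique solvability of linear ODE systems (helper48)

Abstract form of step (HOM) of note 908 (helper85).

* `(R, δ)` is a commutative ring with a derivation (`R = ` holomorphic functions on `ℍ`),
  `ev : R →+* C` an evaluation (`C = ℂ`, evaluation at `i`), and `LinODE δ ev` says that every
  linear system `δ Y = N Y` over `R` has a unique solution with prescribed values under `ev`.
* `B` is an `A`-algebra, free with basis `b`, with a derivation `DB` extending a map `DA` of `A`.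
* `θ : A →+* R` satisfies the chain rule `δ (θ a) = τ * θ (DA a)`.
* `ψ : B →+* C` is a ring homomorphism over `ev ∘ θ`.

Then there is a unique ring homomorphism `φ : B →+* R` over `θ` with
`δ (φ x) = τ * φ (DB x)` and `ev ∘ φ = ψ`  (`exists_unique_ringHom_of_linODE`).
If moreover `R`, `B` are domains, `θ` is injective and `B` is integral over `A`, then `φ` is
injective (`ringHom_injective_of_isIntegral`).
-/

set_option autoImplicit false

namespace Fermat.Agent.S27x.G2b.HomAbs

open Matrix

section LinODE

variable {R C : Type*} [CommRing R] [CommRing C]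

/-- Unique solvability of linear systems `δ Y = N Y` with prescribed values under `ev`. -/
structure LinODE (δ : R → R) (ev : R →+* C) : Prop where
  solve : ∀ (n : ℕ) (N : Matrix (Fin n) (Fin n) R) (y0 : Fin n → C),
    ∃! Y : Fin n → R, (∀ i, δ (Y i) = ∑ j, N i j * Y j) ∧ ∀ i, ev (Y i) = y0 i

namespace LinODE

variable {δ : R → R} {ev : R →+* C}

/-- `LinODE` for systems indexed by an arbitrary finite type. -/
theorem solve_fintype (h : LinODE δ ev) {ι : Type*} [Fintype ι] (N : Matrix ι ι R)
    (y0 : ι → C) :
    ∃! Y : ι → R, (∀ i, δ (Y i) = ∑ j, N i j * Y j) ∧ ∀ i, ev (Y i) = y0 i := by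
  classical
  let e : ι ≃ Fin (Fintype.card ι) := Fintype.equivFin ι
  obtain ⟨Y, ⟨hY1, hY2⟩, hYu⟩ := h.solve (Fintype.card ι)
    (fun a b => N (e.symm a) (e.symm b)) (fun a => y0 (e.symm a))
  refine ⟨fun i => Y (e i), ⟨fun i => ?_, fun i => ?_⟩, ?_⟩
  · have := hY1 (e i)
    simp only [Equiv.symm_apply_apply] at this
    rw [this, ← Equiv.sum_comp e]
    simp
  · simpa using hY2 (e i)
  · rintro Y' ⟨h1, h2⟩
    have key : (fun a => Y' (e.symm a)) = Y := by
      refine hYu _ ⟨fun a => ?_, fun a => h2 _⟩
      rw [h1]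
      exact (Equiv.sum_comp e.symm (fun j => N (e.symm a) j * Y' j)).symm
    funext i
    have := congrFun key (e i)
    simpa using this

/-- A solution of a homogeneous system with vanishing values vanishes. -/
theorem eq_zero (h : LinODE δ ev) (hδ0 : δ 0 = 0) {ι : Type*} [Fintype ι] (N : Matrix ι ι R)
    {Y : ι → R} (hY : ∀ i, δ (Y i) = ∑ j, N i j * Y j) (h0 : ∀ i, ev (Y i) = 0) :
    ∀ i, Y i = 0 := by
  obtain ⟨Z, _, hZu⟩ := h.solve_fintype N (fun _ => 0)
  have h1 : Y = Z := hZu Y ⟨hY, h0⟩
  have h2 : (fun _ => 0 : ι → R) = Z := hZu _ ⟨fun i => by simp [hδ0], fun i => by simp⟩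
  intro i
  rw [h1, ← h2]

end LinODE

end LinODE

section Semilinear

variable {A B S ι : Type*} [CommRing A] [CommRing B] [Algebra A B] [CommRing S] [Fintype ι]

/-- Expansion of an additive `θ'`-semilinear map in a basis. -/
theorem semilinear_expand (b : Module.Basis ι A B) (θ' : A →+* S) (E : B → S)
    (hadd : ∀ x y, E (x + y) = E x + E y) (hsmul : ∀ (a : A) (x : B), E (a • x) = θ' a * E x)
    (x : B) : E x = ∑ k, θ' (b.repr x k) * E (b k) := by
  have h0 : E 0 = 0 := by
    have := hadd 0 0
    simpa using this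
  let Eh : B →+ S := ⟨⟨E, h0⟩, hadd⟩
  have hE : ∀ y, E y = Eh y := fun _ => rfl
  conv_lhs => rw [← b.sum_repr x]
  rw [hE, map_sum]
  refine Finset.sum_congr rfl fun k _ => ?_
  exact hsmul _ _

/-- An additive `θ'`-semilinear map vanishing on a basis vanishes. -/
theorem semilinear_eq_zero (b : Module.Basis ι A B) (θ' : A →+* S) (E : B → S)
    (hadd : ∀ x y, E (x + y) = E x + E y) (hsmul : ∀ (a : A) (x : B), E (a • x) = θ' a * E x)
    (hb : ∀ k, E (b k) = 0) (x : B) : E x = 0 := by
  rw [semilinear_expand b θ' E hadd hsmul x]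
  simp [hb]

end Semilinear

section Derivations

variable {R : Type*} [CommRing R] (δ : R → R)

theorem deriv_zero (hδa : ∀ x y, δ (x + y) = δ x + δ y) : δ 0 = 0 := by
  have := hδa 0 0
  simpa using this

theorem deriv_one (hδm : ∀ x y, δ (x * y) = δ x * y + x * δ y) : δ 1 = 0 := by
  have := hδm 1 1
  simpa using this

theorem deriv_neg (hδa : ∀ x y, δ (x + y) = δ x + δ y) (x : R) : δ (-x) = -δ x := by
  have := hδa x (-x)
  rw [add_neg_cancel, deriv_zero δ hδa] at this
  exact eq_neg_of_add_eq_zero_right this.symm

theorem deriv_sub (hδa : ∀ x y, δ (x + y) = δ x + δ y) (x y : R) : δ (x - y) = δ x - δ y := by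
  rw [sub_eq_add_neg, hδa, deriv_neg δ hδa, ← sub_eq_add_neg]

theorem deriv_sum (hδa : ∀ x y, δ (x + y) = δ x + δ y) {ι : Type*} (s : Finset ι) (f : ι → R) :
    δ (∑ i ∈ s, f i) = ∑ i ∈ s, δ (f i) := by
  let δh : R →+ R := ⟨⟨δ, deriv_zero δ hδa⟩, hδa⟩
  exact map_sum δh f s

end Derivations

section Construction

variable {R C A B ι : Type*} [CommRing R] [CommRing C] [CommRing A] [CommRing B] [Algebra A B]
  [Fintype ι]

/-- The connection matrix of `DB` in the basis `b`: `DB (b i) = ∑ j, M i j • b j`. -/
noncomputable def connMatrix (DB : B → B) (b : Module.Basis ι A B) : Matrix ι ι A :=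
  fun i j => b.repr (DB (b i)) j

/-- The candidate homomorphism attached to a solution vector `Y`. -/
noncomputable def candidate (b : Module.Basis ι A B) (θ : A →+* R) (Y : ι → R) (x : B) : R :=
  ∑ i, θ (b.repr x i) * Y i

variable (b : Module.Basis ι A B) (θ : A →+* R) (Y : ι → R)

theorem candidate_add (x y : B) :
    candidate b θ Y (x + y) = candidate b θ Y x + candidate b θ Y y := by
  simp only [candidate, map_add, Finsupp.coe_add, Pi.add_apply, add_mul, Finset.sum_add_distrib]

theorem candidate_smul (a : A) (x : B) :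
    candidate b θ Y (a • x) = θ a * candidate b θ Y x := by
  simp only [candidate, map_smul, Finsupp.coe_smul, Pi.smul_apply, smul_eq_mul, map_mul,
    Finset.mul_sum, mul_assoc]

theorem candidate_basis (i : ι) : candidate b θ Y (b i) = Y i := by
  simp only [candidate, Module.Basis.repr_self]
  rw [Finset.sum_eq_single i]
  · simp
  · intro j _ hj
    simp [hj.symm]
  · intro h
    exact absurd (Finset.mem_univ i) h

theorem candidate_zero : candidate b θ Y 0 = 0 := by
  simp [candidate]

theorem candidate_algebraMap_mul (a : A) (x : B) :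
    candidate b θ Y (algebraMap A B a * x) = θ a * candidate b θ Y x := by
  rw [← Algebra.smul_def, candidate_smul]

variable (δ : R → R) (hδa : ∀ x y, δ (x + y) = δ x + δ y)
  (hδm : ∀ x y, δ (x * y) = δ x * y + x * δ y) (ev : R →+* C)
  (DA : A → A) (DB : B → B) (hDa : ∀ x y, DB (x + y) = DB x + DB y)
  (hDm : ∀ x y, DB (x * y) = DB x * y + x * DB y)
  (hDA : ∀ a, DB (algebraMap A B a) = algebraMap A B (DA a))
  (τ : R) (hchain : ∀ a, δ (θ a) = τ * θ (DA a))
  (ψ : B →+* C) (hψ : ∀ a, ψ (algebraMap A B a) = ev (θ a))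
  (hY : ∀ i, δ (Y i) = ∑ j, (τ * θ (connMatrix DB b i j)) * Y j)
  (hY0 : ∀ i, ev (Y i) = ψ (b i))

include hDm hDA in
theorem DB_smul (a : A) (x : B) : DB (a • x) = DA a • x + a • DB x := by
  rw [Algebra.smul_def, hDm, hDA, ← Algebra.smul_def, ← Algebra.smul_def]

include hδa hδm hDa hDm hDA hchain hY in
/-- (a) The candidate intertwines `DB` and `δ` (up to the factor `τ`). -/
theorem deriv_candidate (x : B) :
    δ (candidate b θ Y x) = τ * candidate b θ Y (DB x) := by
  have key := semilinear_eq_zero b θ
    (fun x => δ (candidate b θ Y x) - τ * candidate b θ Y (DB x)) ?_ ?_ ?_ x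
  · exact sub_eq_zero.mp key
  · intro x y
    simp only [candidate_add, hδa, hDa]
    ring
  · intro a x
    simp only [candidate_smul, hδm, hchain, DB_smul DA DB hDm hDA, candidate_add]
    ring
  · intro i
    show δ (candidate b θ Y (b i)) - τ * candidate b θ Y (DB (b i)) = 0
    rw [candidate_basis, hY, sub_eq_zero]
    simp only [candidate, connMatrix, Finset.mul_sum]
    exact Finset.sum_congr rfl fun j _ => by ring

include hψ hY0 in
/-- (b) The candidate has the prescribed values. -/
theorem ev_candidate (x : B) : ev (candidate b θ Y x) = ψ x := by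
  have key := semilinear_eq_zero b (ev.comp θ)
    (fun x => ev (candidate b θ Y x) - ψ x) ?_ ?_ ?_ x
  · exact sub_eq_zero.mp key
  · intro x y
    simp only [candidate_add, map_add]
    ring
  · intro a x
    have e : ψ (a • x) = ev (θ a) * ψ x := by rw [Algebra.smul_def, map_mul, hψ]
    simp only [candidate_smul, map_mul, e, RingHom.comp_apply]
    ring
  · intro i
    simp only [candidate_basis, hY0, sub_self]

/-- The multiplicativity defect of the candidate. -/
noncomputable def defect (x y : B) : R := candidate b θ Y (x * y) - candidate b θ Y x * candidate b θ Y y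

theorem defect_add_left (x x' y : B) :
    defect b θ Y (x + x') y = defect b θ Y x y + defect b θ Y x' y := by
  simp only [defect, add_mul, candidate_add]
  ring

theorem defect_smul_left (a : A) (x y : B) :
    defect b θ Y (a • x) y = θ a * defect b θ Y x y := by
  simp only [defect, smul_mul_assoc, candidate_smul]
  ring

theorem defect_add_right (x y y' : B) :
    defect b θ Y x (y + y') = defect b θ Y x y + defect b θ Y x y' := by
  simp only [defect, mul_add, candidate_add]
  ring

theorem defect_smul_right (a : A) (x y : B) :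
    defect b θ Y x (a • y) = θ a * defect b θ Y x y := by
  simp only [defect, mul_smul_comm, candidate_smul]
  ring

include hδa hδm hDa hDm hDA hchain hY in
theorem deriv_defect (x y : B) :
    δ (defect b θ Y x y) = τ * (defect b θ Y (DB x) y + defect b θ Y x (DB y)) := by
  have hc := deriv_candidate b θ Y δ hδa hδm DA DB hDa hDm hDA τ hchain hY
  simp only [defect, deriv_sub δ hδa, hδm, hc, hDm, candidate_add]
  ring

include hδa hδm hDa hDm hDA hchain hY in
theorem deriv_defect_basis [DecidableEq ι] (i j : ι) :
    δ (defect b θ Y (b i) (b j)) =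
      ∑ p : ι × ι, (τ * ((if p.2 = j then θ (connMatrix DB b i p.1) else 0) +
        (if p.1 = i then θ (connMatrix DB b j p.2) else 0))) * defect b θ Y (b p.1) (b p.2) := by
  rw [deriv_defect b θ Y δ hδa hδm DA DB hDa hDm hDA τ hchain hY]
  have e1 : defect b θ Y (DB (b i)) (b j) =
      ∑ k, θ (connMatrix DB b i k) * defect b θ Y (b k) (b j) :=
    semilinear_expand b θ (fun x => defect b θ Y x (b j))
      (fun x x' => defect_add_left b θ Y x x' (b j))
      (fun a x => defect_smul_left b θ Y a x (b j)) (DB (b i))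
  have e2 : defect b θ Y (b i) (DB (b j)) =
      ∑ l, θ (connMatrix DB b j l) * defect b θ Y (b i) (b l) :=
    semilinear_expand b θ (fun y => defect b θ Y (b i) y)
      (fun y y' => defect_add_right b θ Y (b i) y y')
      (fun a y => defect_smul_right b θ Y a (b i) y) (DB (b j))
  rw [e1, e2, Fintype.sum_prod_type]
  have hR : ∀ k l : ι, (τ * ((if l = j then θ (connMatrix DB b i k) else 0) +
      (if k = i then θ (connMatrix DB b j l) else 0))) * defect b θ Y (b k) (b l) =
      τ * ((if l = j then θ (connMatrix DB b i k) * defect b θ Y (b k) (b l) else 0) +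
        (if k = i then θ (connMatrix DB b j l) * defect b θ Y (b k) (b l) else 0)) := by
    intro k l
    split_ifs <;> ring
  simp only [hR]
  simp only [← Finset.mul_sum, Finset.sum_add_distrib]
  congr 2
  · refine Finset.sum_congr rfl fun k _ => ?_
    rw [Finset.sum_ite_eq' Finset.univ j]
    simp
  · rw [Finset.sum_comm]
    refine Finset.sum_congr rfl fun l _ => ?_
    rw [Finset.sum_ite_eq' Finset.univ i]
    simp

include hδa hδm hDa hDm hDA hchain hψ hY hY0 in
/-- (c) The candidate is multiplicative. -/
theorem candidate_mul (h : LinODE δ ev) (x y : B) :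
    candidate b θ Y (x * y) = candidate b θ Y x * candidate b θ Y y := by
  classical
  have hev := ev_candidate b θ Y ev ψ hψ hY0
  -- the defects on the basis vanish
  have hZ : ∀ p : ι × ι, defect b θ Y (b p.1) (b p.2) = 0 := by
    refine h.eq_zero (deriv_zero δ hδa)
      (fun p p' : ι × ι => τ * ((if p'.2 = p.2 then θ (connMatrix DB b p.1 p'.1) else 0) +
        (if p'.1 = p.1 then θ (connMatrix DB b p.2 p'.2) else 0)))
      (Y := fun p : ι × ι => defect b θ Y (b p.1) (b p.2)) ?_ ?_
    · intro p
      exact deriv_defect_basis b θ Y δ hδa hδm DA DB hDa hDm hDA τ hchain hY p.1 p.2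
    · intro p
      simp only [defect, map_sub, map_mul, hev, sub_self]
  have hz : ∀ x y, defect b θ Y x y = 0 := by
    intro x y
    refine semilinear_eq_zero b θ (fun x => defect b θ Y x y)
      (fun x x' => defect_add_left b θ Y x x' y)
      (fun a x => defect_smul_left b θ Y a x y) (fun k => ?_) x
    exact semilinear_eq_zero b θ (fun y => defect b θ Y (b k) y)
      (fun y y' => defect_add_right b θ Y (b k) y y')
      (fun a y => defect_smul_right b θ Y a (b k) y) (fun l => hZ (k, l)) y
  exact sub_eq_zero.mp (hz x y)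

include hδa hδm hDa hDm hDA hchain hψ hY hY0 in
/-- (d) The candidate maps `1` to `1`. -/
theorem candidate_one (h : LinODE δ ev) : candidate b θ Y 1 = 1 := by
  have hc := deriv_candidate b θ Y δ hδa hδm DA DB hDa hDm hDA τ hchain hY
  have hev := ev_candidate b θ Y ev ψ hψ hY0
  have hw := h.eq_zero (deriv_zero δ hδa) (0 : Matrix Unit Unit R)
    (Y := fun _ => candidate b θ Y 1 - 1) ?_ ?_ ()
  · exact sub_eq_zero.mp hw
  · intro _
    simp only [deriv_sub δ hδa, hc, deriv_one DB hDm, deriv_one δ hδm, candidate_zero, mul_zero,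
      sub_self, Matrix.zero_apply, zero_mul, Finset.sum_const_zero]
  · intro _
    simp only [map_sub, hev, map_one, sub_self]

end Construction

section Main

variable {R C A B ι : Type*} [CommRing R] [CommRing C] [CommRing A] [CommRing B] [Algebra A B]
  [Fintype ι]

/-- **(HOM), abstract form.**  Existence and uniqueness of the ring homomorphism `φ : B →+* R`
over `θ` which intertwines the derivations and has prescribed values `ψ` under `ev`. -/
theorem exists_unique_ringHom_of_linODE
    (δ : R → R) (hδa : ∀ x y, δ (x + y) = δ x + δ y)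
    (hδm : ∀ x y, δ (x * y) = δ x * y + x * δ y) (ev : R →+* C) (h : LinODE δ ev)
    (DA : A → A) (DB : B → B) (hDa : ∀ x y, DB (x + y) = DB x + DB y)
    (hDm : ∀ x y, DB (x * y) = DB x * y + x * DB y)
    (hDA : ∀ a, DB (algebraMap A B a) = algebraMap A B (DA a))
    (b : Module.Basis ι A B) (θ : A →+* R) (τ : R) (hchain : ∀ a, δ (θ a) = τ * θ (DA a))
    (ψ : B →+* C) (hψ : ∀ a, ψ (algebraMap A B a) = ev (θ a)) :
    ∃! φ : B →+* R, (∀ a, φ (algebraMap A B a) = θ a) ∧ (∀ x, δ (φ x) = τ * φ (DB x)) ∧
      ∀ x, ev (φ x) = ψ x := by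
  classical
  obtain ⟨Y, ⟨hY, hY0⟩, hYu⟩ := h.solve_fintype
    (fun i j => τ * θ (connMatrix DB b i j)) (fun i => ψ (b i))
  have hone := candidate_one b θ Y δ hδa hδm ev DA DB hDa hDm hDA τ hchain ψ hψ hY hY0 h
  have hmul := candidate_mul b θ Y δ hδa hδm ev DA DB hDa hDm hDA τ hchain ψ hψ hY hY0 h
  let φ : B →+* R :=
    { toFun := candidate b θ Y
      map_one' := hone
      map_mul' := hmul
      map_zero' := candidate_zero b θ Y
      map_add' := candidate_add b θ Y }
  have hφ : ∀ x, φ x = candidate b θ Y x := fun _ => rfl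
  refine ⟨φ, ⟨fun a => ?_, fun x => ?_, fun x => ?_⟩, ?_⟩
  · have := candidate_algebraMap_mul b θ Y a 1
    rw [mul_one, hone, mul_one] at this
    exact this
  · exact deriv_candidate b θ Y δ hδa hδm DA DB hDa hDm hDA τ hchain hY x
  · exact ev_candidate b θ Y ev ψ hψ hY0 x
  · rintro φ' ⟨h1, h2, h3⟩
    have hsm : ∀ (a : A) (x : B), φ' (a • x) = θ a * φ' x := by
      intro a x
      rw [Algebra.smul_def, map_mul, h1]
    -- `φ'` on the basis solves the same system
    have hY' : (fun i => φ' (b i)) = Y := by
      refine hYu _ ⟨fun i => ?_, fun i => h3 _⟩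
      rw [h2]
      have e : φ' (DB (b i)) = ∑ k, θ (b.repr (DB (b i)) k) * φ' (b k) :=
        semilinear_expand b θ (fun x => φ' x) (fun x y => map_add φ' x y) hsm (DB (b i))
      rw [e, Finset.mul_sum]
      refine Finset.sum_congr rfl fun j _ => ?_
      rw [show connMatrix DB b i j = b.repr (DB (b i)) j from rfl]
      ring
    ext x
    have key := semilinear_eq_zero b θ (fun x => φ' x - φ x) ?_ ?_ ?_ x
    · exact sub_eq_zero.mp key
    · intro x y
      simp only [map_add]
      ring
    · intro a x
      simp only [hsm, hφ, candidate_smul]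
      ring
    · intro k
      simp only [hφ, candidate_basis]
      rw [sub_eq_zero]
      exact congrFun hY' k

/-- Injectivity of a ring homomorphism over an injective `θ`, for an integral extension of
domains. -/
theorem ringHom_injective_of_isIntegral [IsDomain R] [IsDomain B] [Nontrivial A]
    [Algebra.IsIntegral A B] (θ : A →+* R) (hθ : Function.Injective θ) (φ : B →+* R)
    (hφ : ∀ a, φ (algebraMap A B a) = θ a) : Function.Injective φ := by
  rw [RingHom.injective_iff_ker_eq_bot]
  apply Ideal.eq_bot_of_comap_eq_bot (R := A)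
  rw [eq_bot_iff]
  intro a ha
  rw [Ideal.mem_comap, RingHom.mem_ker, hφ] at ha
  rw [Ideal.mem_bot]
  exact hθ (by rw [ha, map_zero])

end Main

end Fermat.Agent.S27x.G2b.HomAbs
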